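/-
Program MW-H (S17), brick E1 (helper49), part 1: VALUES AND LEADING COEFFICIENTS AT PLACES.

Objects: `Defs7.evalAt`, `Defs7.leadAt`.  Setting: `F / K` any extension of fields, `P : Place K F`.

* `IsValAt P f a` : "`f` is regular at `P` with value `a`", i.e. `|f - a|_P < 1`; values are unique
  (`IsValAt.unique`), compatible with `+ * - ⁻¹` and constants, and `evalAt P f = a` as soon as
  `IsValAt P f a` (`IsValAt.evalAt_eq`).
* `HasResK P` : every function regular at `P` has a value in `K` (the residue field is `K`);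
  true for all places when `K` is algebraically closed and `F` is algebraic over some `K⟮x⟯`
  (`hasResK_of_isAlgClosed`, from `X0/FFResidue`).
* under `HasResK P`: `evalAt_spec`, `evalAt_add`, `evalAt_mul`, …, `evalAt_eq_zero_iff`,
  the `K`-algebra homomorphism `evalAtHom` with kernel the maximal ideal.
* `leadAt`: `leadAt_ne_zero`, `leadAt_mul`, `leadAt_inv`, `leadAt_algebraMap`, `leadAt_self`,
  `leadAt_zpow`, the first order expansion `ord_sub_leadAt_mul_zpow`.
* equivariance under `SemilinearAut K F`: `IsValAt.smul`, `evalAt_smul`, `leadAt_smul`.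
* the contracts: `evalEquivariant : Bricks7.EvalEquivariant K F` (no hypothesis),
  `evalSpec : Bricks7.EvalSpec K F`, `leadMul : Bricks7.LeadMul K F`.
-/
import Mathlib
import Fermat.Agent.MW.Spec.Bricks7
import Fermat.Agent.X0.FFResidue
import Fermat.Agent.X0.FFDict

set_option autoImplicit false

open AlgebraicCurve IntermediateField

namespace Fermat.Agent.MW.FF.EvalLead49

open Fermat.Agent.MW.Spec.Defs7 Fermat.Agent.MW.Spec.Bricks7 Fermat.Agent.X0

variable {K F : Type*} [Field K] [Field F] [Algebra K F]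

/-! ### Bridges between `adicValuation` and `ord` -/

section Bridge

variable (P : Place K F)

theorem adicValuation_lt_one_iff {f : F} : P.adicValuation f < 1 ↔ f = 0 ∨ 0 < P.ord f := by
  rcases eq_or_ne f 0 with rfl | hf
  · simp
  · rw [P.adicValuation_eq_exp_neg_ord hf, ← WithZero.exp_zero, WithZero.exp_lt_exp,
      or_iff_right hf]
    omega

theorem adicValuation_eq_one_iff {f : F} (hf : f ≠ 0) : P.adicValuation f = 1 ↔ P.ord f = 0 := by
  rw [P.adicValuation_eq_exp_neg_ord hf, ← WithZero.exp_zero, WithZero.exp_injective.eq_iff]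
  omega

theorem ord_sub_pos {f g : F} (hf : f = 0 ∨ 0 < P.ord f) (hg : g = 0 ∨ 0 < P.ord g) :
    f - g = 0 ∨ 0 < P.ord (f - g) := by
  rw [← adicValuation_lt_one_iff] at hf hg ⊢
  exact lt_of_le_of_lt (P.adicValuation.map_sub f g) (max_lt hf hg)

theorem ord_add_pos {f g : F} (hf : f = 0 ∨ 0 < P.ord f) (hg : g = 0 ∨ 0 < P.ord g) :
    f + g = 0 ∨ 0 < P.ord (f + g) := by
  rw [← adicValuation_lt_one_iff] at hf hg ⊢
  exact lt_of_le_of_lt (P.adicValuation.map_add f g) (max_lt hf hg)

end Bridge

/-! ### Values -/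

/-- `f` is regular at `P` with value `a`. -/
def IsValAt (P : Place K F) (f : F) (a : K) : Prop :=
  P.adicValuation (f - algebraMap K F a) < 1

section Val

variable {P : Place K F} {f g : F} {a b : K}

theorem isValAt_iff : IsValAt P f a ↔
    f - algebraMap K F a = 0 ∨ 0 < P.ord (f - algebraMap K F a) :=
  adicValuation_lt_one_iff P

theorem isValAt_algebraMap (a : K) : IsValAt P (algebraMap K F a) a := by
  rw [isValAt_iff]; left; exact sub_self _

theorem isValAt_zero : IsValAt P (0 : F) 0 := by
  simpa using isValAt_algebraMap (P := P) (0 : K)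

theorem isValAt_one : IsValAt P (1 : F) 1 := by
  simpa using isValAt_algebraMap (P := P) (1 : K)

theorem isValAt_zero_iff : IsValAt P f 0 ↔ P.adicValuation f < 1 := by
  unfold IsValAt; rw [map_zero, sub_zero]

theorem isValAt_zero_iff_ord : IsValAt P f 0 ↔ f = 0 ∨ 0 < P.ord f := by
  rw [isValAt_zero_iff, adicValuation_lt_one_iff]

/-- A function with a value at `P` is regular at `P`. -/
theorem IsValAt.adicValuation_le_one (h : IsValAt P f a) : P.adicValuation f ≤ 1 := by
  have h1 : f = (f - algebraMap K F a) + algebraMap K F a := by ring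
  rw [h1]
  exact (P.adicValuation.map_add _ _).trans
    (max_le (le_of_lt h) (P.adicValuation_algebraMap_le_one a))

theorem IsValAt.ord_nonneg (h : IsValAt P f a) : 0 ≤ P.ord f := by
  rcases P.adicValuation_le_one_iff.mp h.adicValuation_le_one with rfl | h
  · simp
  · exact h

/-- Values are unique. -/
theorem IsValAt.unique (h : IsValAt P f a) (h' : IsValAt P f b) : a = b := by
  by_contra hab
  have hne : algebraMap K F (b - a) ≠ 0 := by
    rw [ne_eq, map_eq_zero_iff _ (algebraMap K F).injective, sub_eq_zero]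
    exact fun h => hab h.symm
  have h1 : (f - algebraMap K F a) - (f - algebraMap K F b) = algebraMap K F (b - a) := by
    rw [map_sub]; ring
  have h2 := ord_sub_pos P (isValAt_iff.mp h) (isValAt_iff.mp h')
  rw [h1] at h2
  rcases h2 with h2 | h2
  · exact hne h2
  · rw [FF.ord_algebraMap] at h2
    exact lt_irrefl _ h2

theorem IsValAt.add (h : IsValAt P f a) (h' : IsValAt P g b) : IsValAt P (f + g) (a + b) := by
  rw [isValAt_iff] at h h' ⊢
  have := ord_add_pos P h h'
  have e : f + g - algebraMap K F (a + b) = (f - algebraMap K F a) + (g - algebraMap K F b) := by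
    rw [map_add]; ring
  rwa [e]

theorem IsValAt.neg (h : IsValAt P f a) : IsValAt P (-f) (-a) := by
  unfold IsValAt at h ⊢
  have e : -f - algebraMap K F (-a) = -(f - algebraMap K F a) := by rw [map_neg]; ring
  rwa [e, Valuation.map_neg]

theorem IsValAt.sub (h : IsValAt P f a) (h' : IsValAt P g b) : IsValAt P (f - g) (a - b) := by
  simpa [sub_eq_add_neg] using h.add h'.neg

theorem IsValAt.mul (h : IsValAt P f a) (h' : IsValAt P g b) : IsValAt P (f * g) (a * b) := by
  have hg := h'.adicValuation_le_one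
  unfold IsValAt at h h' ⊢
  have e : f * g - algebraMap K F (a * b) =
      (f - algebraMap K F a) * g + algebraMap K F a * (g - algebraMap K F b) := by
    rw [map_mul]; ring
  rw [e]
  refine lt_of_le_of_lt (P.adicValuation.map_add _ _) (max_lt ?_ ?_)
  · rw [map_mul]
    calc P.adicValuation (f - algebraMap K F a) * P.adicValuation g
        ≤ P.adicValuation (f - algebraMap K F a) * 1 := by gcongr
      _ < 1 := by rwa [mul_one]
  · rw [map_mul]
    calc P.adicValuation (algebraMap K F a) * P.adicValuation (g - algebraMap K F b)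
        ≤ 1 * P.adicValuation (g - algebraMap K F b) := by
          gcongr
          exact P.adicValuation_algebraMap_le_one a
      _ < 1 := by rwa [one_mul]

theorem IsValAt.pow (h : IsValAt P f a) (n : ℕ) : IsValAt P (f ^ n) (a ^ n) := by
  induction n with
  | zero => simpa using isValAt_one (P := P)
  | succ n ih => rw [pow_succ, pow_succ]; exact ih.mul h

theorem IsValAt.smul (h : IsValAt P f a) (c : K) : IsValAt P (c • f) (c * a) := by
  rw [Algebra.smul_def]
  exact (isValAt_algebraMap c).mul h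

/-- A function with a nonzero value at `P` is a unit at `P`. -/
theorem IsValAt.ord_eq_zero (h : IsValAt P f a) (ha : a ≠ 0) : f ≠ 0 ∧ P.ord f = 0 := by
  have hne : f ≠ 0 := by
    rintro rfl
    exact ha (h.unique isValAt_zero)
  refine ⟨hne, le_antisymm ?_ h.ord_nonneg⟩
  by_contra hpos
  rw [not_le] at hpos
  exact ha (h.unique (isValAt_zero_iff_ord.mpr (Or.inr hpos)))

theorem IsValAt.eq_zero_iff (h : IsValAt P f a) : a = 0 ↔ f = 0 ∨ 0 < P.ord f := by
  constructor
  · rintro rfl
    exact isValAt_zero_iff_ord.mp h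
  · intro h0
    exact h.unique (isValAt_zero_iff_ord.mpr h0)

theorem IsValAt.inv (h : IsValAt P f a) (ha : a ≠ 0) : IsValAt P f⁻¹ a⁻¹ := by
  obtain ⟨hf, hord⟩ := h.ord_eq_zero ha
  have haF : algebraMap K F a ≠ 0 := by
    rwa [ne_eq, map_eq_zero_iff _ (algebraMap K F).injective]
  rw [isValAt_iff] at h ⊢
  have e : f⁻¹ - algebraMap K F a⁻¹ = -(f - algebraMap K F a) * (f⁻¹ * (algebraMap K F a)⁻¹) := by
    rw [map_inv₀]; field_simp; ring
  rcases h with h | h
  · left; rw [e, h]; ring
  · by_cases h0 : f - algebraMap K F a = 0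
    · left; rw [e, h0]; ring
    right
    rw [e, P.ord_mul (neg_ne_zero.mpr h0) (mul_ne_zero (inv_ne_zero hf) (inv_ne_zero haF)),
      FF.ord_neg, P.ord_mul (inv_ne_zero hf) (inv_ne_zero haF), P.ord_inv, P.ord_inv, hord,
      FF.ord_algebraMap]
    simpa using h

/-- `evalAt` computes the value. -/
theorem IsValAt.evalAt_eq (h : IsValAt P f a) : evalAt P f = a := by
  classical
  have hex : ∃ a : K, P.adicValuation (f - algebraMap K F a) < 1 := ⟨a, h⟩
  unfold evalAt
  rw [dif_pos hex]
  exact IsValAt.unique (P := P) hex.choose_spec h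

theorem evalAt_of_forall_not (h : ∀ a : K, ¬IsValAt P f a) : evalAt P f = 0 := by
  classical
  unfold evalAt
  rw [dif_neg]
  rintro ⟨a, ha⟩
  exact h a ha

@[simp] theorem evalAt_algebraMap (P : Place K F) (a : K) : evalAt P (algebraMap K F a) = a :=
  (isValAt_algebraMap a).evalAt_eq

@[simp] theorem evalAt_zero (P : Place K F) : evalAt P (0 : F) = 0 :=
  isValAt_zero.evalAt_eq

@[simp] theorem evalAt_one (P : Place K F) : evalAt P (1 : F) = 1 :=
  isValAt_one.evalAt_eq

/-- A function that is not regular at `P` has the junk value `0`. -/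
theorem evalAt_of_ord_neg (h : P.ord f < 0) : evalAt P f = 0 :=
  evalAt_of_forall_not fun _ ha => absurd ha.ord_nonneg (not_le.mpr h)

end Val

/-! ### Places with residue field `K` -/

/-- The residue field of `P` is `K`: every function regular at `P` has a value in `K`. -/
def HasResK (P : Place K F) : Prop :=
  ∀ f : F, P.adicValuation f ≤ 1 → ∃ a : K, IsValAt P f a

/-- Over an algebraically closed constant field all places of a function field in one variable
have residue field `K`. -/
theorem hasResK_of_isAlgClosed [IsAlgClosed K] (x : F) (halg : Algebra.IsAlgebraic K⟮x⟯ F)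
    (P : Place K F) : HasResK P := by
  intro f hf
  have hmem : f ∈ P.toValuationSubring :=
    (FF.mem_iff_ord_nonneg P).mpr (P.adicValuation_le_one_iff.mp hf)
  obtain ⟨c, hc⟩ := FF.ffp_exists_ord_sub_pos P x halg hmem
  refine ⟨c, isValAt_iff.mpr ?_⟩
  rcases hc with hc | hc
  · left; rw [hc, sub_self]
  · right; exact hc

section ResK

variable {P : Place K F} (hP : HasResK P) {f g : F}

include hP

theorem evalAt_spec (hf : P.adicValuation f ≤ 1) : IsValAt P f (evalAt P f) := by
  obtain ⟨a, ha⟩ := hP f hf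
  rwa [ha.evalAt_eq]

theorem evalAt_spec_of_ord (hf : 0 ≤ P.ord f) : IsValAt P f (evalAt P f) :=
  evalAt_spec hP (P.adicValuation_le_one_iff.mpr (Or.inr hf))

theorem evalAt_add (hf : P.adicValuation f ≤ 1) (hg : P.adicValuation g ≤ 1) :
    evalAt P (f + g) = evalAt P f + evalAt P g :=
  ((evalAt_spec hP hf).add (evalAt_spec hP hg)).evalAt_eq

theorem evalAt_sub (hf : P.adicValuation f ≤ 1) (hg : P.adicValuation g ≤ 1) :
    evalAt P (f - g) = evalAt P f - evalAt P g :=
  ((evalAt_spec hP hf).sub (evalAt_spec hP hg)).evalAt_eq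

theorem evalAt_neg (hf : P.adicValuation f ≤ 1) : evalAt P (-f) = -evalAt P f :=
  (evalAt_spec hP hf).neg.evalAt_eq

theorem evalAt_mul (hf : P.adicValuation f ≤ 1) (hg : P.adicValuation g ≤ 1) :
    evalAt P (f * g) = evalAt P f * evalAt P g :=
  ((evalAt_spec hP hf).mul (evalAt_spec hP hg)).evalAt_eq

theorem evalAt_pow (hf : P.adicValuation f ≤ 1) (n : ℕ) : evalAt P (f ^ n) = evalAt P f ^ n :=
  ((evalAt_spec hP hf).pow n).evalAt_eq

theorem evalAt_smul (c : K) (hf : P.adicValuation f ≤ 1) : evalAt P (c • f) = c * evalAt P f :=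
  ((evalAt_spec hP hf).smul c).evalAt_eq

theorem evalAt_eq_zero_iff (hf : P.adicValuation f ≤ 1) :
    evalAt P f = 0 ↔ P.adicValuation f < 1 := by
  rw [(evalAt_spec hP hf).eq_zero_iff, adicValuation_lt_one_iff]

theorem evalAt_eq_zero_iff_ord (hf : P.adicValuation f ≤ 1) :
    evalAt P f = 0 ↔ f = 0 ∨ 0 < P.ord f :=
  (evalAt_spec hP hf).eq_zero_iff

/-- A unit at `P` has a nonzero value. -/
theorem evalAt_ne_zero_of_ord_eq_zero (hf : f ≠ 0) (hord : P.ord f = 0) : evalAt P f ≠ 0 := by
  have hle : P.adicValuation f ≤ 1 := P.adicValuation_le_one_iff.mpr (Or.inr hord.ge)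
  rw [ne_eq, evalAt_eq_zero_iff_ord hP hle]
  rintro (h | h)
  · exact hf h
  · omega

theorem evalAt_inv (hf : f ≠ 0) (hord : P.ord f = 0) : evalAt P f⁻¹ = (evalAt P f)⁻¹ := by
  have hle : P.adicValuation f ≤ 1 := P.adicValuation_le_one_iff.mpr (Or.inr hord.ge)
  exact ((evalAt_spec hP hle).inv (evalAt_ne_zero_of_ord_eq_zero hP hf hord)).evalAt_eq

/-- Evaluation at `P` as a `K`-algebra homomorphism on the valuation ring. -/
noncomputable def evalAtHom : P.toValuationSubring →ₐ[K] K where
  toFun f := evalAt P (f : F)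
  map_one' := by simp
  map_mul' f g := by
    push_cast
    exact evalAt_mul hP (P.adicValuation_le_one_of_mem f.2) (P.adicValuation_le_one_of_mem g.2)
  map_zero' := by simp
  map_add' f g := by
    push_cast
    exact evalAt_add hP (P.adicValuation_le_one_of_mem f.2) (P.adicValuation_le_one_of_mem g.2)
  commutes' a := by
    show evalAt P ((algebraMap K P.toValuationSubring a : P.toValuationSubring) : F) = a
    rw [P.coe_algebraMap, evalAt_algebraMap]

@[simp] theorem evalAtHom_apply (f : P.toValuationSubring) :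
    evalAtHom hP f = evalAt P (f : F) := rfl

theorem evalAtHom_surjective : Function.Surjective (evalAtHom hP) := fun a =>
  ⟨algebraMap K P.toValuationSubring a, (evalAtHom hP).commutes a⟩

theorem ker_evalAtHom :
    RingHom.ker (evalAtHom hP : P.toValuationSubring →+* K) =
      IsLocalRing.maximalIdeal P.toValuationSubring := by
  ext f
  rw [RingHom.mem_ker, FF.mem_maximalIdeal_iff]
  show evalAt P (f : F) = 0 ↔ _
  rw [evalAt_eq_zero_iff_ord hP (P.adicValuation_le_one_of_mem f.2)]
  simp

end ResK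

/-! ### Leading coefficients -/

section Lead

variable {P : Place K F} {t f g : F}

theorem ne_zero_of_ord_eq_one (ht : P.ord t = 1) : t ≠ 0 := by
  rintro rfl
  simp at ht

/-- `f / t ^ ord f` is a unit at `P`. -/
theorem ord_mul_zpow_neg_ord (ht : P.ord t = 1) (hf : f ≠ 0) :
    f * t ^ (-(P.ord f)) ≠ 0 ∧ P.ord (f * t ^ (-(P.ord f))) = 0 := by
  have ht0 := ne_zero_of_ord_eq_one ht
  have h1 : t ^ (-(P.ord f)) ≠ 0 := zpow_ne_zero _ ht0
  refine ⟨mul_ne_zero hf h1, ?_⟩
  rw [P.ord_mul hf h1, P.ord_zpow, ht]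
  ring

@[simp] theorem leadAt_zero (P : Place K F) (t : F) : leadAt P t 0 = 0 := by
  simp [leadAt]

theorem leadAt_of_ord_eq_zero (hf : P.ord f = 0) : leadAt P t f = evalAt P f := by
  simp [leadAt, hf]

@[simp] theorem leadAt_algebraMap (P : Place K F) (t : F) (a : K) :
    leadAt P t (algebraMap K F a) = a := by
  rw [leadAt_of_ord_eq_zero (FF.ord_algebraMap P a), evalAt_algebraMap]

@[simp] theorem leadAt_one (P : Place K F) (t : F) : leadAt P t 1 = 1 := by
  simpa using leadAt_algebraMap P t (1 : K)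

theorem leadAt_self (ht : P.ord t = 1) : leadAt P t t = 1 := by
  have ht0 := ne_zero_of_ord_eq_one ht
  unfold leadAt
  rw [ht, zpow_neg, zpow_one, mul_inv_cancel₀ ht0, evalAt_one]

variable (hP : HasResK P)

include hP

theorem isValAt_leadAt (ht : P.ord t = 1) (hf : f ≠ 0) :
    IsValAt P (f * t ^ (-(P.ord f))) (leadAt P t f) :=
  evalAt_spec_of_ord hP (ord_mul_zpow_neg_ord ht hf).2.ge

theorem leadAt_ne_zero (ht : P.ord t = 1) (hf : f ≠ 0) : leadAt P t f ≠ 0 :=
  evalAt_ne_zero_of_ord_eq_zero hP (ord_mul_zpow_neg_ord ht hf).1 (ord_mul_zpow_neg_ord ht hf).2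

theorem leadAt_mul (ht : P.ord t = 1) (hf : f ≠ 0) (hg : g ≠ 0) :
    leadAt P t (f * g) = leadAt P t f * leadAt P t g := by
  have ht0 := ne_zero_of_ord_eq_one ht
  have e : f * g * t ^ (-(P.ord (f * g))) =
      (f * t ^ (-(P.ord f))) * (g * t ^ (-(P.ord g))) := by
    rw [P.ord_mul hf hg, neg_add, zpow_add₀ ht0]
    ring
  have := (isValAt_leadAt hP ht hf).mul (isValAt_leadAt hP ht hg)
  rw [← e] at this
  exact this.evalAt_eq

theorem leadAt_inv (ht : P.ord t = 1) (hf : f ≠ 0) :
    leadAt P t f⁻¹ = (leadAt P t f)⁻¹ := by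
  have h := leadAt_mul hP ht hf (inv_ne_zero hf)
  rw [mul_inv_cancel₀ hf, leadAt_one] at h
  exact eq_inv_of_mul_eq_one_right h.symm

theorem leadAt_pow (ht : P.ord t = 1) (hf : f ≠ 0) (n : ℕ) :
    leadAt P t (f ^ n) = leadAt P t f ^ n := by
  induction n with
  | zero => simp
  | succ n ih => rw [pow_succ, pow_succ, leadAt_mul hP ht (pow_ne_zero n hf) hf, ih]

theorem leadAt_zpow (ht : P.ord t = 1) (hf : f ≠ 0) (n : ℤ) :
    leadAt P t (f ^ n) = leadAt P t f ^ n := by
  cases n with
  | ofNat n => simpa using leadAt_pow hP ht hf n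
  | negSucc n =>
    rw [zpow_negSucc, zpow_negSucc, leadAt_inv hP ht (pow_ne_zero _ hf), leadAt_pow hP ht hf]

theorem leadAt_div (ht : P.ord t = 1) (hf : f ≠ 0) (hg : g ≠ 0) :
    leadAt P t (f / g) = leadAt P t f / leadAt P t g := by
  rw [div_eq_mul_inv, div_eq_mul_inv, leadAt_mul hP ht hf (inv_ne_zero hg), leadAt_inv hP ht hg]

/-- The leading coefficient of a constant multiple. -/
theorem leadAt_smul_const (ht : P.ord t = 1) (c : K) (hf : f ≠ 0) :
    leadAt P t (c • f) = c * leadAt P t f := by
  rcases eq_or_ne c 0 with rfl | hc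
  · simp
  have hcF : algebraMap K F c ≠ 0 := by
    rwa [ne_eq, map_eq_zero_iff _ (algebraMap K F).injective]
  rw [Algebra.smul_def, leadAt_mul hP ht hcF hf, leadAt_algebraMap]

/-- First order expansion: `f = lead · t ^ ord f + (higher order)`. -/
theorem ord_sub_leadAt_mul_zpow (ht : P.ord t = 1) (hf : f ≠ 0) :
    f - algebraMap K F (leadAt P t f) * t ^ (P.ord f) = 0 ∨
      P.ord f < P.ord (f - algebraMap K F (leadAt P t f) * t ^ (P.ord f)) := by
  have ht0 := ne_zero_of_ord_eq_one ht
  have hz : t ^ (P.ord f) ≠ 0 := zpow_ne_zero _ ht0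
  have e : f - algebraMap K F (leadAt P t f) * t ^ (P.ord f) =
      (f * t ^ (-(P.ord f)) - algebraMap K F (leadAt P t f)) * t ^ (P.ord f) := by
    rw [sub_mul, mul_assoc, ← zpow_add₀ ht0, neg_add_cancel, zpow_zero, mul_one]
  rcases isValAt_iff.mp (isValAt_leadAt hP ht hf) with h | h
  · left; rw [e, h, zero_mul]
  · by_cases h0 : f * t ^ (-(P.ord f)) - algebraMap K F (leadAt P t f) = 0
    · left; rw [e, h0, zero_mul]
    right
    rw [e, P.ord_mul h0 hz, P.ord_zpow, ht]
    linarith

omit hP in
/-- Characterisation of order and leading coefficient by a first order expansion. -/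
theorem ord_eq_and_leadAt_eq_of_expansion (ht : P.ord t = 1) {c : K} (hc : c ≠ 0) {n : ℤ}
    (h : f - algebraMap K F c * t ^ n = 0 ∨ n < P.ord (f - algebraMap K F c * t ^ n)) :
    f ≠ 0 ∧ P.ord f = n ∧ leadAt P t f = c := by
  have ht0 := ne_zero_of_ord_eq_one ht
  have hcF : algebraMap K F c ≠ 0 := by
    rwa [ne_eq, map_eq_zero_iff _ (algebraMap K F).injective]
  have hz : t ^ n ≠ 0 := zpow_ne_zero _ ht0
  have hm : algebraMap K F c * t ^ n ≠ 0 := mul_ne_zero hcF hz
  have hordm : P.ord (algebraMap K F c * t ^ n) = n := by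
    rw [P.ord_mul hcF hz, FF.ord_algebraMap, P.ord_zpow, ht]; ring
  have hf : f ≠ 0 ∧ P.ord f = n := by
    rcases h with h | h
    · rw [sub_eq_zero] at h
      rw [h]; exact ⟨hm, hordm⟩
    · have e : f = algebraMap K F c * t ^ n + (f - algebraMap K F c * t ^ n) := by ring
      have h1 := FF.ord_add_eq_of_lt P (f := algebraMap K F c * t ^ n)
        (g := f - algebraMap K F c * t ^ n) hm (by rw [hordm]; exact h)
      rw [← e, hordm] at h1
      refine ⟨?_, h1⟩
      rintro rfl
      rw [zero_sub, FF.ord_neg, hordm] at h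
      exact lt_irrefl _ h
  refine ⟨hf.1, hf.2, ?_⟩
  have hval : IsValAt P (f * t ^ (-(P.ord f))) c := by
    rw [isValAt_iff, hf.2]
    have e : f * t ^ (-n) - algebraMap K F c = (f - algebraMap K F c * t ^ n) * t ^ (-n) := by
      rw [sub_mul, mul_assoc, ← zpow_add₀ ht0, add_neg_cancel, zpow_zero, mul_one]
    rcases h with h | h
    · left; rw [e, h, zero_mul]
    · by_cases h0 : f - algebraMap K F c * t ^ n = 0
      · left; rw [e, h0, zero_mul]
      right
      rw [e, P.ord_mul h0 (zpow_ne_zero _ ht0), P.ord_zpow, ht]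
      linarith
  exact hval.evalAt_eq

/-- Change of uniformiser. -/
theorem leadAt_change_unif {t' : F} (ht : P.ord t = 1) (ht' : P.ord t' = 1) (hf : f ≠ 0) :
    leadAt P t' f = leadAt P t f * leadAt P t' t ^ (P.ord f) := by
  have ht0 := ne_zero_of_ord_eq_one ht
  have ht0' := ne_zero_of_ord_eq_one ht'
  have e : f * t' ^ (-(P.ord f)) =
      (f * t ^ (-(P.ord f))) * (t * t' ^ (-(P.ord t))) ^ (P.ord f) := by
    rw [ht, mul_zpow, ← zpow_mul, mul_assoc, ← mul_assoc (t ^ (-(P.ord f))), ← zpow_add₀ ht0,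
      neg_add_cancel, zpow_zero, one_mul]
    simp
  have h1 := isValAt_leadAt hP ht' (f := t) ht0
  have hu := ord_mul_zpow_neg_ord ht' (f := t) ht0
  -- value of the `ord f`-th power of the unit `t / t'`
  have h2 : IsValAt P ((t * t' ^ (-(P.ord t))) ^ (P.ord f)) (leadAt P t' t ^ (P.ord f)) := by
    have hne := leadAt_ne_zero hP ht' ht0
    cases hn : P.ord f with
    | ofNat n => simpa using h1.pow n
    | negSucc n =>
      rw [zpow_negSucc, zpow_negSucc]
      exact (h1.pow (n + 1)).inv (pow_ne_zero _ hne)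
  have := (isValAt_leadAt hP ht hf).mul h2
  rw [← e] at this
  exact this.evalAt_eq

end Lead

/-! ### Equivariance under semilinear automorphisms -/

section Equivariant

open SemilinearAut

variable (γ : SemilinearAut K F) {P : Place K F} {t f : F} {a : K}

theorem smul_eq_zero_iff' {f : F} : γ • f = 0 ↔ f = 0 := by
  rw [SemilinearAut.smul_def]
  exact map_eq_zero_iff _ (toRingAut γ).injective

theorem IsValAt.smul_aut (h : IsValAt P f a) : IsValAt (γ • P) (γ • f) (baseAut γ a) := by
  rw [isValAt_iff] at h ⊢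
  have e : γ • f - algebraMap K F (baseAut γ a) = γ • (f - algebraMap K F a) := by
    rw [smul_sub, SemilinearAut.smul_algebraMap]
  rw [e, smul_eq_zero_iff', ord_smul]
  exact h

theorem isValAt_smul_aut_iff :
    IsValAt (γ • P) (γ • f) (baseAut γ a) ↔ IsValAt P f a := by
  refine ⟨fun h => ?_, fun h => h.smul_aut γ⟩
  have := h.smul_aut γ⁻¹
  rwa [inv_smul_smul, inv_smul_smul, baseAut_inv, RingEquiv.symm_apply_apply] at this

/-- **Values are equivariant** (no hypothesis: junk values are preserved). -/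
theorem evalAt_smul_aut (P : Place K F) (f : F) :
    evalAt (γ • P) (γ • f) = baseAut γ (evalAt P f) := by
  by_cases h : ∃ a : K, IsValAt P f a
  · obtain ⟨a, ha⟩ := h
    rw [ha.evalAt_eq, (ha.smul_aut γ).evalAt_eq]
  · push Not at h
    rw [evalAt_of_forall_not h, map_zero]
    refine evalAt_of_forall_not fun b hb => h ((baseAut γ).symm b) ?_
    rw [← isValAt_smul_aut_iff γ, RingEquiv.apply_symm_apply]
    exact hb

theorem adicValuation_smul_le_one_iff :
    (γ • P).adicValuation (γ • f) ≤ 1 ↔ P.adicValuation f ≤ 1 := by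
  rw [Place.adicValuation_le_one_iff, Place.adicValuation_le_one_iff, smul_eq_zero_iff',
    ord_smul]

theorem hasResK_smul (hP : HasResK P) : HasResK (γ • P) := by
  intro f hf
  have hf' : (γ • P).adicValuation (γ • (γ⁻¹ • f)) ≤ 1 := by rwa [smul_inv_smul]
  rw [adicValuation_smul_le_one_iff] at hf'
  obtain ⟨a, ha⟩ := hP _ hf'
  refine ⟨baseAut γ a, ?_⟩
  have := ha.smul_aut γ
  rwa [smul_inv_smul] at this

theorem smul_zpow_aut (f : F) (n : ℤ) : γ • (f ^ n) = (γ • f) ^ n := by
  rw [SemilinearAut.smul_def, SemilinearAut.smul_def, map_zpow₀]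

/-- **Leading coefficients are equivariant.** -/
theorem leadAt_smul_aut (P : Place K F) (t f : F) :
    leadAt (γ • P) (γ • t) (γ • f) = baseAut γ (leadAt P t f) := by
  unfold leadAt
  rw [ord_smul, ← smul_zpow_aut, ← smul_mul', evalAt_smul_aut]

end Equivariant

/-! ### The contracts `E1a`, `E1b`, `E1c` of `Spec/Bricks7` -/

/-- **E1c**: values are equivariant for semilinear automorphisms. -/
theorem evalEquivariant : EvalEquivariant K F := fun g P f => evalAt_smul_aut g P f

/-- **E1a** from "all places have residue field `K`". -/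
theorem evalSpec_of_hasResK (h : ∀ P : Place K F, HasResK P) : EvalSpec K F :=
  fun P _ hf => evalAt_spec (h P) hf

/-- **E1b** from "all places have residue field `K`". -/
theorem leadMul_of_hasResK (h : ∀ P : Place K F, HasResK P) : LeadMul K F :=
  fun P _ _ _ ht hf hg => ⟨leadAt_mul (h P) ht hf hg, leadAt_ne_zero (h P) ht hf⟩

/-- **E1a** for a function field in one variable over an algebraically closed field. -/
theorem evalSpec [IsAlgClosed K] (x : F) (halg : Algebra.IsAlgebraic K⟮x⟯ F) : EvalSpec K F :=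
  evalSpec_of_hasResK (hasResK_of_isAlgClosed x halg)

/-- **E1b** for a function field in one variable over an algebraically closed field. -/
theorem leadMul [IsAlgClosed K] (x : F) (halg : Algebra.IsAlgebraic K⟮x⟯ F) : LeadMul K F :=
  leadMul_of_hasResK (hasResK_of_isAlgClosed x halg)

end Fermat.Agent.MW.FF.EvalLead49
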