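/-
Program MW-H (S17), brick E1 (helper49), part 2: PROJECTIVE COORDINATES AND TANGENT VECTORS OF PLACES.

Objects: `Defs7.minOrd`, `Defs7.coordAt`, `Defs7.tangAt`, `Defs7.wedge`.  Setting: `F / K` any
extension of fields, `P : Place K F` with residue field `K` (`EvalLead49.HasResK P`), `t` a
uniformiser at `P`, `x : Fin (n+1) → F` a tuple of NONZERO functions.

* `minOrd_le`, `exists_ord_eq_minOrd`;
* `isValAt_coordAt` : `x a / t ^ minOrd` has the value `coordAt P t x a` at `P`; `coordAt_ne_zero`;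
* `isValAt_tangAt`, `expansion_two` : `x a / t ^ minOrd = coordAt a + tangAt a · t + O(t²)`;
* linear combinations `f = ∑ c a • x a`: `isValAt_sum`, `isValAt_sum_tang`, `ord_sum_ge_two`;
* `eq_smul_of_wedge_eq_zero` : `wedge p q = 0`, `p ≠ 0` ⟹ `q = λ • p`;
* equivariance under `SemilinearAut K F`: `minOrd_smul_aut`, `coordAt_smul_aut`, `tangAt_smul_aut`.
-/
import Mathlib
import Fermat.Agent.MW.FF.EvalLead49

set_option autoImplicit false

open AlgebraicCurve IntermediateField

namespace Fermat.Agent.MW.FF.Coord49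

open Fermat.Agent.MW.Spec.Defs7 Fermat.Agent.MW.Spec.Bricks7 Fermat.Agent.X0
open Fermat.Agent.MW.FF.EvalLead49

variable {K F : Type*} [Field K] [Field F] [Algebra K F] {n : ℕ}

/-! ### Linear algebra of `wedge` -/

section Wedge

variable {ι : Type*}

/-- If the vector of minors of `p, q` vanishes and `p ≠ 0`, then `q` is a multiple of `p`. -/
theorem eq_smul_of_wedge_eq_zero {p q : ι → K} (hp : p ≠ 0) (h : wedge p q = 0) :
    ∃ c : K, q = c • p := by
  obtain ⟨i, hi⟩ : ∃ i, p i ≠ 0 := by
    by_contra hcon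
    push Not at hcon
    exact hp (funext hcon)
  refine ⟨q i / p i, funext fun j => ?_⟩
  have hij := congrFun h (i, j)
  simp only [wedge, Pi.zero_apply] at hij
  simp only [Pi.smul_apply, smul_eq_mul]
  field_simp
  linear_combination hij

theorem wedge_smul_self (p : ι → K) (c : K) : wedge p (c • p) = 0 := by
  funext ij
  simp only [wedge, Pi.smul_apply, smul_eq_mul, Pi.zero_apply]
  ring

end Wedge

/-! ### The minimum of the orders -/

section MinOrd

variable (P : Place K F) (x : Fin (n + 1) → F)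

theorem minOrd_le (a : Fin (n + 1)) : minOrd P x ≤ P.ord (x a) :=
  Finset.inf'_le _ (Finset.mem_univ a)

theorem exists_ord_eq_minOrd : ∃ a, P.ord (x a) = minOrd P x := by
  obtain ⟨a, -, ha⟩ := Finset.exists_mem_eq_inf' (Finset.univ_nonempty (α := Fin (n + 1)))
    (fun a => P.ord (x a))
  exact ⟨a, ha.symm⟩

theorem le_minOrd {m : ℤ} (h : ∀ a, m ≤ P.ord (x a)) : m ≤ minOrd P x :=
  (Finset.le_inf'_iff _ _).mpr fun a _ => h a

end MinOrd

/-! ### Coordinates and tangent vectors -/

section Coord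

variable {P : Place K F} {t : F} {x : Fin (n + 1) → F}

/-- The normalised coordinate functions `x a / t ^ minOrd` are regular at `P`. -/
theorem ord_normalised_nonneg (ht : P.ord t = 1) (a : Fin (n + 1)) :
    0 ≤ P.ord (x a * t ^ (-(minOrd P x))) := by
  have ht0 := ne_zero_of_ord_eq_one ht
  rcases eq_or_ne (x a) 0 with h | h
  · rw [h, zero_mul]; simp
  · rw [P.ord_mul h (zpow_ne_zero _ ht0), P.ord_zpow, ht]
    have := minOrd_le P x a
    linarith

theorem ord_normalised_eq_zero (ht : P.ord t = 1) {a : Fin (n + 1)} (h : x a ≠ 0)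
    (ha : P.ord (x a) = minOrd P x) : P.ord (x a * t ^ (-(minOrd P x))) = 0 := by
  have ht0 := ne_zero_of_ord_eq_one ht
  rw [P.ord_mul h (zpow_ne_zero _ ht0), P.ord_zpow, ht, ha]
  ring

variable (hP : HasResK P)

include hP

theorem isValAt_coordAt (ht : P.ord t = 1) (a : Fin (n + 1)) :
    IsValAt P (x a * t ^ (-(minOrd P x))) (coordAt P t x a) :=
  evalAt_spec_of_ord hP (ord_normalised_nonneg ht a)

/-- The coordinate vector of a place is nonzero (for a tuple of nonzero functions). -/
theorem coordAt_ne_zero (ht : P.ord t = 1) (hx : ∀ a, x a ≠ 0) : coordAt P t x ≠ 0 := by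
  have ht0 := ne_zero_of_ord_eq_one ht
  obtain ⟨a, ha⟩ := exists_ord_eq_minOrd P x
  intro h0
  have h1 : coordAt P t x a = 0 := by rw [h0]; rfl
  have h2 : x a * t ^ (-(minOrd P x)) ≠ 0 := mul_ne_zero (hx a) (zpow_ne_zero _ ht0)
  exact evalAt_ne_zero_of_ord_eq_zero hP h2 (ord_normalised_eq_zero ht (hx a) ha) h1

/-- `(x a / t ^ minOrd - coordAt a) / t` is regular at `P`. -/
theorem ord_tang_nonneg (ht : P.ord t = 1) (a : Fin (n + 1)) :
    0 ≤ P.ord ((x a * t ^ (-(minOrd P x)) - algebraMap K F (coordAt P t x a)) * t⁻¹) := by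
  have ht0 := ne_zero_of_ord_eq_one ht
  rcases isValAt_iff.mp (isValAt_coordAt hP ht a) with h | h
  · rw [h, zero_mul]; simp
  · by_cases h0 : x a * t ^ (-(minOrd P x)) - algebraMap K F (coordAt P t x a) = 0
    · rw [h0, zero_mul]; simp
    rw [P.ord_mul h0 (inv_ne_zero ht0), P.ord_inv, ht]
    linarith

theorem isValAt_tangAt (ht : P.ord t = 1) (a : Fin (n + 1)) :
    IsValAt P ((x a * t ^ (-(minOrd P x)) - algebraMap K F (coordAt P t x a)) * t⁻¹)
      (tangAt P t x a) :=
  evalAt_spec_of_ord hP (ord_tang_nonneg hP ht a)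

/-- Linear combinations: the value at `P` of `(∑ c a • x a) / t ^ minOrd` is `∑ c a * coordAt a`. -/
theorem isValAt_sum (ht : P.ord t = 1) (c : Fin (n + 1) → K) :
    IsValAt P ((∑ a, c a • x a) * t ^ (-(minOrd P x))) (∑ a, c a * coordAt P t x a) := by
  rw [Finset.sum_mul]
  have key : ∀ s : Finset (Fin (n + 1)),
      IsValAt P (∑ a ∈ s, c a • x a * t ^ (-(minOrd P x))) (∑ a ∈ s, c a * coordAt P t x a) := by
    intro s
    induction s using Finset.induction_on with
    | empty => simpa using isValAt_zero (P := P)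
    | insert a s ha ih =>
      rw [Finset.sum_insert ha, Finset.sum_insert ha]
      refine IsValAt.add ?_ ih
      rw [smul_mul_assoc]
      exact (isValAt_coordAt hP ht a).smul (c a)
  exact key Finset.univ

/-- Linear combinations, first order: if `∑ c a * coordAt a = 0`, the value at `P` of
`(∑ c a • x a) / t ^ (minOrd + 1)` is `∑ c a * tangAt a`. -/
theorem isValAt_sum_tang (ht : P.ord t = 1) (c : Fin (n + 1) → K)
    (h0 : ∑ a, c a * coordAt P t x a = 0) :
    IsValAt P ((∑ a, c a • x a) * t ^ (-(minOrd P x)) * t⁻¹) (∑ a, c a * tangAt P t x a) := by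
  have e : (∑ a, c a • x a) * t ^ (-(minOrd P x)) * t⁻¹ =
      ∑ a, c a • ((x a * t ^ (-(minOrd P x)) - algebraMap K F (coordAt P t x a)) * t⁻¹) := by
    have h1 : (∑ a, c a • algebraMap K F (coordAt P t x a)) = 0 := by
      have : (∑ a, c a • algebraMap K F (coordAt P t x a)) =
          algebraMap K F (∑ a, c a * coordAt P t x a) := by
        rw [map_sum]
        refine Finset.sum_congr rfl fun a _ => ?_
        rw [Algebra.smul_def, map_mul]
      rw [this, h0, map_zero]
    have h2 : ∑ a, c a • ((x a * t ^ (-(minOrd P x)) - algebraMap K F (coordAt P t x a)) * t⁻¹)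
        = ((∑ a, c a • x a) * t ^ (-(minOrd P x))
            - ∑ a, c a • algebraMap K F (coordAt P t x a)) * t⁻¹ := by
      rw [Finset.sum_mul, ← Finset.sum_sub_distrib, Finset.sum_mul]
      refine Finset.sum_congr rfl fun a _ => ?_
      rw [smul_mul_assoc, ← smul_sub, smul_mul_assoc]
    rw [h2, h1, sub_zero]
  rw [e]
  have key : ∀ s : Finset (Fin (n + 1)),
      IsValAt P (∑ a ∈ s, c a •
        ((x a * t ^ (-(minOrd P x)) - algebraMap K F (coordAt P t x a)) * t⁻¹))
        (∑ a ∈ s, c a * tangAt P t x a) := by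
    intro s
    induction s using Finset.induction_on with
    | empty => simpa using isValAt_zero (P := P)
    | insert a s ha ih =>
      rw [Finset.sum_insert ha, Finset.sum_insert ha]
      exact ((isValAt_tangAt hP ht a).smul (c a)).add ih
  exact key Finset.univ

/-- If both `∑ c a * coordAt a` and `∑ c a * tangAt a` vanish, then `∑ c a • x a` vanishes to
order `≥ minOrd + 2` at `P`. -/
theorem ord_sum_ge_two (ht : P.ord t = 1) (c : Fin (n + 1) → K)
    (h0 : ∑ a, c a * coordAt P t x a = 0) (h1 : ∑ a, c a * tangAt P t x a = 0) :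
    (∑ a, c a • x a) = 0 ∨ minOrd P x + 2 ≤ P.ord (∑ a, c a • x a) := by
  have ht0 := ne_zero_of_ord_eq_one ht
  by_cases hf : (∑ a, c a • x a) = 0
  · exact Or.inl hf
  right
  have h := isValAt_sum_tang (x := x) hP ht c h0
  rw [h1, isValAt_zero_iff_ord] at h
  have hne : (∑ a, c a • x a) * t ^ (-(minOrd P x)) * t⁻¹ ≠ 0 :=
    mul_ne_zero (mul_ne_zero hf (zpow_ne_zero _ ht0)) (inv_ne_zero ht0)
  rcases h with h | h
  · exact absurd h hne
  · rw [P.ord_mul (mul_ne_zero hf (zpow_ne_zero _ ht0)) (inv_ne_zero ht0),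
      P.ord_mul hf (zpow_ne_zero _ ht0), P.ord_zpow, P.ord_inv, ht] at h
    linarith

/-- If `∑ c a * coordAt a` vanishes, then `∑ c a • x a` vanishes to order `≥ minOrd + 1`. -/
theorem ord_sum_ge_one (ht : P.ord t = 1) (c : Fin (n + 1) → K)
    (h0 : ∑ a, c a * coordAt P t x a = 0) :
    (∑ a, c a • x a) = 0 ∨ minOrd P x + 1 ≤ P.ord (∑ a, c a • x a) := by
  have ht0 := ne_zero_of_ord_eq_one ht
  by_cases hf : (∑ a, c a • x a) = 0
  · exact Or.inl hf
  right
  have h := isValAt_sum (x := x) hP ht c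
  rw [h0, isValAt_zero_iff_ord] at h
  rcases h with h | h
  · exact absurd h (mul_ne_zero hf (zpow_ne_zero _ ht0))
  · rw [P.ord_mul hf (zpow_ne_zero _ ht0), P.ord_zpow, ht] at h
    linarith

/-- Conversely: if `∑ c a • x a` vanishes to order `> minOrd`, then `∑ c a * coordAt a = 0`. -/
theorem sum_coordAt_eq_zero (ht : P.ord t = 1) (c : Fin (n + 1) → K)
    (h : (∑ a, c a • x a) = 0 ∨ minOrd P x + 1 ≤ P.ord (∑ a, c a • x a)) :
    ∑ a, c a * coordAt P t x a = 0 := by
  have ht0 := ne_zero_of_ord_eq_one ht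
  refine (isValAt_sum (x := x) hP ht c).unique (isValAt_zero_iff_ord.mpr ?_)
  rcases h with h | h
  · left; rw [h, zero_mul]
  · by_cases hf : (∑ a, c a • x a) = 0
    · left; rw [hf, zero_mul]
    right
    rw [P.ord_mul hf (zpow_ne_zero _ ht0), P.ord_zpow, ht]
    linarith

end Coord

/-! ### Equivariance -/

section Equivariant

open SemilinearAut

variable (γ : SemilinearAut K F) (P : Place K F) (t : F) (x : Fin (n + 1) → F)

theorem minOrd_smul_aut : minOrd (γ • P) (fun a => γ • x a) = minOrd P x := by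
  unfold minOrd
  simp only [ord_smul]

theorem coordAt_smul_aut (a : Fin (n + 1)) :
    coordAt (γ • P) (γ • t) (fun a => γ • x a) a = baseAut γ (coordAt P t x a) := by
  unfold coordAt
  rw [minOrd_smul_aut, ← smul_zpow_aut, ← smul_mul', evalAt_smul_aut]

theorem tangAt_smul_aut (a : Fin (n + 1)) :
    tangAt (γ • P) (γ • t) (fun a => γ • x a) a = baseAut γ (tangAt P t x a) := by
  unfold tangAt
  rw [coordAt_smul_aut, minOrd_smul_aut, ← smul_zpow_aut, ← smul_mul',
    ← SemilinearAut.smul_algebraMap, ← smul_sub, ← smul_inv'', ← smul_mul', evalAt_smul_aut]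

end Equivariant

end Fermat.Agent.MW.FF.Coord49
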