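/-
Program MW-H (S17), brick E1/E3 (helper49), part 3: THE EMBEDDING BY `L(D)`, `deg D ≥ 2g + 1`,
SEPARATES PLACES AND TANGENT VECTORS.

Setting: `K` algebraically closed of characteristic zero, `F / K` a function field with generator
`u` (`IsGen K u`), `[HasCanonicalDivisor]`, `D` a divisor, `x : Fin (n+1) → F` a tuple of nonzero
functions spanning `L(D)`, `t P` a uniformiser at every place `P`.

* `exists_mem_L_not_mem` : `L(D - P) ≠ L(D)` for `deg D ≥ 2g`  (from Riemann-Roch, `Agent/RR/RRMain`);
* `minOrd_eq`  : `minOrd P x = - D P` for `deg D ≥ 2g` (no base points);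
* `sum_coordAt_eq_zero_iff` : `∑ c a * coordAt P a = 0 ↔ ∑ c a • x a ∈ L(D - P)`;
* `veryAmple_general` : for `deg D ≥ 2g + 1`: `coordAt P ≠ 0`, `wedge (coordAt P) (coordAt Q) ≠ 0`
  for `P ≠ Q`, `wedge (coordAt P) (tangAt P) ≠ 0`;
* `veryAmple (S : HSetup F) : S.VeryAmple` (the contract **E3** of `Spec/Bricks7b`).
-/
import Mathlib
import Fermat.Agent.MW.FF.Coord49
import Fermat.Agent.MW.Spec.Bricks7b
import Fermat.Agent.RR.RRMain
import Fermat.Agent.X0.FFFibre

set_option autoImplicit false
set_option linter.unusedSectionVars false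
set_option linter.style.haveILetI false

open AlgebraicCurve IntermediateField

namespace Fermat.Agent.MW.FF.VeryAmple49

open Fermat.Agent.MW.Spec.Defs7 Fermat.Agent.MW.Spec.Bricks7 Fermat.Agent.MW.Spec.Bricks7b
open Fermat.Agent.X0 Fermat.Agent.X0.FF
open Fermat.Agent.MW.FF.EvalLead49 Fermat.Agent.MW.FF.Coord49

variable {K F : Type*} [Field K] [Field F] [Algebra K F] [IsAlgClosed K] [CharZero K]
  [HasCanonicalDivisor (K := K) (F := F)] {u : F} {n : ℕ}

/-! ### Generalities -/

theorem isAlgebraic_of_isGen (hu : IsGen K u) : Algebra.IsAlgebraic K⟮u⟯ F := by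
  haveI := hu.finite
  exact Algebra.IsAlgebraic.of_finite K⟮u⟯ F

theorem hasResK (hu : IsGen K u) (P : Place K F) : HasResK P :=
  hasResK_of_isAlgClosed u (isAlgebraic_of_isGen hu) P

theorem degree_single' (hu : IsGen K u) (P : Place K F) (k : ℤ) :
    Divisor.degree (Finsupp.single P k) = k := by
  rw [Divisor.degree_single, ffb_deg_eq_one P u (isAlgebraic_of_isGen hu)]
  simp

/-- Membership in `L(D - P)`. -/
theorem mem_L_sub_single {D : Divisor K F} {P : Place K F} {f : F} :
    f ∈ riemannRochSpace (D - Finsupp.single P 1) ↔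
      f ∈ riemannRochSpace D ∧ (f = 0 ∨ -(D P) + 1 ≤ P.ord f) := by
  classical
  simp only [mem_riemannRochSpace_iff, Finsupp.sub_apply, Finsupp.single_apply]
  constructor
  · intro h
    refine ⟨fun v => ?_, ?_⟩
    · rcases h v with h0 | h1
      · exact Or.inl h0
      · right
        split_ifs at h1 <;> omega
    · rcases h P with h0 | h1
      · exact Or.inl h0
      · right
        rw [if_pos rfl] at h1
        omega
  · rintro ⟨h1, h2⟩ v
    rcases h2 with h0 | h2
    · exact Or.inl h0
    rcases h1 v with h0 | h1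
    · exact Or.inl h0
    right
    split_ifs with hv
    · subst hv; omega
    · omega

/-- Riemann-Roch: `L(D - P)` is a proper subspace of `L(D)` when `deg D ≥ 2g`. -/
theorem exists_mem_L_not_mem (hu : IsGen K u) (D : Divisor K F) (P : Place K F)
    (hD : 2 * (genus K F : ℤ) ≤ Divisor.degree D) :
    ∃ f ∈ riemannRochSpace D, f ∉ riemannRochSpace (D - Finsupp.single P 1) := by
  by_contra hcon
  push Not at hcon
  have hle : riemannRochSpace D ≤ riemannRochSpace (D - Finsupp.single P 1) := hcon
  haveI := Fermat.Agent.RR.RRMain.finiteDimensional_L hu (D - Finsupp.single P 1)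
  have h1 := Submodule.finrank_mono hle
  have h2 := Fermat.Agent.RR.RRMain.finrank_L_of_degree_gt hu D (by omega)
  have h3 := Fermat.Agent.RR.RRMain.finrank_L_of_degree_gt hu (D - Finsupp.single P 1) (by
    rw [map_sub, degree_single' hu]; omega)
  rw [map_sub, degree_single' hu] at h3
  omega

/-! ### The embedding -/

section Embedding

variable (hu : IsGen K u) (D : Divisor K F) (x : Fin (n + 1) → F) (hx : ∀ a, x a ≠ 0)
  (hspan : Submodule.span K (Set.range x) = riemannRochSpace D)

include hu hx hspan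

theorem x_mem_L (a : Fin (n + 1)) : x a ∈ riemannRochSpace D := by
  rw [← hspan]
  exact Submodule.subset_span ⟨a, rfl⟩

theorem sum_mem_L (c : Fin (n + 1) → K) : (∑ a, c a • x a) ∈ riemannRochSpace D :=
  Submodule.sum_mem _ fun a _ => Submodule.smul_mem _ _ (x_mem_L hu D x hx hspan a)

omit hx in
theorem exists_eq_sum {f : F} (hf : f ∈ riemannRochSpace D) :
    ∃ c : Fin (n + 1) → K, f = ∑ a, c a • x a := by
  rw [← hspan] at hf
  obtain ⟨c, hc⟩ := (Submodule.mem_span_range_iff_exists_fun K).mp hf
  exact ⟨c, hc.symm⟩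

/-- No base points: the minimum of the orders of the `x a` at `P` is `- D P`. -/
theorem minOrd_eq (hD : 2 * (genus K F : ℤ) ≤ Divisor.degree D) (P : Place K F) :
    minOrd P x = -(D P) := by
  apply le_antisymm
  · by_contra hlt
    rw [not_le] at hlt
    obtain ⟨f, hf, hnot⟩ := exists_mem_L_not_mem hu D P hD
    apply hnot
    have hle : Submodule.span K (Set.range x) ≤ riemannRochSpace (D - Finsupp.single P 1) := by
      rw [Submodule.span_le]
      rintro _ ⟨a, rfl⟩
      refine mem_L_sub_single.mpr ⟨x_mem_L hu D x hx hspan a, Or.inr ?_⟩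
      have := minOrd_le P x a
      omega
    rw [hspan] at hle
    exact hle hf
  · refine le_minOrd P x fun a => ?_
    rcases mem_riemannRochSpace_iff.mp (x_mem_L hu D x hx hspan a) P with h | h
    · exact absurd h (hx a)
    · exact h

/-- The linear form "coordinates at `P`" on `L(D)` has kernel `L(D - P)`. -/
theorem sum_coordAt_eq_zero_iff (hD : 2 * (genus K F : ℤ) ≤ Divisor.degree D) (P : Place K F)
    {t : F} (ht : P.ord t = 1) (c : Fin (n + 1) → K) :
    ∑ a, c a * coordAt P t x a = 0 ↔
      (∑ a, c a • x a) ∈ riemannRochSpace (D - Finsupp.single P 1) := by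
  rw [mem_L_sub_single, ← minOrd_eq hu D x hx hspan hD P]
  constructor
  · intro h
    exact ⟨sum_mem_L hu D x hx hspan c, ord_sum_ge_one (hasResK hu P) ht c h⟩
  · rintro ⟨-, h⟩
    exact sum_coordAt_eq_zero (hasResK hu P) ht c h

/-- **The embedding by `L(D)`, `deg D ≥ 2g + 1`, separates places and tangent vectors.** -/
theorem veryAmple_general (hD : 2 * (genus K F : ℤ) + 1 ≤ Divisor.degree D)
    (t : Place K F → F) (ht : ∀ P : Place K F, P.ord (t P) = 1) :
    (∀ P : Place K F, coordAt P (t P) x ≠ 0) ∧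
    (∀ P Q : Place K F, P ≠ Q → wedge (coordAt P (t P) x) (coordAt Q (t Q) x) ≠ 0) ∧
    (∀ P : Place K F, wedge (coordAt P (t P) x) (tangAt P (t P) x) ≠ 0) := by
  have hD0 : 2 * (genus K F : ℤ) ≤ Divisor.degree D := by omega
  have hne : ∀ P : Place K F, coordAt P (t P) x ≠ 0 := fun P =>
    coordAt_ne_zero (hasResK hu P) (ht P) hx
  refine ⟨hne, ?_, ?_⟩
  · -- separation of places
    intro P Q hPQ hw
    obtain ⟨lam, hlam⟩ := eq_smul_of_wedge_eq_zero (hne P) hw
    -- `L(D - P) ≤ L(D - P - Q)`
    obtain ⟨f, hf, hnot⟩ := exists_mem_L_not_mem hu (D - Finsupp.single P 1) Q (by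
      rw [map_sub, degree_single' hu]; omega)
    apply hnot
    obtain ⟨c, rfl⟩ := exists_eq_sum hu D x hspan (mem_L_sub_single.mp hf).1
    have h0 := (sum_coordAt_eq_zero_iff hu D x hx hspan hD0 P (ht P) c).mpr hf
    have h1 : ∑ a, c a * coordAt Q (t Q) x a = 0 := by
      have : ∀ a, c a * coordAt Q (t Q) x a = lam * (c a * coordAt P (t P) x a) := by
        intro a
        rw [hlam]
        simp only [Pi.smul_apply, smul_eq_mul]
        ring
      simp only [this, ← Finset.mul_sum, h0, mul_zero]
    have h2 := (sum_coordAt_eq_zero_iff hu D x hx hspan hD0 Q (ht Q) c).mp h1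
    refine mem_L_sub_single.mpr ⟨hf, ?_⟩
    rcases (mem_L_sub_single.mp h2).2 with h | h
    · exact Or.inl h
    · right
      classical
      rw [Finsupp.sub_apply, Finsupp.single_apply, if_neg hPQ]
      omega
  · -- separation of tangent vectors
    intro P hw
    obtain ⟨lam, hlam⟩ := eq_smul_of_wedge_eq_zero (hne P) hw
    obtain ⟨f, hf, hnot⟩ := exists_mem_L_not_mem hu (D - Finsupp.single P 1) P (by
      rw [map_sub, degree_single' hu]; omega)
    apply hnot
    obtain ⟨c, rfl⟩ := exists_eq_sum hu D x hspan (mem_L_sub_single.mp hf).1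
    have h0 := (sum_coordAt_eq_zero_iff hu D x hx hspan hD0 P (ht P) c).mpr hf
    have h1 : ∑ a, c a * tangAt P (t P) x a = 0 := by
      have : ∀ a, c a * tangAt P (t P) x a = lam * (c a * coordAt P (t P) x a) := by
        intro a
        rw [hlam]
        simp only [Pi.smul_apply, smul_eq_mul]
        ring
      simp only [this, ← Finset.mul_sum, h0, mul_zero]
    have h2 := ord_sum_ge_two (hasResK hu P) (ht P) c h0 h1
    rw [minOrd_eq hu D x hx hspan hD0 P] at h2
    refine mem_L_sub_single.mpr ⟨hf, ?_⟩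
    rcases h2 with h | h
    · exact Or.inl h
    · right
      classical
      rw [Finsupp.sub_apply, Finsupp.single_apply, if_pos rfl]
      omega

end Embedding

end Fermat.Agent.MW.FF.VeryAmple49

/-! ### The contract `E3` for the standing data -/

namespace Fermat.Agent.MW.FF.VeryAmple49

open Fermat.Agent.MW.Spec.Defs7 Fermat.Agent.MW.Spec.Bricks7 Fermat.Agent.MW.Spec.Bricks7b
open Fermat.Agent.MW.Spec.Contract7

variable {F : Type} [Field F] [Algebra Qb F] [HasCanonicalDivisor (K := Qb) (F := F)]

/-- **E3**: the embedding of the standing data separates places and tangent vectors. -/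
theorem veryAmple (S : HSetup F) : S.VeryAmple := by
  have hx : ∀ a, S.x a ≠ 0 := fun a => S.x_indep.ne_zero a
  refine veryAmple_general S.gen (Finsupp.single S.inf ((2 * S.m₀ : ℕ) : ℤ)) S.x hx S.x_span ?_
    S.t S.unif.1
  rw [degree_single' S.gen]
  have := S.m₀_large
  push_cast
  omega

end Fermat.Agent.MW.FF.VeryAmple49
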