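/-
Program MW-H (S17), brick E2 (helper48): CONE POINTS.

Every point `y ≠ 0` of `K^(n+1)` killed by all homogeneous relations of a tuple `x` of NONZERO
functions of the function field `F / K` (`K` algebraically closed of characteristic zero) is, up
to a scalar, the coordinate vector `coordAt Q (t Q) x` of a place `Q`.

(`Spec/Bricks7b.ConePoints` literally, except that the hypothesis `x ≠ 0` on the tuple is replaced
by `∀ a, x a ≠ 0`: with a zero entry the literal contract is false, see the team report.)

* `homog`, `aeval_homog`, `homog_isHomogeneous` : homogenisation of a polynomial w.r.t. a variable;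
* `exists_place_le` : a valuation subring of `F` containing `K` and having a nonzero nonunit
  contains the valuation ring of a place, whose maximal ideal contains its nonunits;
* `conePointsNZ` : the brick.
-/
import Mathlib
import Fermat.Agent.X0.FFSum
import Fermat.Agent.X0.FFDedekind
import Fermat.Agent.MW.Spec.Bricks7b
import Fermat.Agent.MW.FF.Coord49

set_option autoImplicit false
set_option linter.unusedSectionVars false

open AlgebraicCurve IntermediateField IsDedekindDomain
open Fermat.Agent.X0.FF Fermat.Agent.MW.Spec.Defs7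

namespace Fermat.Agent.MW.FF.ConePoints48

/-! ### Homogenisation -/

section Homog

variable {K : Type*} [Field K] {σ : Type*} [Fintype σ] [DecidableEq σ]

/-- Homogenisation of `q` in degree `D` with respect to the variable `i`. -/
noncomputable def homog (i : σ) (D : ℕ) (q : MvPolynomial σ K) : MvPolynomial σ K :=
  ∑ d ∈ q.support, MvPolynomial.monomial (d + Finsupp.single i (D - d.degree)) (q.coeff d)

theorem homog_isHomogeneous (i : σ) (q : MvPolynomial σ K) :
    (homog i q.totalDegree q).IsHomogeneous q.totalDegree := by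
  refine MvPolynomial.IsHomogeneous.sum _ _ _ fun d hd => ?_
  refine MvPolynomial.isHomogeneous_monomial _ ?_
  have h1 : d.degree ≤ q.totalDegree := MvPolynomial.le_totalDegree hd
  rw [map_add, Finsupp.degree_single]
  omega

/-- Evaluation of the homogenisation at `w = c • v` with `w i = c`. -/
theorem aeval_homog {A : Type*} [CommRing A] [Algebra K A] (i : σ) (q : MvPolynomial σ K)
    (w v : σ → A) (c : A) (hw : ∀ j, w j = c * v j) (hi : w i = c) :
    MvPolynomial.aeval w (homog i q.totalDegree q) =
      c ^ q.totalDegree * MvPolynomial.aeval v q := by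
  have hq : MvPolynomial.aeval v q =
      ∑ d ∈ q.support, algebraMap K A (q.coeff d) * d.prod fun j e => v j ^ e := by
    conv_lhs => rw [q.as_sum]
    rw [map_sum]
    exact Finset.sum_congr rfl fun d _ => MvPolynomial.aeval_monomial _ _ _
  rw [homog, map_sum, hq, Finset.mul_sum]
  refine Finset.sum_congr rfl fun d hd => ?_
  have h1 : d.degree ≤ q.totalDegree := MvPolynomial.le_totalDegree hd
  rw [MvPolynomial.aeval_monomial, Finsupp.prod_add_index' (fun _ => pow_zero _)
    (fun _ _ _ => pow_add _ _ _)]
  have h0 : ((Finsupp.single i (q.totalDegree - d.degree)).prod fun j e => w j ^ e) =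
      c ^ (q.totalDegree - d.degree) := by
    rw [Finsupp.prod_single_index (h := fun j e => w j ^ e) (pow_zero _), hi]
  rw [h0]
  have h2 : (d.prod fun j e => w j ^ e) = c ^ d.degree * d.prod fun j e => v j ^ e := by
    rw [Finsupp.degree_apply, Finsupp.prod, Finsupp.prod, ← Finset.prod_pow_eq_pow_sum,
      ← Finset.prod_mul_distrib]
    refine Finset.prod_congr rfl fun j _ => ?_
    rw [hw j, mul_pow]
  rw [h2]
  have h3 : c ^ q.totalDegree = c ^ d.degree * c ^ (q.totalDegree - d.degree) := by
    rw [← pow_add]; congr 1; omega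
  rw [h3]
  ring

end Homog

/-! ### Valuation rings of a function field contain the valuation ring of a place -/

section Places

variable {K F : Type*} [Field K] [Field F] [Algebra K F] [IsAlgClosed K] [CharZero K]

/-- A nonzero nonunit of a valuation ring has its inverse outside the ring. -/
theorem inv_not_mem_of_mem_nonunits (O : ValuationSubring F) {g : F} (hg0 : g ≠ 0)
    (hg : g ∈ O.nonunits) : g⁻¹ ∉ O := by
  intro h
  rw [ValuationSubring.mem_nonunits_iff] at hg
  rw [← O.valuation_le_one_iff, map_inv₀] at h
  have h0 : O.valuation g ≠ 0 := (Valuation.ne_zero_iff _).mpr hg0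
  have h1 : 1 ≤ O.valuation g := by
    have := (inv_le_one₀ (zero_lt_iff.mpr h0)).mp h
    exact this
  exact absurd hg (not_lt.mpr h1)

/-- A valuation subring `O` of `F` containing `K` and having a nonzero nonunit `w` contains the
valuation ring of a place `Q`, and the nonunits of `O` vanish at `Q`. -/
theorem exists_place_le {u : F} (hu : IsGen K u) (O : ValuationSubring F)
    (hK : ∀ a : K, algebraMap K F a ∈ O) {w : F} (hw0 : w ≠ 0) (hw : w ∈ O.nonunits) :
    ∃ Q : Place K F, ∀ g ∈ O.nonunits, g = 0 ∨ 0 < Q.ord g := by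
  classical
  -- `w` is transcendental
  have hwt : Transcendental K w := by
    intro halg
    obtain ⟨c, hc⟩ := eq_algebraMap_of_isAlgebraic halg
    have hc0 : c ≠ 0 := by
      rintro rfl
      exact hw0 (by rw [hc, map_zero])
    apply inv_not_mem_of_mem_nonunits O hw0 hw
    rw [hc, ← map_inv₀]
    exact hK c⁻¹
  have hgen : IsGen K w := hu.of_transcendental hwt
  have hDedB := isDedekindDomain_intRing hgen
  have hFracB := isFractionRing_intRing hgen
  have hwO : w ∈ O := ValuationSubring.nonunits_le hw
  -- the integral closure of `K[w]` lies in `O`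
  let OK : Subalgebra K F := { O.toSubring with algebraMap_mem' := hK }
  have hA : ∀ a : polyRing K w, algebraMap (polyRing K w) F a ∈ O.toSubring := by
    intro a
    have h1 : Algebra.adjoin K {w} ≤ OK := Algebra.adjoin_le (by
      rw [Set.singleton_subset_iff]
      exact hwO)
    exact h1 a.2
  have hB : ∀ b : intRing K w, algebraMap (intRing K w) F b ∈ O := by
    intro b
    let _ : Algebra (polyRing K w) O :=
      ((algebraMap (polyRing K w) F).codRestrict O.toSubring hA).toAlgebra
    have : IsScalarTower (polyRing K w) O F := IsScalarTower.of_algebraMap_eq fun f => rfl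
    have hb : IsIntegral (polyRing K w) (algebraMap (intRing K w) F b) := b.2
    have hb' : IsIntegral O (algebraMap (intRing K w) F b) := hb.tower_top
    obtain ⟨z, hz⟩ := IsIntegrallyClosed.isIntegral_iff.mp hb'
    exact hz ▸ z.2
  let φ : intRing K w →+* O := (algebraMap (intRing K w) F).codRestrict O.toSubring hB
  have hφ : ∀ r, ((φ r : O) : F) = algebraMap (intRing K w) F r := fun r => rfl
  let P : Ideal (intRing K w) := (IsLocalRing.maximalIdeal O).comap φ
  have hPprime : P.IsPrime := Ideal.comap_isPrime φ _
  have hinv : ∀ s : intRing K w, s ∉ P → (algebraMap (intRing K w) F s)⁻¹ ∈ O := by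
    intro s hs
    have := inv_mem_of_not_mem_maximalIdeal O (φ s) (by simpa [P] using hs)
    rwa [hφ] at this
  let wB : intRing K w :=
    ⟨w, isIntegral_algebraMap (R := polyRing K w) (x := genA K w)⟩
  have hwB : wB ∈ P := by
    show φ wB ∈ IsLocalRing.maximalIdeal O
    rw [← ValuationSubring.coe_mem_nonunits_iff]
    exact hw
  have hPne : P ≠ ⊥ := by
    intro hbot
    rw [hbot, Ideal.mem_bot] at hwB
    exact hw0 (congrArg (fun z : intRing K w => (z : F)) hwB)
  let W : HeightOneSpectrum (intRing K w) := ⟨P, hPprime, hPne⟩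
  let Q : Place K F := Place.ofHeightOneSpectrum (K := K) (F := F) W
  have hle : ∀ f : F, f ∈ Q.toValuationSubring → f ∈ O := by
    intro f hf
    rw [Place.ofHeightOneSpectrum_toValuationSubring,
      ← HeightOneSpectrum.valuationSubringAtPrime_eq_valuationSubring] at hf
    obtain ⟨a, s, hs, rfl⟩ := hf
    exact mul_mem (hB a) (hinv s hs)
  refine ⟨Q, fun g hg => ?_⟩
  by_contra hcon
  push Not at hcon
  obtain ⟨hg0, hord⟩ := hcon
  have h1 : g⁻¹ ∈ Q.toValuationSubring := by
    apply mem_of_ord_nonneg
    rw [Q.ord_inv]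
    omega
  exact inv_not_mem_of_mem_nonunits O hg0 hg (hle _ h1)

end Places

/-! ### The brick -/

section Main

open Fermat.Agent.MW.FF.EvalLead49 Fermat.Agent.MW.FF.Coord49

/-- **E2** (corrected contract): `Bricks7b.ConePoints` with the hypothesis `x ≠ 0` replaced by
`∀ a, x a ≠ 0`. -/
def ConePointsNZ (K F : Type*) [Field K] [Field F] [Algebra K F] : Prop :=
  ∀ (u : F), IsGen K u → ∀ {n : ℕ} (x : Fin (n + 1) → F) (t : Place K F → F),
    (∀ P : Place K F, P.ord (t P) = 1) → (∀ a, x a ≠ 0) → ∀ y : Fin (n + 1) → K, y ≠ 0 →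
    (∀ p : MvPolynomial (Fin (n + 1)) K, (∃ k : ℕ, p.IsHomogeneous k) →
      MvPolynomial.aeval x p = 0 → MvPolynomial.eval y p = 0) →
    ∃ (Q : Place K F) (c : K), c ≠ 0 ∧ y = c • coordAt Q (t Q) x

variable {K F : Type*} [Field K] [Field F] [Algebra K F] [IsAlgClosed K] [CharZero K]

/-- A function field with a generator has a place. -/
theorem nonempty_place48 {u : F} (hu : IsGen K u) : Nonempty (Place K F) := by
  by_contra hne
  rw [not_nonempty_iff] at hne
  have h := sum_ord_poles hu
  have h0 : ∑ᶠ (v : Place K F) (_ : v.ord u < 0), -v.ord u = 0 := by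
    rw [finsum_of_isEmpty]
  rw [h0] at h
  have := hu.finite
  have hpos : 0 < Module.finrank K⟮u⟯ F := Module.finrank_pos
  omega

variable {n : ℕ}

/-- Dehomogenisation of the hypothesis: every polynomial relation of the ratios `x j / x i` holds
for the ratios `y j / y i`. -/
theorem rel_dehomog (x : Fin (n + 1) → F) (y : Fin (n + 1) → K) (i : Fin (n + 1))
    (hxi : x i ≠ 0) (hyi : y i ≠ 0)
    (hrel : ∀ p : MvPolynomial (Fin (n + 1)) K, (∃ k : ℕ, p.IsHomogeneous k) →
      MvPolynomial.aeval x p = 0 → MvPolynomial.eval y p = 0)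
    (q : MvPolynomial (Fin (n + 1)) K)
    (hq : MvPolynomial.aeval (fun j => x j / x i) q = 0) :
    MvPolynomial.eval (fun j => y j / y i) q = 0 := by
  have h1 := aeval_homog i q x (fun j => x j / x i) (x i)
    (fun j => by field_simp) rfl
  have h2 := aeval_homog i q y (fun j => y j / y i) (y i)
    (fun j => by field_simp) rfl
  rw [hq, mul_zero] at h1
  have h3 := hrel _ ⟨_, homog_isHomogeneous i q⟩ h1
  rw [MvPolynomial.aeval_eq_eval] at h2
  rw [h3] at h2
  have h4 : (y i) ^ q.totalDegree ≠ 0 := pow_ne_zero _ hyi
  have h5 := (mul_eq_zero.mp h2.symm).resolve_left h4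
  rw [MvPolynomial.aeval_eq_eval] at h5
  exact h5

/-- A place at which all the ratios `x j / x i` take the values `y j / y i`. -/
theorem exists_place_of_rel {u : F} (hu : IsGen K u) (x : Fin (n + 1) → F)
    (y : Fin (n + 1) → K) (i : Fin (n + 1)) (hxi : x i ≠ 0) (hyi : y i ≠ 0)
    (hrel : ∀ p : MvPolynomial (Fin (n + 1)) K, (∃ k : ℕ, p.IsHomogeneous k) →
      MvPolynomial.aeval x p = 0 → MvPolynomial.eval y p = 0) :
    ∃ Q : Place K F, ∀ j, IsValAt Q (x j / x i) (y j / y i) := by
  classical
  set z : Fin (n + 1) → F := fun j => x j / x i with hz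
  set a : Fin (n + 1) → K := fun j => y j / y i with ha
  have hR := rel_dehomog x y i hxi hyi hrel
  by_cases hconst : ∀ j, z j - algebraMap K F (a j) = 0
  · obtain ⟨Q⟩ := nonempty_place48 hu
    refine ⟨Q, fun j => ?_⟩
    have : z j = algebraMap K F (a j) := sub_eq_zero.mp (hconst j)
    show IsValAt Q (z j) (a j)
    rw [this]
    exact isValAt_algebraMap _
  · push Not at hconst
    obtain ⟨j0, hj0⟩ := hconst
    -- the subring generated by the ratios and the ideal of the point
    let S : Subalgebra K F := Algebra.adjoin K (Set.range z)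
    have hzS : ∀ j, z j ∈ S := fun j => Algebra.subset_adjoin (Set.mem_range_self j)
    let A : Subring F := S.toSubring
    let g : Fin (n + 1) → A := fun j =>
      ⟨z j - algebraMap K F (a j), S.sub_mem (hzS j) (S.algebraMap_mem _)⟩
    let I : Ideal A := Ideal.span (Set.range g)
    have hI : I ≠ ⊤ := by
      intro htop
      have h1 : (1 : A) ∈ I := by rw [htop]; exact Submodule.mem_top
      obtain ⟨r, hr⟩ := (Ideal.mem_span_range_iff_exists_fun).mp h1
      have hrS : ∀ j, ∃ ρ : MvPolynomial (Fin (n + 1)) K, MvPolynomial.aeval z ρ = (r j : F) := by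
        intro j
        have h2 : ((r j : A) : F) ∈ Algebra.adjoin K (Set.range z) := (r j).2
        rw [Algebra.adjoin_range_eq_range_aeval] at h2
        exact h2
      choose ρ hρ using hrS
      let q : MvPolynomial (Fin (n + 1)) K :=
        1 - ∑ j, ρ j * (MvPolynomial.X j - MvPolynomial.C (a j))
      have hq : MvPolynomial.aeval z q = 0 := by
        have h3 := congrArg (fun s : A => (s : F)) hr
        simp only [Subring.coe_one] at h3
        rw [map_sub, map_one, map_sum, sub_eq_zero, ← h3]
        rw [AddSubmonoidClass.coe_finsetSum]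
        refine Finset.sum_congr rfl fun j _ => ?_
        rw [map_mul, hρ, map_sub, MvPolynomial.aeval_X, MvPolynomial.aeval_C]
        rfl
      have h4 := hR q hq
      have h5 : MvPolynomial.eval a q = 1 := by
        simp only [q, map_sub, map_one, map_sum, map_mul, MvPolynomial.eval_X, MvPolynomial.eval_C,
          sub_self, mul_zero, Finset.sum_const_zero, sub_zero]
      rw [h5] at h4
      exact one_ne_zero h4
    obtain ⟨O, hAO, hIO⟩ := Ideal.image_subset_nonunits_valuationSubring I hI
    have hK : ∀ c : K, algebraMap K F c ∈ O := fun c => hAO (S.algebraMap_mem c)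
    have hnon : ∀ j, z j - algebraMap K F (a j) ∈ O.nonunits := by
      intro j
      apply hIO
      exact ⟨g j, Ideal.subset_span (Set.mem_range_self j), rfl⟩
    obtain ⟨Q, hQ⟩ := exists_place_le hu O hK hj0 (hnon j0)
    refine ⟨Q, fun j => ?_⟩
    have h1 : IsValAt Q (z j - algebraMap K F (a j)) 0 :=
      isValAt_zero_iff_ord.mpr (hQ _ (hnon j))
    have h2 := h1.add (isValAt_algebraMap (P := Q) (a j))
    rw [sub_add_cancel, zero_add] at h2
    exact h2

/-- **E2**: cone points come from places. -/
theorem conePointsNZ : ConePointsNZ K F := by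
  intro u hu n x t ht hx y hy hrel
  obtain ⟨i, hyi⟩ : ∃ i, y i ≠ 0 := by
    by_contra hcon
    push Not at hcon
    exact hy (funext hcon)
  have hxi : x i ≠ 0 := hx i
  obtain ⟨Q, hQ⟩ := exists_place_of_rel hu x y i hxi hyi hrel
  have := hu.finite
  have halg : Algebra.IsAlgebraic K⟮u⟯ F := Algebra.IsAlgebraic.of_finite _ _
  have hP : HasResK Q := hasResK_of_isAlgClosed u halg Q
  have htQ := ht Q
  have ht0 : t Q ≠ 0 := ne_zero_of_ord_eq_one htQ
  -- the minimum of the orders is attained at `i`
  have hmin : minOrd Q x = Q.ord (x i) := by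
    apply le_antisymm (minOrd_le Q x i)
    apply le_minOrd
    intro j
    have h1 := (hQ j).ord_nonneg
    have hne : x j / x i ≠ 0 := div_ne_zero (hx j) hxi
    rw [div_eq_mul_inv, Q.ord_mul (hx j) (inv_ne_zero hxi), Q.ord_inv] at h1
    omega
  set lam : K := leadAt Q (t Q) (x i) with hlam
  have hlam0 : lam ≠ 0 := leadAt_ne_zero hP htQ hxi
  have hlead : IsValAt Q (x i * t Q ^ (-(Q.ord (x i)))) lam := isValAt_leadAt hP htQ hxi
  have hcoord : ∀ j, coordAt Q (t Q) x j = y j / y i * lam := by
    intro j
    have h1 := (hQ j).mul hlead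
    have h2 : x j / x i * (x i * t Q ^ (-(Q.ord (x i)))) = x j * t Q ^ (-(minOrd Q x)) := by
      rw [hmin]
      field_simp
    rw [h2] at h1
    exact h1.evalAt_eq
  refine ⟨Q, y i / lam, div_ne_zero hyi hlam0, ?_⟩
  funext j
  rw [Pi.smul_apply, smul_eq_mul, hcoord j]
  field_simp

end Main

end Fermat.Agent.MW.FF.ConePoints48
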