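/-
Program MW-H (S17), brick UB4 (helper49): ORDERS AND LEADING COEFFICIENTS OF LINEAR SECTIONS AND OF
SECTIONS OF DEGREE `k` AT A PLACE, IN TERMS OF `coordAt` / `tangAt`.

General lemmas (any extension `F / K`, `P : Place K F` with residue field `K`, `t` a uniformiser at
`P`, `x : Fin (n+1) → F` any tuple, `M := minOrd P x`):

* `IsValAt.finset_sum`, `IsValAt.finset_prod`;
* `isValAt_mono`  : `x^α / t^(k M)` has the value `q^α` at `P` (`q = coordAt P t x`, `|α| = k`);
* `isValAt_aeval_of_isHomogeneous` : for `p` homogeneous of degree `k`, `p(x) / t^(k M)` has the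
  value `p(q)` at `P`;  `eval_coordAt_eq_zero` : homogeneous relations of `x` vanish at `q`;
* `lin_eq_sum`, `ord_lin_*`, `leadAt_lin_*` : linear sections.

Contracts of `Spec/BricksU7` (for `U : USetup K F`, `K` algebraically closed of characteristic `0`):
`minOrdSpec : U.MinOrdSpec`, `leadLinear : U.LeadLinear`, `secValue : U.SecValue`,
`coneMem : U.ConeMem`, `veryAmpleU : U.VeryAmpleU`.
-/
import Mathlib
import Fermat.Agent.MW.FF.VeryAmple49
import Fermat.Agent.MW.Spec.BricksU7

set_option autoImplicit false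
set_option linter.unusedSectionVars false

open AlgebraicCurve IntermediateField

namespace Fermat.Agent.MW.FF.LeadLinear49

open Fermat.Agent.MW.Spec.Defs7 Fermat.Agent.MW.Spec.Bricks7 Fermat.Agent.MW.Spec.BricksU7
open Fermat.Agent.X0 Fermat.Agent.X0.FF
open Fermat.Agent.MW.FF.EvalLead49 Fermat.Agent.MW.FF.Coord49 Fermat.Agent.MW.FF.VeryAmple49

/-! ### Values of finite sums and products -/

section Finset

variable {K F : Type*} [Field K] [Field F] [Algebra K F] {P : Place K F}

theorem IsValAt.finset_sum {ι : Type*} (s : Finset ι) (f : ι → F) (a : ι → K)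
    (h : ∀ i ∈ s, IsValAt P (f i) (a i)) : IsValAt P (∑ i ∈ s, f i) (∑ i ∈ s, a i) := by
  classical
  induction s using Finset.induction_on with
  | empty => simpa using isValAt_zero (P := P)
  | insert i s hi ih =>
    rw [Finset.sum_insert hi, Finset.sum_insert hi]
    exact (h i (Finset.mem_insert_self i s)).add
      (ih fun j hj => h j (Finset.mem_insert_of_mem hj))

theorem IsValAt.finset_prod {ι : Type*} (s : Finset ι) (f : ι → F) (a : ι → K)
    (h : ∀ i ∈ s, IsValAt P (f i) (a i)) : IsValAt P (∏ i ∈ s, f i) (∏ i ∈ s, a i) := by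
  classical
  induction s using Finset.induction_on with
  | empty => simpa using isValAt_one (P := P)
  | insert i s hi ih =>
    rw [Finset.prod_insert hi, Finset.prod_insert hi]
    exact (h i (Finset.mem_insert_self i s)).mul
      (ih fun j hj => h j (Finset.mem_insert_of_mem hj))

end Finset

/-! ### Monomials and homogeneous polynomials in the coordinate functions -/

section Homogeneous

variable {K F : Type*} [Field K] [Field F] [Algebra K F] {n : ℕ}
variable {P : Place K F} {t : F} {x : Fin (n + 1) → F} (hP : HasResK P) (ht : P.ord t = 1)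

include hP ht

/-- `x^α / t^(k M)` has the value `q^α` at `P`, where `q = coordAt P t x`, `M = minOrd P x`,
`|α| = k`. -/
theorem isValAt_mono (α : Fin (n + 1) → ℕ) (k : ℕ) (hk : ∑ i, α i = k) :
    IsValAt P (mono x α * t ^ (-((k : ℤ) * minOrd P x))) (monoK (coordAt P t x) α) := by
  have ht0 := ne_zero_of_ord_eq_one ht
  have e : mono x α * t ^ (-((k : ℤ) * minOrd P x)) =
      ∏ i, (x i * t ^ (-(minOrd P x))) ^ α i := by
    simp only [mul_pow, Finset.prod_mul_distrib]
    unfold mono
    congr 1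
    rw [Finset.prod_pow_eq_pow_sum, hk, ← zpow_natCast, ← zpow_mul]
    congr 1
    ring
  rw [e]
  unfold monoK
  exact IsValAt.finset_prod _ _ _ fun i _ => (isValAt_coordAt hP ht i).pow (α i)

/-- For `p` homogeneous of degree `k`, `p(x) / t^(k M)` has the value `p(q)` at `P`. -/
theorem isValAt_aeval_of_isHomogeneous {p : MvPolynomial (Fin (n + 1)) K} {k : ℕ}
    (hp : p.IsHomogeneous k) :
    IsValAt P (MvPolynomial.aeval x p * t ^ (-((k : ℤ) * minOrd P x)))
      (MvPolynomial.eval (coordAt P t x) p) := by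
  have h1 : MvPolynomial.aeval x p =
      ∑ d ∈ p.support, algebraMap K F (MvPolynomial.coeff d p) * mono x (fun i => d i) := by
    conv_lhs => rw [p.as_sum]
    rw [map_sum]
    refine Finset.sum_congr rfl fun d _ => ?_
    rw [MvPolynomial.aeval_monomial, Finsupp.prod_fintype _ _ (fun i => by simp)]
    rfl
  have h2 : MvPolynomial.eval (coordAt P t x) p =
      ∑ d ∈ p.support, MvPolynomial.coeff d p * monoK (coordAt P t x) (fun i => d i) := by
    conv_lhs => rw [p.as_sum]
    rw [map_sum]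
    refine Finset.sum_congr rfl fun d _ => ?_
    rw [MvPolynomial.eval_monomial, Finsupp.prod_fintype _ _ (fun i => by simp)]
    rfl
  rw [h1, h2, Finset.sum_mul]
  refine IsValAt.finset_sum _ _ _ fun d hd => ?_
  have hdeg : ∑ i, d i = k := by
    have := hp (MvPolynomial.mem_support_iff.mp hd)
    rw [← Finsupp.degree_eq_sum, Finsupp.degree_eq_weight_one]
    exact this
  rw [mul_assoc]
  exact (isValAt_algebraMap _).mul (isValAt_mono hP ht (fun i => d i) k hdeg)

/-- Homogeneous relations of `x` vanish at the coordinates of `P`. -/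
theorem eval_coordAt_eq_zero {p : MvPolynomial (Fin (n + 1)) K} {k : ℕ}
    (hp : p.IsHomogeneous k) (h0 : MvPolynomial.aeval x p = 0) :
    MvPolynomial.eval (coordAt P t x) p = 0 := by
  have h := isValAt_aeval_of_isHomogeneous hP ht (x := x) hp
  rw [h0, zero_mul] at h
  exact h.unique isValAt_zero

/-- Order and leading coefficient from a nonzero value of `f / t ^ N`. -/
theorem ord_eq_and_leadAt_eq_of_isValAt {f : F} {N : ℤ} {a : K}
    (h : IsValAt P (f * t ^ (-N)) a) (ha : a ≠ 0) :
    f ≠ 0 ∧ P.ord f = N ∧ leadAt P t f = a := by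
  have ht0 := ne_zero_of_ord_eq_one ht
  obtain ⟨hne, hord⟩ := h.ord_eq_zero ha
  have hf : f ≠ 0 := left_ne_zero_of_mul hne
  have hN : P.ord f = N := by
    rw [P.ord_mul hf (zpow_ne_zero _ ht0), P.ord_zpow, ht] at hord
    linarith
  refine ⟨hf, hN, ?_⟩
  unfold leadAt
  rw [hN]
  exact h.evalAt_eq

/-- A lower bound for the order from the existence of a value of `f / t ^ N`. -/
theorem le_ord_of_isValAt {f : F} {N : ℤ} {a : K} (h : IsValAt P (f * t ^ (-N)) a)
    (hf : f ≠ 0) : N ≤ P.ord f := by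
  have ht0 := ne_zero_of_ord_eq_one ht
  have := h.ord_nonneg
  rw [P.ord_mul hf (zpow_ne_zero _ ht0), P.ord_zpow, ht] at this
  linarith

/-- A strict lower bound for the order when `f / t ^ N` has the value `0`. -/
theorem lt_ord_of_isValAt_zero {f : F} {N : ℤ} (h : IsValAt P (f * t ^ (-N)) 0)
    (hf : f ≠ 0) : N < P.ord f := by
  have ht0 := ne_zero_of_ord_eq_one ht
  rcases isValAt_zero_iff_ord.mp h with h | h
  · exact absurd h (mul_ne_zero hf (zpow_ne_zero _ ht0))
  · rw [P.ord_mul hf (zpow_ne_zero _ ht0), P.ord_zpow, ht] at h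
    linarith

end Homogeneous

/-! ### Linear sections -/

section Linear

variable {K F : Type*} [Field K] [Field F] [Algebra K F] {n : ℕ}

theorem lin_eq_sum (ℓ : Fin (n + 1) → K) (x : Fin (n + 1) → F) :
    lin ℓ x = ∑ b, ℓ b • x b := by
  unfold lin
  exact Finset.sum_congr rfl fun b _ => (Algebra.smul_def _ _).symm

variable {P : Place K F} {t : F} {x : Fin (n + 1) → F} (hP : HasResK P) (ht : P.ord t = 1)

include hP ht

theorem isValAt_lin (ℓ : Fin (n + 1) → K) :
    IsValAt P (lin ℓ x * t ^ (-(minOrd P x))) (dot ℓ (coordAt P t x)) := by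
  rw [lin_eq_sum]
  exact isValAt_sum hP ht ℓ

theorem leadLinear_one (ℓ : Fin (n + 1) → K) (h : dot ℓ (coordAt P t x) ≠ 0) :
    P.ord (lin ℓ x) = minOrd P x ∧ leadAt P t (lin ℓ x) = dot ℓ (coordAt P t x) :=
  (ord_eq_and_leadAt_eq_of_isValAt hP ht (isValAt_lin hP ht ℓ) h).2

theorem leadLinear_two (ℓ : Fin (n + 1) → K) (h0 : dot ℓ (coordAt P t x) = 0)
    (h1 : dot ℓ (tangAt P t x) ≠ 0) :
    P.ord (lin ℓ x) = minOrd P x + 1 ∧ leadAt P t (lin ℓ x) = dot ℓ (tangAt P t x) := by
  have ht0 := ne_zero_of_ord_eq_one ht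
  have h := isValAt_sum_tang hP ht (x := x) ℓ h0
  rw [← lin_eq_sum] at h
  have e : lin ℓ x * t ^ (-(minOrd P x)) * t⁻¹ = lin ℓ x * t ^ (-(minOrd P x + 1)) := by
    rw [mul_assoc, neg_add, zpow_add₀ ht0, zpow_neg_one]
  rw [e] at h
  exact (ord_eq_and_leadAt_eq_of_isValAt hP ht h h1).2

theorem leadLinear_three (ℓ : Fin (n + 1) → K) (h0 : dot ℓ (coordAt P t x) = 0)
    (h1 : dot ℓ (tangAt P t x) = 0) :
    lin ℓ x = 0 ∨ minOrd P x + 2 ≤ P.ord (lin ℓ x) := by
  rw [lin_eq_sum]
  exact ord_sum_ge_two hP ht ℓ h0 h1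

end Linear

/-! ### The contracts of `Spec/BricksU7` -/

section Contracts

variable {K F : Type} [Field K] [Field F] [Algebra K F] [HasCanonicalDivisor (K := K) (F := F)]
  [IsAlgClosed K] [CharZero K] (U : USetup K F)

theorem x_ne_zero (a : Fin (U.n + 1)) : U.x a ≠ 0 := U.x_indep.ne_zero a

theorem degree_large :
    2 * (genus K F : ℤ) + 1 ≤
      Divisor.degree (Finsupp.single U.inf ((2 * U.m₀ : ℕ) : ℤ) : Divisor K F) := by
  rw [degree_single' U.gen]
  have := U.m₀_large
  push_cast
  omega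

/-- **UB4a**. -/
theorem minOrdSpec : U.MinOrdSpec := by
  have h := fun P => minOrd_eq U.gen (Finsupp.single U.inf ((2 * U.m₀ : ℕ) : ℤ)) U.x
    (x_ne_zero U) U.x_span (by have := degree_large U; omega) P
  classical
  refine ⟨fun P hP => ?_, ?_⟩
  · rw [h P, Finsupp.single_apply, if_neg (Ne.symm hP), neg_zero]
  · rw [h U.inf, Finsupp.single_apply, if_pos rfl]
    simp [USetup.m]

/-- **UB4b**. -/
theorem leadLinear : U.LeadLinear := by
  intro Q ℓ
  have hQ := hasResK U.gen Q
  exact ⟨leadLinear_one hQ (U.t_ord Q) ℓ, leadLinear_two hQ (U.t_ord Q) ℓ,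
    leadLinear_three hQ (U.t_ord Q) ℓ⟩

theorem isValAt_sec {k : ℕ} (B : U.MonoBasis k) (c : Fin B.ℓ → K) (Q : Place K F) :
    IsValAt Q (B.sec c * (U.t Q) ^ (-((k : ℤ) * minOrd Q U.x))) (B.val c (U.pt Q)) := by
  unfold USetup.MonoBasis.sec USetup.MonoBasis.val
  rw [Finset.sum_mul]
  refine IsValAt.finset_sum _ _ _ fun j _ => ?_
  rw [mul_assoc]
  exact (isValAt_algebraMap _).mul
    (isValAt_mono (hasResK U.gen Q) (U.t_ord Q) (B.α j) k (B.deg j))

/-- **UB4c**. -/
theorem secValue : U.SecValue := by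
  intro k B c Q
  have hQ := hasResK U.gen Q
  have h := isValAt_sec U B c Q
  refine ⟨fun hs => le_ord_of_isValAt hQ (U.t_ord Q) h hs, fun hv => ?_, fun hv hs => ?_⟩
  · exact (ord_eq_and_leadAt_eq_of_isValAt hQ (U.t_ord Q) h hv).2
  · rw [hv] at h
    exact lt_ord_of_isValAt_zero hQ (U.t_ord Q) h hs

/-- **UB4d**. -/
theorem coneMem : U.ConeMem := by
  rintro Q p ⟨k, hp⟩ h0
  exact eval_coordAt_eq_zero (hasResK U.gen Q) (U.t_ord Q) hp h0

/-- **E3** for the general-field data. -/
theorem veryAmpleU : U.VeryAmpleU :=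
  veryAmple_general U.gen (Finsupp.single U.inf ((2 * U.m₀ : ℕ) : ℤ)) U.x (x_ne_zero U) U.x_span
    (degree_large U) U.t U.t_ord

end Contracts

end Fermat.Agent.MW.FF.LeadLinear49
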