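/-
Program MW-H (S17), brick UB0 (helper61): **monomial bases exist**.

`BricksU7.USetup.MonoBasisExists` from `R1 = Bricks7b.PowerSurj` (as a literal hypothesis):
`L(k m · inf) = L(m · inf)^k = (span x)^k = span {x^α | |α| = k}`, then a linearly independent
spanning subfamily is extracted and indexed by `Fin ℓ`.

* `span_pow_eq`       : `(span (range x))^k = span (monoSet x k)` (any `K`-algebra field `F`);
* `monoSet_finite`    : there are finitely many monomials of a given degree;
* `R_eq_span_monoSet` : `U.R k = span (monoSet U.x k)`;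
* `monoBasisExists`   : the contract UB0.
-/
import Mathlib
import Fermat.Agent.MW.Spec.BricksU7

set_option autoImplicit false

open AlgebraicCurve

namespace Fermat.Agent.MW.FF.MonoBasis61

open Fermat.Agent.MW.Spec.BricksU7 Fermat.Agent.MW.Spec.Bricks7b
open scoped Pointwise

section Algebra

variable {K F : Type*} [Field K] [Field F] [Algebra K F] {n : ℕ}

/-- The set of monomials of degree `k` in `x`. -/
def monoSet (x : Fin (n + 1) → F) (k : ℕ) : Set F :=
  {f | ∃ α : Fin (n + 1) → ℕ, ∑ i, α i = k ∧ mono x α = f}

theorem mono_zero (x : Fin (n + 1) → F) : mono x (0 : Fin (n + 1) → ℕ) = 1 := by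
  simp [mono]

theorem mono_add_single (x : Fin (n + 1) → F) (α : Fin (n + 1) → ℕ) (i : Fin (n + 1)) :
    mono x (α + Pi.single i 1) = mono x α * x i := by
  classical
  unfold mono
  have : ∀ j, x j ^ ((α + Pi.single i 1 : Fin (n + 1) → ℕ) j)
      = x j ^ α j * x j ^ ((Pi.single i 1 : Fin (n + 1) → ℕ) j) := by
    intro j; rw [Pi.add_apply, pow_add]
  rw [Finset.prod_congr rfl fun j _ => this j, Finset.prod_mul_distrib]
  congr 1
  rw [Finset.prod_eq_single i]
  · simp
  · intro j _ hj; simp [Pi.single_eq_of_ne hj]
  · intro h; exact absurd (Finset.mem_univ i) h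

theorem span_pow_eq (x : Fin (n + 1) → F) (k : ℕ) :
    (Submodule.span K (Set.range x)) ^ k = Submodule.span K (monoSet x k) := by
  classical
  induction k with
  | zero =>
    rw [pow_zero, Submodule.one_eq_span]
    congr 1
    ext f
    simp only [monoSet, Set.mem_singleton_iff, Set.mem_ofPred_eq]
    constructor
    · rintro rfl
      exact ⟨0, by simp, mono_zero x⟩
    · rintro ⟨α, hα, rfl⟩
      have h0 : α = 0 := by
        funext i
        have := (Finset.sum_eq_zero_iff.mp hα) i (Finset.mem_univ i)
        simpa using this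
      rw [h0, mono_zero]
  | succ k ih =>
    rw [pow_succ, ih, Submodule.span_mul_span]
    congr 1
    ext f
    constructor
    · rintro ⟨_, ⟨α, hα, rfl⟩, _, ⟨i, rfl⟩, rfl⟩
      refine ⟨α + Pi.single i 1, ?_, mono_add_single x α i⟩
      simp [Finset.sum_add_distrib, hα]
    · rintro ⟨α, hα, rfl⟩
      have hex : ∃ i, 0 < α i := by
        by_contra hcon
        push Not at hcon
        have : ∑ i, α i = 0 := Finset.sum_eq_zero fun i _ => Nat.le_zero.mp (hcon i)
        omega
      obtain ⟨i, hi⟩ := hex
      set β : Fin (n + 1) → ℕ := α - Pi.single i 1 with hβ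
      have hαβ : α = β + Pi.single i 1 := by
        funext j
        by_cases hj : j = i
        · subst hj; simp [hβ]; omega
        · simp [hβ, Pi.single_eq_of_ne hj]
      have hβk : ∑ j, β j = k := by
        have h1 : ∑ j, α j = ∑ j, β j + 1 := by
          conv_lhs => rw [hαβ]
          simp [Finset.sum_add_distrib]
        omega
      refine ⟨mono x β, ⟨β, hβk, rfl⟩, x i, ⟨i, rfl⟩, ?_⟩
      show mono x β * x i = mono x α
      rw [hαβ, mono_add_single]

theorem monoSet_finite (x : Fin (n + 1) → F) (k : ℕ) : (monoSet x k).Finite := by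
  have : monoSet x k = (fun α => mono x α) '' (↑(Finset.Nat.antidiagonalTuple (n + 1) k) : Set _) := by
    ext f
    simp only [monoSet, Set.mem_ofPred_eq, Set.mem_image, Finset.mem_coe,
      Finset.Nat.mem_antidiagonalTuple]
  rw [this]
  exact (Finset.finite_toSet _).image _

end Algebra


section Main

variable {K F : Type} [Field K] [Field F] [Algebra K F] [HasCanonicalDivisor (K := K) (F := F)]

/-- The sections of degree `k` are spanned by the monomials of degree `k` (from `R1`). -/
theorem R_eq_span_monoSet (U : USetup K F) (hR1 : PowerSurj K F) (k : ℕ) :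
    U.R k = Submodule.span K (monoSet U.x k) := by
  have hm : 2 * genus K F + 1 ≤ U.m := by
    have := U.m₀_large
    unfold USetup.m
    omega
  have h1 := hR1 U.u₀ U.gen U.inf U.m hm k
  have h2 : riemannRochSpace (K := K) (F := F) (Finsupp.single U.inf ((U.m : ℕ) : ℤ))
      = Submodule.span K (Set.range U.x) := U.x_span.symm
  unfold USetup.R
  rw [h1, h2, span_pow_eq]

/-- **UB0**: monomial bases exist, given `R1 = PowerSurj`. -/
theorem monoBasisExists (U : USetup K F) (hR1 : PowerSurj K F) : U.MonoBasisExists := by
  classical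
  intro k
  obtain ⟨b, hbS, hspan, hli⟩ := exists_linearIndependent K (monoSet U.x k)
  have hbfin : b.Finite := (monoSet_finite U.x k).subset hbS
  have : Finite b := hbfin.to_subtype
  let e : Fin (Nat.card b) ≃ b := (Finite.equivFin b).symm
  have hα : ∀ j : Fin (Nat.card b), ∃ α : Fin (U.n + 1) → ℕ,
      ∑ i, α i = k ∧ mono U.x α = ((e j : b) : F) := fun j => hbS (e j).2
  choose α hαk hαm using hα
  have hfun : (fun j => mono U.x (α j)) = (Subtype.val : b → F) ∘ e := by
    funext j; exact hαm j
  refine ⟨⟨Nat.card b, α, hαk, ?_, ?_⟩⟩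
  · rw [hfun]
    exact hli.comp e e.injective
  · rw [hfun, Set.range_comp, e.range_eq_univ, Set.image_univ, Subtype.range_coe, hspan,
      R_eq_span_monoSet U hR1 k]

end Main

end Fermat.Agent.MW.FF.MonoBasis61
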