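/-
Program MW-H (S17), helper86.  Package [d] of plan #590: function-field lemmas on the spaces
`L(n · inf)` of functions with a single pole (Weierstrass semigroup at `inf`).

* `Lone inf n = L(n · inf)`; `NonGap inf n` : some function in `L(n · inf)` has a pole of exact
  order `n` at `inf`;
* `nonGap_zero`, `NonGap.add`;
* (with `LHyp`) `finrank_Lone_succ`, `finrank_Lone_eq_card` : `l(N·inf) = 1 + #{nongaps in [1, N]}`;
* (with Riemann-Roch) `finrank_Lone` : `l(n·inf) = n + 1 - g` for `n ≥ 2g - 1`;
  `nonGap_of_le` : every `n ≥ 2g` is a nongap; `card_gaps_le` : at most `g` gaps;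
* `Lone_le_mul` : the pole-order induction producing `L((a+b)·inf) ≤ L(a·inf) * L(b·inf)`.
-/
import Mathlib
import Fermat.Agent.RR.RRMain

set_option autoImplicit false

open AlgebraicCurve

namespace Fermat.Agent.MW.FF.OnePoint86

open Fermat.Agent.X0.FF Fermat.Agent.RR.LSpace

variable {K F : Type*} [Field K] [Field F] [Algebra K F]

/-- `L(n · inf)`. -/
noncomputable abbrev Lone (inf : Place K F) (n : ℕ) : Submodule K F :=
  riemannRochSpace (K := K) (F := F) (Finsupp.single inf ((n : ℕ) : ℤ))

theorem mem_Lone_iff {inf : Place K F} {n : ℕ} {f : F} (hf : f ≠ 0) :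
    f ∈ Lone inf n ↔ -(n : ℤ) ≤ inf.ord f ∧ ∀ v : Place K F, v ≠ inf → 0 ≤ v.ord f := by
  rw [Lone, mem_L_iff hf]
  constructor
  · intro h
    refine ⟨by simpa using h inf, fun v hv => ?_⟩
    have := h v
    rwa [Finsupp.single_eq_of_ne hv, neg_zero] at this
  · rintro ⟨h1, h2⟩ v
    by_cases hv : v = inf
    · subst hv
      simpa using h1
    · rw [Finsupp.single_eq_of_ne hv, neg_zero]
      exact h2 v hv

theorem Lone_mono (inf : Place K F) {n n' : ℕ} (h : n ≤ n') : Lone inf n ≤ Lone inf n' := by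
  apply L_mono
  intro v
  by_cases hv : v = inf
  · subst hv
    simpa using h
  · rw [Finsupp.single_eq_of_ne hv, Finsupp.single_eq_of_ne hv]

theorem one_mem_Lone (inf : Place K F) (n : ℕ) : (1 : F) ∈ Lone inf n := by
  rw [mem_Lone_iff one_ne_zero]
  refine ⟨by simp, fun v _ => by simp⟩

theorem mul_mem_Lone {inf : Place K F} {a b : ℕ} {f g : F} (hf : f ∈ Lone inf a)
    (hg : g ∈ Lone inf b) : f * g ∈ Lone inf (a + b) := by
  by_cases hf0 : f = 0
  · rw [hf0, zero_mul]; exact Submodule.zero_mem _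
  by_cases hg0 : g = 0
  · rw [hg0, mul_zero]; exact Submodule.zero_mem _
  rw [mem_Lone_iff hf0] at hf
  rw [mem_Lone_iff hg0] at hg
  rw [mem_Lone_iff (mul_ne_zero hf0 hg0)]
  refine ⟨?_, fun v hv => ?_⟩
  · rw [inf.ord_mul hf0 hg0]
    push_cast
    have := hf.1
    have := hg.1
    omega
  · rw [v.ord_mul hf0 hg0]
    have := hf.2 v hv
    have := hg.2 v hv
    omega

/-- `n` is a pole order at `inf` of a function regular elsewhere. -/
def NonGap (inf : Place K F) (n : ℕ) : Prop :=
  ∃ f : F, f ∈ Lone inf n ∧ f ≠ 0 ∧ inf.ord f = -(n : ℤ)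

theorem nonGap_zero (inf : Place K F) : NonGap inf 0 :=
  ⟨1, one_mem_Lone inf 0, one_ne_zero, by simp⟩

theorem NonGap.add {inf : Place K F} {a b : ℕ} (ha : NonGap inf a) (hb : NonGap inf b) :
    NonGap inf (a + b) := by
  obtain ⟨f, hf, hf0, hfo⟩ := ha
  obtain ⟨g, hg, hg0, hgo⟩ := hb
  refine ⟨f * g, mul_mem_Lone hf hg, mul_ne_zero hf0 hg0, ?_⟩
  rw [inf.ord_mul hf0 hg0, hfo, hgo]
  push_cast
  ring

theorem single_succ (inf : Place K F) (n : ℕ) :
    (Finsupp.single inf ((n + 1 : ℕ) : ℤ) : Divisor K F) =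
      Finsupp.single inf ((n : ℕ) : ℤ) + Finsupp.single inf 1 := by
  rw [← Finsupp.single_add]
  push_cast
  rfl

/-- An element of `L((n+1)·inf)` outside `L(n·inf)` has a pole of exact order `n + 1`. -/
theorem ord_eq_of_not_mem {inf : Place K F} {n : ℕ} {f : F} (hf : f ∈ Lone inf (n + 1))
    (hf' : f ∉ Lone inf n) : f ≠ 0 ∧ inf.ord f = -((n + 1 : ℕ) : ℤ) := by
  have hf0 : f ≠ 0 := by
    rintro rfl
    exact hf' (Submodule.zero_mem _)
  refine ⟨hf0, ?_⟩
  rw [mem_Lone_iff hf0] at hf hf'
  by_contra hne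
  apply hf'
  refine ⟨?_, hf.2⟩
  have := hf.1
  push_cast at this hne ⊢
  omega

theorem not_mem_of_ord_eq {inf : Place K F} {n : ℕ} {f : F} (hf0 : f ≠ 0)
    (hfo : inf.ord f = -((n + 1 : ℕ) : ℤ)) : f ∉ Lone inf n := by
  rw [mem_Lone_iff hf0]
  rintro ⟨h, -⟩
  rw [hfo] at h
  push_cast at h
  omega

theorem Lone_succ_eq_of_not_nonGap {inf : Place K F} {n : ℕ} (h : ¬ NonGap inf (n + 1)) :
    Lone inf (n + 1) = Lone inf n := by
  apply le_antisymm _ (Lone_mono inf (Nat.le_succ n))
  intro f hf
  by_contra hf'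
  obtain ⟨hf0, hfo⟩ := ord_eq_of_not_mem hf hf'
  exact h ⟨f, hf, hf0, hfo⟩

/-- Leading-coefficient reduction. -/
theorem exists_sub_smul_mem_Lone (H : LHyp K F) {inf : Place K F} {n : ℕ} {f g : F}
    (hf : f ∈ Lone inf (n + 1)) (hg : g ∈ Lone inf (n + 1)) (hg' : g ∉ Lone inf n) :
    ∃ c : K, f - c • g ∈ Lone inf n := by
  unfold Lone at hf hg hg' ⊢
  rw [single_succ] at hf hg
  exact exists_sub_smul_mem H _ inf hf hg hg'

section Count

variable (H : LHyp K F) (inf : Place K F)

include H

theorem finiteDimensional_Lone (n : ℕ) : FiniteDimensional K (Lone inf n) :=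
  finiteDimensional_L H _

theorem finrank_Lone_succ_of_nonGap {n : ℕ} (h : NonGap inf (n + 1)) :
    Module.finrank K (Lone inf (n + 1)) = Module.finrank K (Lone inf n) + 1 := by
  have := finiteDimensional_Lone H inf n
  have := finiteDimensional_Lone H inf (n + 1)
  obtain ⟨g, hg, hg0, hgo⟩ := h
  have hg' : g ∉ Lone inf n := not_mem_of_ord_eq hg0 hgo
  have hlt : Lone inf n < Lone inf (n + 1) :=
    lt_of_le_of_ne (Lone_mono inf (Nat.le_succ n)) (fun he => hg' (he ▸ hg))
  have h1 := Submodule.finrank_lt_finrank_of_lt hlt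
  have h2 : Module.finrank K (Lone inf (n + 1)) ≤ Module.finrank K (Lone inf n) + 1 := by
    have := (finrank_L_add_single_le H (Finsupp.single inf ((n : ℕ) : ℤ)) inf).2
    rwa [← single_succ] at this
  omega

open Classical in
theorem finrank_Lone_succ (n : ℕ) :
    Module.finrank K (Lone inf (n + 1)) =
      Module.finrank K (Lone inf n) + if NonGap inf (n + 1) then 1 else 0 := by
  by_cases h : NonGap inf (n + 1)
  · rw [if_pos h, finrank_Lone_succ_of_nonGap H inf h]
  · rw [if_neg h, Lone_succ_eq_of_not_nonGap h, add_zero]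

theorem finrank_Lone_zero : Module.finrank K (Lone inf 0) = 1 := by
  have : (Finsupp.single inf ((0 : ℕ) : ℤ) : Divisor K F) = 0 := by simp
  rw [Lone, this]
  exact finrank_L_zero H

open Classical in
/-- `l(N · inf) = 1 + #{nongaps in [1, N]}`. -/
theorem finrank_Lone_eq_card (N : ℕ) :
    Module.finrank K (Lone inf N) =
      1 + ((Finset.Icc 1 N).filter fun n => NonGap inf n).card := by
  induction N with
  | zero => simpa using finrank_Lone_zero H inf
  | succ N ih =>
    rw [finrank_Lone_succ H inf N, ih]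
    have hIcc : Finset.Icc 1 (N + 1) = insert (N + 1) (Finset.Icc 1 N) := by
      ext x
      simp only [Finset.mem_Icc, Finset.mem_insert]
      omega
    have hnot : N + 1 ∉ Finset.Icc 1 N := by
      simp
    rw [hIcc, Finset.filter_insert]
    by_cases h : NonGap inf (N + 1)
    · rw [if_pos h, if_pos h, Finset.card_insert_of_notMem]
      · ring
      · intro hmem
        exact hnot (Finset.mem_filter.mp hmem).1
    · rw [if_neg h, if_neg h, add_zero]

end Count

/-- The pole-order induction: if every nongap `n ∈ (a, a + b]` is a sum of a nongap `≤ a` and a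
nongap `≤ b`, then `L((a + b)·inf) ≤ L(a·inf) * L(b·inf)`. -/
theorem Lone_le_mul (H : LHyp K F) (inf : Place K F) (a b : ℕ)
    (hab : ∀ n, a < n → n ≤ a + b → NonGap inf n →
      ∃ a' b', NonGap inf a' ∧ NonGap inf b' ∧ a' ≤ a ∧ b' ≤ b ∧ a' + b' = n) :
    Lone inf (a + b) ≤ Lone inf a * Lone inf b := by
  have key : ∀ i, i ≤ b → Lone inf (a + i) ≤ Lone inf a * Lone inf b := by
    intro i
    induction i with
    | zero =>
      intro _ f hf
      have := Submodule.mul_mem_mul hf (one_mem_Lone inf b)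
      rwa [mul_one] at this
    | succ i ih =>
      intro hi
      have ih' := ih (by omega)
      by_cases hng : NonGap inf (a + i + 1)
      · obtain ⟨a', b', ha', hb', haa, hbb, hsum⟩ := hab (a + i + 1) (by omega) (by omega) hng
        obtain ⟨fa, hfa, hfa0, hfao⟩ := ha'
        obtain ⟨fb, hfb, hfb0, hfbo⟩ := hb'
        have hgmul : fa * fb ∈ Lone inf a * Lone inf b :=
          Submodule.mul_mem_mul (Lone_mono inf haa hfa) (Lone_mono inf hbb hfb)
        have hgmem : fa * fb ∈ Lone inf (a + i + 1) := by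
          have := mul_mem_Lone hfa hfb
          rwa [hsum] at this
        have hgo : inf.ord (fa * fb) = -((a + i + 1 : ℕ) : ℤ) := by
          rw [inf.ord_mul hfa0 hfb0, hfao, hfbo, ← hsum]
          push_cast
          ring
        have hg' : fa * fb ∉ Lone inf (a + i) :=
          not_mem_of_ord_eq (mul_ne_zero hfa0 hfb0) hgo
        intro f hf
        obtain ⟨c, hc⟩ := exists_sub_smul_mem_Lone H (show f ∈ Lone inf (a + i + 1) from hf)
          hgmem hg'
        have : f = (f - c • (fa * fb)) + c • (fa * fb) := by ring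
        rw [this]
        exact Submodule.add_mem _ (ih' hc) (Submodule.smul_mem _ c hgmul)
      · have : Lone inf (a + (i + 1)) = Lone inf (a + i) := by
          rw [← add_assoc]
          exact Lone_succ_eq_of_not_nonGap hng
        rw [this]
        exact ih'
  exact key b le_rfl

/-! ### With Riemann-Roch -/

section RR

open Fermat.Agent.RR.RRMain

variable [IsAlgClosed K] [CharZero K] [HasCanonicalDivisor (K := K) (F := F)] {x : F}

/-- `l(n · inf) = n + 1 - g` for `n ≥ 2g - 1`. -/
theorem finrank_Lone (hx : IsGen K x) (inf : Place K F) (n : ℕ)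
    (hn : 2 * (genus K F : ℤ) - 2 < n) :
    (Module.finrank K (Lone inf n) : ℤ) = n + 1 - genus K F := by
  have H := Fermat.Agent.RR.LHypGen.lHyp_of_isGen hx
  have hdeg : Divisor.degree (Finsupp.single inf ((n : ℕ) : ℤ) : Divisor K F) = n :=
    degree_single H inf _
  have := finrank_L_of_degree_gt hx (Finsupp.single inf ((n : ℕ) : ℤ)) (by rw [hdeg]; exact hn)
  rw [hdeg] at this
  exact this

/-- Every `n ≥ 2g` is a nongap. -/
theorem nonGap_of_le (hx : IsGen K x) (inf : Place K F) (n : ℕ) (hn : 2 * genus K F ≤ n) :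
    NonGap inf n := by
  cases n with
  | zero => exact nonGap_zero inf
  | succ n =>
    by_contra h
    have h1 := finrank_Lone hx inf (n + 1) (by push_cast; omega)
    have h2 := finrank_Lone hx inf n (by omega)
    rw [Lone_succ_eq_of_not_nonGap h] at h1
    push_cast at h1
    omega

open Classical in
/-- There are at most `g` gaps. -/
theorem card_gaps_le (hx : IsGen K x) (inf : Place K F) (G : Finset ℕ)
    (hG : ∀ n ∈ G, ¬ NonGap inf n) : G.card ≤ genus K F := by
  have H := Fermat.Agent.RR.LHypGen.lHyp_of_isGen hx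
  set N := max (2 * genus K F) (G.sup id) with hN
  have h1 := finrank_Lone_eq_card H inf N
  have h2 := finrank_Lone hx inf N (by
    have : 2 * genus K F ≤ N := le_max_left _ _
    omega)
  have hsub : G ⊆ (Finset.Icc 1 N).filter fun n => ¬ NonGap inf n := by
    intro n hn
    rw [Finset.mem_filter, Finset.mem_Icc]
    refine ⟨⟨?_, ?_⟩, hG n hn⟩
    · rcases Nat.eq_zero_or_pos n with h0 | h0
      · exact absurd (h0 ▸ nonGap_zero inf) (hG n hn)
      · exact h0
    · exact le_trans (Finset.le_sup (f := id) hn) (le_max_right _ _)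
  have h3 := Finset.card_le_card hsub
  have h4 := Finset.card_filter_add_card_filter_not (s := Finset.Icc 1 N)
    (fun n => NonGap inf n)
  rw [Nat.card_Icc] at h4
  have : 2 * genus K F ≤ N := le_max_left _ _
  rw [h1] at h2
  push_cast at h2
  omega

end RR

end Fermat.Agent.MW.FF.OnePoint86
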