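/-
Program MW-H (S17), helper86.  Package [d] of plan #590, brick R1 (PowerSurj), combinatorial core.

A pure statement on numerical semigroups: if `H ⊆ ℕ` contains `0`, is closed under addition,
contains every `n ≥ 2 g` and has at most `g` gaps, then for `m ≥ 2 g + 1` every `n ∈ (m, 2 m]`
is a sum of two elements of `H ∩ [0, m]`.

Proof: pigeonhole on `b ∈ [j, m]` (`n = m + j`): the bad `b` are the gaps `≥ j` and their mirror
images; the number of gaps `< j` is at least `(j - 1) / 2`, because for the least gap `l ≥ j` each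
pair `(x, l - x)` contains a gap.
-/
import Mathlib

set_option autoImplicit false

namespace Fermat.Agent.MW.FF.SemigroupSum86

open Finset

/-- **Sums of two small non-gaps.** -/
theorem exists_add_eq (H : ℕ → Prop) (g : ℕ) (hadd : ∀ a b, H a → H b → H (a + b))
    (hbig : ∀ n, 2 * g ≤ n → H n)
    (hgaps : ∀ G : Finset ℕ, (∀ n ∈ G, ¬ H n) → G.card ≤ g)
    (m : ℕ) (hm : 2 * g + 1 ≤ m) (j : ℕ) (hj1 : 1 ≤ j) (hjm : j ≤ m) :
    ∃ a b, H a ∧ H b ∧ a ≤ m ∧ b ≤ m ∧ a + b = m + j := by
  classical
  by_contra hcon
  -- every `b ∈ [j, m]` is bad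
  have hbad : ∀ b, j ≤ b → b ≤ m → ¬ H b ∨ ¬ H (m + j - b) := by
    intro b hjb hbm
    by_contra h
    push Not at h
    exact hcon ⟨m + j - b, b, h.2, h.1, by omega, hbm, by omega⟩
  set G : Finset ℕ := (range (2 * g)).filter fun n => ¬ H n with hG
  have hmemG : ∀ n, ¬ H n → n ∈ G := by
    intro n hn
    rw [hG, mem_filter, mem_range]
    refine ⟨?_, hn⟩
    by_contra hlt
    exact hn (hbig n (by omega))
  have hGnot : ∀ n ∈ G, ¬ H n := fun n hn => (mem_filter.mp hn).2
  set Gj : Finset ℕ := G.filter fun n => j ≤ n with hGj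
  set Gl : Finset ℕ := G.filter fun n => ¬ j ≤ n with hGl
  have hcard : Gj.card + Gl.card ≤ g := by
    rw [hGj, hGl, card_filter_add_card_filter_not]
    exact hgaps G hGnot
  -- first pigeonhole
  have h1 : Icc j m ⊆ Gj ∪ Gj.image fun x => m + j - x := by
    intro b hb
    rw [mem_Icc] at hb
    rw [mem_union]
    rcases hbad b hb.1 hb.2 with hb' | hb'
    · left
      rw [hGj, mem_filter]
      exact ⟨hmemG b hb', hb.1⟩
    · right
      rw [mem_image]
      refine ⟨m + j - b, ?_, by omega⟩
      rw [hGj, mem_filter]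
      exact ⟨hmemG _ hb', by omega⟩
  have h1c : m + 1 - j ≤ 2 * Gj.card := by
    have := card_le_card h1
    rw [Nat.card_Icc] at this
    have h2 := card_union_le Gj (Gj.image fun x => m + j - x)
    have h3 : (Gj.image fun x => m + j - x).card ≤ Gj.card := card_image_le
    omega
  have hne : Gj.Nonempty := by
    rw [nonempty_iff_ne_empty]
    intro h
    rw [h, card_empty] at h1c
    omega
  set l := Gj.min' hne with hl
  have hlmem : l ∈ Gj := min'_mem Gj hne
  have hlj : j ≤ l := (mem_filter.mp hlmem).2
  have hlH : ¬ H l := hGnot l (mem_filter.mp hlmem).1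
  have hlt : ∀ x, ¬ H x → x < l → x ∈ Gl := by
    intro x hx hxl
    rw [hGl, mem_filter]
    refine ⟨hmemG x hx, ?_⟩
    intro hjx
    have : x ∈ Gj := by
      rw [hGj, mem_filter]
      exact ⟨hmemG x hx, hjx⟩
    have := min'_le Gj x this
    omega
  -- second pigeonhole
  have h2 : Icc 1 (l - 1) ⊆ Gl ∪ Gl.image fun x => l - x := by
    intro x hx
    rw [mem_Icc] at hx
    rw [mem_union]
    have hor : ¬ H x ∨ ¬ H (l - x) := by
      by_contra h
      push Not at h
      apply hlH
      have := hadd x (l - x) h.1 h.2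
      rwa [show x + (l - x) = l by omega] at this
    rcases hor with hx' | hx'
    · left
      exact hlt x hx' (by omega)
    · right
      rw [mem_image]
      exact ⟨l - x, hlt _ hx' (by omega), by omega⟩
  have h2c : l - 1 ≤ 2 * Gl.card := by
    have := card_le_card h2
    rw [Nat.card_Icc] at this
    have h2' := card_union_le Gl (Gl.image fun x => l - x)
    have h3 : (Gl.image fun x => l - x).card ≤ Gl.card := card_image_le
    omega
  omega

end Fermat.Agent.MW.FF.SemigroupSum86
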