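/-
Program MW-H (S17), helper86.  Package [d] of plan #590, brick **R1 = `Bricks7b.PowerSurj`**:
`L(k m · inf) = L(m · inf) ^ k` for `m ≥ 2 g + 1`, over an algebraically closed constant field of
characteristic zero (the hypotheses of `Agent/RR/RRMain`).

Everything is supported at one place, so the proof is a pole-order induction
(`OnePoint86.Lone_le_mul`) plus the combinatorial lemma `SemigroupSum86.exists_add_eq` on the
Weierstrass semigroup at `inf` (needed only for `k = 2`, `m < 4 g`).
-/
import Mathlib
import Fermat.Agent.MW.Spec.Bricks7b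
import Fermat.Agent.MW.FF.SemigroupSum86
import Fermat.Agent.MW.FF.OnePoint86

set_option autoImplicit false

open AlgebraicCurve

namespace Fermat.Agent.MW.FF.PowerSurj86

open Fermat.Agent.X0.FF Fermat.Agent.RR.LSpace Fermat.Agent.MW.FF.OnePoint86

variable {K F : Type*} [Field K] [Field F] [Algebra K F] [IsAlgClosed K] [CharZero K]
  [HasCanonicalDivisor (K := K) (F := F)] {x : F}

/-- `L((a + m)·inf) = L(a·inf) * L(m·inf)` for `m ≥ 2g + 1` and `a ∈ {0, m} ∪ [2 m, ∞)`. -/
theorem Lone_add_eq_mul (hx : IsGen K x) (inf : Place K F) (m : ℕ) (hm : 2 * genus K F + 1 ≤ m)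
    (a : ℕ) (ha : a = 0 ∨ a = m ∨ 2 * m ≤ a) :
    Lone inf (a + m) = Lone inf a * Lone inf m := by
  have H := Fermat.Agent.RR.LHypGen.lHyp_of_isGen hx
  apply le_antisymm
  · apply Lone_le_mul H inf a m
    intro n han hnam hng
    rcases ha with rfl | rfl | ha
    · exact ⟨0, n, nonGap_zero inf, hng, le_rfl, by omega, by omega⟩
    · -- the genuinely combinatorial case `a = m`
      obtain ⟨a', b', ha', hb', ham, hbm, hsum⟩ :=
        Fermat.Agent.MW.FF.SemigroupSum86.exists_add_eq (fun n => NonGap inf n) (genus K F)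
          (fun a b ha hb => NonGap.add ha hb) (fun n hn => nonGap_of_le hx inf n hn)
          (fun G hG => card_gaps_le hx inf G hG) a hm (n - a) (by omega) (by omega)
      exact ⟨a', b', ha', hb', ham, hbm, by omega⟩
    · exact ⟨n - m, m, nonGap_of_le hx inf _ (by omega), nonGap_of_le hx inf _ (by omega),
        by omega, le_rfl, by omega⟩
  · rw [Submodule.mul_le]
    intro f hf g hg
    exact mul_mem_Lone hf hg

/-- `L(k m · inf) = L(m · inf) ^ k` for `m ≥ 2g + 1`. -/
theorem Lone_mul_eq_pow (hx : IsGen K x) (inf : Place K F) (m : ℕ) (hm : 2 * genus K F + 1 ≤ m)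
    (k : ℕ) : Lone inf (k * m) = Lone inf m ^ k := by
  have H := Fermat.Agent.RR.LHypGen.lHyp_of_isGen hx
  induction k with
  | zero =>
    rw [pow_zero, Submodule.one_eq_span, zero_mul]
    have : (Finsupp.single inf ((0 : ℕ) : ℤ) : Divisor K F) = 0 := by simp
    rw [Lone, this]
    exact L_zero H
  | succ k ih =>
    rw [pow_succ, ← ih, Nat.succ_mul]
    apply Lone_add_eq_mul hx inf m hm
    rcases Nat.lt_or_ge k 2 with hk | hk
    · interval_cases k
      · left; simp
      · right; left; simp
    · right; right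
      exact Nat.mul_le_mul_right m hk

/-- **R1**: the contract `Bricks7b.PowerSurj`, for an algebraically closed constant field of
characteristic zero. -/
theorem powerSurj {K F : Type} [Field K] [Field F] [Algebra K F] [IsAlgClosed K] [CharZero K]
    [HasCanonicalDivisor (K := K) (F := F)] : Fermat.Agent.MW.Spec.Bricks7b.PowerSurj K F := by
  intro u hu inf m hm k
  exact Lone_mul_eq_pow hu inf m hm k

end Fermat.Agent.MW.FF.PowerSurj86
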