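/-
Program MW (S17), height part H, brick UB7b (helper62): THE MASTER THEOREM FROM ITS SECTION FORM.

`U.MasterUDU` (`UDTame U.x U.t d` for every `d`) from `U.SectionUD` (the uniform decomposition for
sections of degree `k` in a monomial basis), `U.MonoBasisExists` (UB0) and `U.ZeroDivSpec` (UB4z).

Route: let `f ≠ 0` with `posDeg (div f) ≤ d`.  Take `k = d⁺ + 2g + 1`; by Riemann-Roch there is
`s' ≠ 0` in `L(k m · inf + (div f ⊓ 0))`; then `s'` and `s = f s'` are sections of degree `k`,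
`s = B.sec c`, `s' = B.sec c'`, `div f = Z_s - Z_{s'}`, leading coefficients are multiplicative and
the local pairing is additive, so
`Φ_v(f; Q) = secPhi(c, Z_s; Q) - secPhi(c', Z_{s'}; Q) + (log ‖c‖ - log ‖c'‖)`
(the terms `k log ‖pt Q‖` cancel).  Hence `|Φ_v(f; Q) - Φ_v(f; Q')| ≤ 4 log C_v = log (C_v ^ 4)`.
-/
import Mathlib
import Fermat.Agent.MW.Spec.BricksU7
import Fermat.Agent.MW.FF.EvalLead49
import Fermat.Agent.RR.RRMain
import Fermat.Agent.MW.Global.PairBasic2
import Fermat.Agent.MW.FF.ZeroDiv80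
import Fermat.Agent.MW.Local.Tame86
import Fermat.Agent.MW.FF.MonoBasis61
import Fermat.Agent.MW.FF.PowerSurj86

set_option autoImplicit false

open AlgebraicCurve

namespace Fermat.Agent.MW.FF.MasterOfSection62

open Fermat.Agent.MW.Hadamard7 Fermat.Agent.MW.Spec.Defs7 Fermat.Agent.MW.Spec.Contract7
open Fermat.Agent.MW.Spec.Bricks7 Fermat.Agent.MW.Spec.BricksU7 Fermat.Agent.X0.FF
open Fermat.Agent.MW.FF.EvalLead49

/-! ### Degrees -/

section Degrees

variable {K F : Type} [Field K] [Field F] [Algebra K F]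

theorem support_inf_zero_subset (D : Divisor K F) : (D ⊓ 0).support ⊆ D.support := by
  intro P hP
  rw [Finsupp.mem_support_iff] at hP ⊢
  intro h0
  apply hP
  rw [Finsupp.inf_apply, h0]
  simp

variable [IsAlgClosed K] [CharZero K] {u : F} (hu : IsGen K u)
include hu

theorem degree_eq_sum' (D : Divisor K F) (s : Finset (Place K F)) (hs : D.support ⊆ s) :
    Divisor.degree D = ∑ P ∈ s, D P := by
  rw [← Fermat.Agent.MW.FF.ZeroDiv80.sum_eq_degree hu D]
  exact Finsupp.sum_of_support_subset D hs (fun _ e => e) (fun _ _ => rfl)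

/-- For a principal divisor `D`: `deg (D ⊓ 0) = - posDeg D`. -/
theorem degree_inf_zero {f : F} (hf : f ≠ 0) {D : Divisor K F} (hD : IsDivOf D f) :
    Divisor.degree (D ⊓ 0) = -posDeg D := by
  have h0 : Divisor.degree D = 0 :=
    ffq_degree_eq_zero_of_principal (Fermat.Agent.X0.FFGenus.ff1Data hu) hf D hD
  rw [degree_eq_sum' hu D D.support (Finset.Subset.refl _)] at h0
  rw [degree_eq_sum' hu (D ⊓ 0) D.support (support_inf_zero_subset D)]
  unfold posDeg
  rw [Finsupp.sum, ← Finset.sum_neg_distrib]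
  have : ∑ P ∈ D.support, (D ⊓ 0) P = ∑ P ∈ D.support, (-(max (D P) 0) + D P) := by
    apply Finset.sum_congr rfl
    intro P _
    rw [Finsupp.inf_apply, Finsupp.zero_apply]
    rcases le_total (D P) 0 with h | h
    · rw [min_eq_left h, max_eq_right h]; ring
    · rw [min_eq_right h, max_eq_left h]; ring
  rw [this, Finset.sum_add_distrib, h0, add_zero]

end Degrees


/-! ### Denominators -/

section Denominators

variable {K F : Type} [Field K] [Field F] [Algebra K F] [HasCanonicalDivisor (K := K) (F := F)]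
variable [IsAlgClosed K] [CharZero K] (U : USetup K F)

omit [IsAlgClosed K] [CharZero K] in
theorem m_pos : 0 < U.m := by
  have := U.m₀_large
  unfold USetup.m
  omega

/-- Every nonzero function whose polar divisor has degree at most `k m - 2 g` is a quotient of two
sections of degree `k`. -/
theorem exists_denominator (k : ℕ) {f : F} (hf : f ≠ 0) {D : Divisor K F} (hD : IsDivOf D f)
    (hk : posDeg D + 2 * (genus K F : ℤ) ≤ ((k * U.m : ℕ) : ℤ)) :
    ∃ s' : F, s' ≠ 0 ∧ s' ∈ U.R k ∧ f * s' ∈ U.R k := by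
  set E : Divisor K F := Finsupp.single U.inf ((k * U.m : ℕ) : ℤ) + D ⊓ 0 with hE
  have hdegE : Divisor.degree E = ((k * U.m : ℕ) : ℤ) - posDeg D := by
    rw [hE, map_add, Divisor.degree_single, deg_eq_one U.gen, degree_inf_zero U.gen hf hD]
    simp
    ring
  have hgt : 2 * (genus K F : ℤ) - 2 < Divisor.degree E := by rw [hdegE]; omega
  have hfr := Fermat.Agent.RR.RRMain.finrank_L_of_degree_gt U.gen E hgt
  have hpos : 0 < Module.finrank K (riemannRochSpace (K := K) (F := F) E) := by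
    have : (0 : ℤ) < (Module.finrank K (riemannRochSpace (K := K) (F := F) E) : ℤ) := by
      rw [hfr, hdegE]; omega
    exact_mod_cast this
  have := Fermat.Agent.RR.RRMain.finiteDimensional_L U.gen E
  obtain ⟨⟨s', hs'mem⟩, hs'ne⟩ := Module.finrank_pos_iff_exists_ne_zero.mp hpos
  have hs'0 : s' ≠ 0 := fun h => hs'ne (Subtype.ext h)
  have hmem := mem_riemannRochSpace_iff.mp hs'mem
  have hord : ∀ P : Place K F, -(E P) ≤ P.ord s' := by
    intro P
    rcases hmem P with h | h
    · exact absurd h hs'0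
    · exact h
  have hEP : ∀ P : Place K F,
      E P = Finsupp.single U.inf ((k * U.m : ℕ) : ℤ) P + min (D P) 0 := by
    intro P
    rw [hE, Finsupp.add_apply, Finsupp.inf_apply, Finsupp.zero_apply]
  refine ⟨s', hs'0, ?_, ?_⟩
  · show s' ∈ riemannRochSpace _
    rw [mem_riemannRochSpace_iff]
    intro P
    right
    have h1 := hord P
    rw [hEP P] at h1
    have h2 : min (D P) 0 ≤ 0 := min_le_right _ _
    omega
  · show f * s' ∈ riemannRochSpace _
    rw [mem_riemannRochSpace_iff]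
    intro P
    right
    rw [P.ord_mul hf hs'0, ← hD P]
    have h1 := hord P
    rw [hEP P] at h1
    have h2 : min (D P) 0 ≤ D P := min_le_left _ _
    omega

end Denominators


/-! ### Sections in a monomial basis -/

section Coefficients

variable {K F : Type} [Field K] [Field F] [Algebra K F] [HasCanonicalDivisor (K := K) (F := F)]
variable {U : USetup K F}

theorem sec_zero {k : ℕ} (B : U.MonoBasis k) : B.sec (0 : Fin B.ℓ → K) = 0 := by
  unfold USetup.MonoBasis.sec
  simp

/-- Every section of degree `k` is `B.sec c` for a coefficient vector `c`. -/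
theorem exists_coeff {k : ℕ} (B : U.MonoBasis k) {s : F} (hs : s ∈ U.R k) :
    ∃ c : Fin B.ℓ → K, B.sec c = s := by
  rw [← B.span] at hs
  obtain ⟨c, hc⟩ := (Submodule.mem_span_range_iff_exists_fun K).mp hs
  refine ⟨c, ?_⟩
  rw [← hc]
  unfold USetup.MonoBasis.sec
  apply Finset.sum_congr rfl
  intro j _
  rw [Algebra.smul_def]

theorem exists_coeff_ne_zero {k : ℕ} (B : U.MonoBasis k) {s : F} (hs : s ∈ U.R k)
    (hs0 : s ≠ 0) : ∃ c : Fin B.ℓ → K, c ≠ 0 ∧ B.sec c = s := by
  obtain ⟨c, hc⟩ := exists_coeff B hs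
  refine ⟨c, ?_, hc⟩
  rintro rfl
  exact hs0 (hc ▸ sec_zero B)

end Coefficients


/-! ### The master theorem from the section form -/

section Master

variable {K F : Type} [Field K] [Field F] [Algebra K F] [HasCanonicalDivisor (K := K) (F := F)]
variable [IsAlgClosed K] [CharZero K] (U : USetup K F)

omit [CharZero K] in
include U in
theorem hasResK (P : Place K F) : HasResK P :=
  hasResK_of_isAlgClosed U.u₀
    (by have := U.gen.finite; exact Algebra.IsAlgebraic.of_finite _ _) P

/-- The quantity bounded by `SectionUD`. -/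
noncomputable def secPhi (v : AbsoluteValue K ℝ) {k : ℕ} (B : U.MonoBasis k) (c : Fin B.ℓ → K)
    (Z : Divisor K F) (Q : Place K F) : ℝ :=
  Real.log (v (leadAt Q (U.t Q) (B.sec c))) - Real.log (supNorm v c)
    - (k : ℝ) * Real.log (supNorm v (U.pt Q)) + pairAt v U.x U.t Z (Finsupp.single Q 1)

omit [CharZero K] in
/-- `Φ_v(f; Q)` for `f = s / s'` in terms of the section quantities. -/
theorem phiAt_eq (v : AbsoluteValue K ℝ) {k : ℕ} (B : U.MonoBasis k) {c c' : Fin B.ℓ → K}
    {f : F} (hf : f ≠ 0) {D : Divisor K F} (hD : IsDivOf D f) (hs' : B.sec c' ≠ 0)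
    (hfs : f * B.sec c' = B.sec c) {Z Z' : Divisor K F} (hZ : U.IsZeroDiv k Z (B.sec c))
    (hZ' : U.IsZeroDiv k Z' (B.sec c')) (Q : Place K F) :
    phiAt v U.x U.t f D Q = secPhi U v B c Z Q - secPhi U v B c' Z' Q
      + (Real.log (supNorm v c) - Real.log (supNorm v c')) := by
  have hs : B.sec c ≠ 0 := hfs ▸ mul_ne_zero hf hs'
  have hDZ : D = Z - Z' := by
    ext P
    rw [Finsupp.sub_apply, hZ P, hZ' P, hD P, ← hfs, P.ord_mul hf hs']
    ring
  have hres := hasResK U Q
  have ht := U.t_ord Q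
  have hlead : leadAt Q (U.t Q) (B.sec c)
      = leadAt Q (U.t Q) f * leadAt Q (U.t Q) (B.sec c') := by
    rw [← hfs]; exact leadAt_mul hres ht hf hs'
  have h1 : leadAt Q (U.t Q) f ≠ 0 := leadAt_ne_zero hres ht hf
  have h2 : leadAt Q (U.t Q) (B.sec c') ≠ 0 := leadAt_ne_zero hres ht hs'
  have hlog : Real.log (v (leadAt Q (U.t Q) (B.sec c)))
      = Real.log (v (leadAt Q (U.t Q) f)) + Real.log (v (leadAt Q (U.t Q) (B.sec c'))) := by
    rw [hlead, map_mul, Real.log_mul ((AbsoluteValue.ne_zero_iff v).mpr h1)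
      ((AbsoluteValue.ne_zero_iff v).mpr h2)]
  have hpair : pairAt v U.x U.t D (Finsupp.single Q 1)
      = pairAt v U.x U.t Z (Finsupp.single Q 1) - pairAt v U.x U.t Z' (Finsupp.single Q 1) := by
    rw [hDZ]; exact Fermat.Agent.MW.Global.PairBasic2.pairAt_sub_left v U.x U.t Z Z' _
  unfold phiAt secPhi
  rw [hpair, hlog]
  ring

/-- **Brick UB7b**: the master theorem `MasterUDU` from its section form `SectionUD`. -/
theorem masterUDU_of_sectionUD (hMB : U.MonoBasisExists) (hZ : U.ZeroDivSpec)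
    (hSUD : U.SectionUD) : U.MasterUDU := by
  intro d
  set k : ℕ := d.toNat + 2 * genus K F + 1 with hk
  have hk0 : 0 < k := by omega
  obtain ⟨B⟩ := hMB k
  obtain ⟨C, hCtame, hC⟩ := hSUD k hk0 B
  refine ⟨fun v => C v ^ 4, Fermat.Agent.MW.Local.Tame86.tame_pow hCtame 4, ?_⟩
  intro v hv f D hf hD hposdeg Q Q'
  have hkm : posDeg D + 2 * (genus K F : ℤ) ≤ ((k * U.m : ℕ) : ℤ) := by
    have h1 : (k : ℤ) ≤ ((k * U.m : ℕ) : ℤ) := by
      have := m_pos U
      exact_mod_cast Nat.le_mul_of_pos_right k this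
    have h2 : d ≤ (d.toNat : ℤ) := Int.self_le_toNat d
    have h3 : (k : ℤ) = (d.toNat : ℤ) + 2 * (genus K F : ℤ) + 1 := by rw [hk]; push_cast; ring
    omega
  obtain ⟨s', hs'0, hs'mem, hfs'mem⟩ := exists_denominator U k hf hD hkm
  obtain ⟨c', hc'0, hc'⟩ := exists_coeff_ne_zero B hs'mem hs'0
  obtain ⟨c, hc0, hc⟩ := exists_coeff_ne_zero B hfs'mem (mul_ne_zero hf hs'0)
  have hsec' : B.sec c' ≠ 0 := hc' ▸ hs'0
  have hfs : f * B.sec c' = B.sec c := by rw [hc', hc]
  obtain ⟨Z, hZs, -, -⟩ := hZ k (B.sec c) (hc ▸ hfs'mem) (hc ▸ mul_ne_zero hf hs'0)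
  obtain ⟨Z', hZs', -, -⟩ := hZ k (B.sec c') (hc' ▸ hs'mem) hsec'
  have e1 := phiAt_eq U v B hf hD hsec' hfs hZs hZs' Q
  have e2 := phiAt_eq U v B hf hD hsec' hfs hZs hZs' Q'
  have b1 : |secPhi U v B c Z Q| ≤ Real.log (C v) := hC v hv c hc0 Z hZs Q
  have b2 : |secPhi U v B c' Z' Q| ≤ Real.log (C v) := hC v hv c' hc'0 Z' hZs' Q
  have b3 : |secPhi U v B c Z Q'| ≤ Real.log (C v) := hC v hv c hc0 Z hZs Q'
  have b4 : |secPhi U v B c' Z' Q'| ≤ Real.log (C v) := hC v hv c' hc'0 Z' hZs' Q'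
  rw [Real.log_pow, e1, e2]
  rw [abs_le] at b1 b2 b3 b4 ⊢
  push_cast
  constructor <;> linarith [b1.1, b1.2, b2.1, b2.2, b3.1, b3.2, b4.1, b4.2]

end Master


/-! ### Discharged forms -/

section Discharged

variable {K F : Type} [Field K] [Field F] [Algebra K F] [HasCanonicalDivisor (K := K) (F := F)]
variable [IsAlgClosed K] [CharZero K]

/-- `MasterUDU` from `SectionUD` alone (UB0 via `MonoBasis61` + `PowerSurj86`, UB4z via
`ZeroDiv80`). -/
theorem masterUDU_of_sectionUD' (U : USetup K F) (hSUD : U.SectionUD) : U.MasterUDU :=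
  masterUDU_of_sectionUD U
    (Fermat.Agent.MW.FF.MonoBasis61.monoBasisExists U Fermat.Agent.MW.FF.PowerSurj86.powerSurj)
    (Fermat.Agent.MW.FF.ZeroDiv80.zeroDivSpec U) hSUD

end Discharged

/-- The master theorem `S.MasterUD` of the global standing data from the section form. -/
theorem masterUD_of_sectionUD {F : Type} [Field F] [Algebra Fermat.Agent.MW.Spec.Bricks7b.Qb F]
    [HasCanonicalDivisor (K := Fermat.Agent.MW.Spec.Bricks7b.Qb) (F := F)]
    (S : Fermat.Agent.MW.Spec.Bricks7b.HSetup F) (hSUD : (ofHSetup S).SectionUD) :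
    S.MasterUD :=
  masterUDU_of_sectionUD' (ofHSetup S) hSUD

end Fermat.Agent.MW.FF.MasterOfSection62
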