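/-
Program MW-H (S17), brick UP = `BricksU7.USetup.PencilPackage` (owner helper51).
CONTRACTS of the split of UP (team report #956):

* `pu U π` : the pencil function `u = η(x) / ξ(x)`;
* `PencilGeom U π` (UPa): geometry of the pencil function (generator of degree `m`, its poles are
  the zeros of `ξ`, its fibres are cut out by `η(p) = c ξ(p)`);
* `PencilAlgebra K F` (UB1): norm and adjugate cofactor of `∑ c_j f_j` are polynomial in `c`;
* `IntegralOfOrd K F` : functions without poles outside the poles of `u` are integral over `K[u]`.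
-/
import Mathlib
import Fermat.Agent.MW.Spec.BricksU7
import Fermat.Agent.X0.FFSum

set_option autoImplicit false

open AlgebraicCurve IntermediateField

namespace Fermat.Agent.MW.FF.PencilDefs51

open Fermat.Agent.MW.Spec.Defs7 Fermat.Agent.MW.Spec.BricksU7 Fermat.Agent.X0.FF

noncomputable section

section Geom

variable {K F : Type} [Field K] [Field F] [Algebra K F] [HasCanonicalDivisor (K := K) (F := F)]

/-- The pencil function `u = η(x) / ξ(x)`. -/
def pu (U : USetup K F) (π : U.Pencil) : F := lin π.η U.x / lin π.ξ U.x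

/-- **UPa** (pencil geometry): `ξ(x) ≠ 0`, the pencil function is a generator of degree `m`, it is
regular exactly at the places where `ξ(p) ≠ 0`, and its fibre over `c` consists of the places with
`ξ(p) ≠ 0` and `η(p) = c ξ(p)`. -/
def PencilGeom (U : USetup K F) (π : U.Pencil) : Prop :=
  lin π.ξ U.x ≠ 0 ∧ IsGen K (pu U π) ∧ Module.finrank K⟮pu U π⟯ F = U.m ∧
  (∀ P : Place K F, 0 ≤ P.ord (pu U π) ↔ dot π.ξ (U.pt P) ≠ 0) ∧
  (∀ (P : Place K F) (c : K), 0 < P.ord (pu U π - algebraMap K F c) ↔
      dot π.ξ (U.pt P) ≠ 0 ∧ dot π.η (U.pt P) = c * dot π.ξ (U.pt P))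

end Geom

section Alg

variable (K F : Type) [Field K] [Field F] [Algebra K F]

/-- **UB1** (pencil algebra): for a generator `u` and functions `f_1, …, f_ℓ` integral over `K[u]`,
the norm of `∑ c_j f_j` to `K(u)` is `∑_i Nc_i(c) u^i` with `Nc_i` homogeneous of degree
`[F : K(u)]` in `c`, and there are finitely many `w_i ∈ F` and `A_i` homogeneous of degree
`[F : K(u)] - 1` with `(∑ c_j f_j) · (∑_i A_i(c) w_i) = norm`. -/
def PencilAlgebra : Prop :=
  ∀ (u : F) (hu : IsGen K u) (ℓ : ℕ) (f : Fin ℓ → F), (∀ j, IsIntegral (polyRing K u) (f j)) →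
    haveI := hu.finite
    ∃ (D : ℕ) (Nc : Fin (D + 1) → MvPolynomial (Fin ℓ) K) (r : ℕ) (w : Fin r → F)
      (A : Fin r → MvPolynomial (Fin ℓ) K),
      (∀ i, (Nc i).IsHomogeneous (Module.finrank K⟮u⟯ F)) ∧
      (∀ i, (A i).IsHomogeneous (Module.finrank K⟮u⟯ F - 1)) ∧
      ∀ c : Fin ℓ → K,
        algebraMap K⟮u⟯ F (Algebra.norm K⟮u⟯ (∑ j, algebraMap K F (c j) * f j)) =
          ∑ i : Fin (D + 1), algebraMap K F (MvPolynomial.eval c (Nc i)) * u ^ (i : ℕ) ∧
        (∑ j, algebraMap K F (c j) * f j) *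
            (∑ i, algebraMap K F (MvPolynomial.eval c (A i)) * w i) =
          algebraMap K⟮u⟯ F (Algebra.norm K⟮u⟯ (∑ j, algebraMap K F (c j) * f j))

/-- Functions without poles outside the poles of `u` are integral over `K[u]` (toolkit of N1). -/
def IntegralOfOrd : Prop :=
  ∀ (u f : F), IsGen K u → (∀ P : Place K F, 0 ≤ P.ord u → 0 ≤ P.ord f) →
    IsIntegral (polyRing K u) f

end Alg

end

end Fermat.Agent.MW.FF.PencilDefs51
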