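/-
Program MW-H (S17), brick UPa (helper80): PENCIL GEOMETRY, `PencilDefs51.PencilGeom U π`.

For a base-point-free pencil `π = (ξ, η)` of linear forms on the embedded curve, the pencil
function `u = η(x) / ξ(x)` is a generator of `F / K` of degree `m = U.m`, regular exactly at the
places `P` with `ξ(p_P) ≠ 0`, and its fibre over `c` consists of the places with `ξ(p_P) ≠ 0` and
`η(p_P) = c ξ(p_P)`.

Route: for a nonzero linear section `ℓ(x)` the excess `ord_P ℓ(x) - minOrd P` is the zero divisor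
`Z_ℓ` of the section (`ZeroDiv80.zeroDivSpec`), effective of degree `m`, with `Z_ℓ(P) = 0` iff
`ℓ(p_P) ≠ 0` (`LeadLinear49.leadLinear`).  Hence `ξ(x)` has a zero, where `u` has a pole (base
point freeness), so `u ∉ K`; poles of `u` = zeros of `ξ(x)`; the fibre over `c` is cut out by the
linear form `η - c ξ`; the degree is `∑_{poles} -ord u = ∑ Z_ξ = m` (`FFSum.sum_ord_poles`).
-/
import Mathlib
import Fermat.Agent.MW.FF.PencilDefs51
import Fermat.Agent.MW.FF.LeadLinear49
import Fermat.Agent.MW.FF.ZeroDiv80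
import Fermat.Agent.X0.FFDict

set_option autoImplicit false
set_option linter.unusedSectionVars false

open AlgebraicCurve IntermediateField

namespace Fermat.Agent.MW.FF.PencilGeom80

open Fermat.Agent.MW.Spec.Defs7 Fermat.Agent.MW.Spec.BricksU7 Fermat.Agent.X0.FF
open Fermat.Agent.MW.FF.PencilDefs51

/-! ### Linear forms -/

section Lin

variable {K F : Type*} [Field K] [Field F] [Algebra K F] {n : ℕ}

theorem lin_sub_mul (η ξ : Fin (n + 1) → K) (c : K) (x : Fin (n + 1) → F) :
    lin (fun b => η b - c * ξ b) x = lin η x - algebraMap K F c * lin ξ x := by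
  unfold lin
  rw [Finset.mul_sum, ← Finset.sum_sub_distrib]
  refine Finset.sum_congr rfl fun b _ => ?_
  rw [map_sub, map_mul]
  ring

theorem dot_sub_mul (η ξ p : Fin (n + 1) → K) (c : K) :
    dot (fun b => η b - c * ξ b) p = dot η p - c * dot ξ p := by
  unfold dot
  rw [Finset.mul_sum, ← Finset.sum_sub_distrib]
  refine Finset.sum_congr rfl fun b _ => ?_
  ring

end Lin

variable {K F : Type} [Field K] [Field F] [Algebra K F] [HasCanonicalDivisor (K := K) (F := F)]

/-- A nonzero linear form gives a nonzero linear section. -/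
theorem lin_ne_zero (U : USetup K F) {ℓ : Fin (U.n + 1) → K} (hℓ : ℓ ≠ 0) : lin ℓ U.x ≠ 0 := by
  intro h0
  apply hℓ
  have hli := Fintype.linearIndependent_iff.mp U.x_indep ℓ
  funext b
  refine hli ?_ b
  rw [← h0]
  unfold lin
  exact Finset.sum_congr rfl fun b _ => Algebra.smul_def _ _

/-- Linear sections are sections of degree one. -/
theorem lin_mem_R (U : USetup K F) (ℓ : Fin (U.n + 1) → K) : lin ℓ U.x ∈ U.R 1 := by
  have h1 : U.R 1 = Submodule.span K (Set.range U.x) := by
    rw [U.x_span]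
    unfold USetup.R USetup.m
    rw [Nat.one_mul]
  rw [h1]
  unfold lin
  refine Submodule.sum_mem _ fun b _ => ?_
  rw [← Algebra.smul_def]
  exact Submodule.smul_mem _ _ (Submodule.subset_span ⟨b, rfl⟩)

variable [IsAlgClosed K] [CharZero K]

section Ord

variable (U : USetup K F)

theorem ord_lin_eq {ℓ : Fin (U.n + 1) → K} (Q : Place K F) (h : dot ℓ (U.pt Q) ≠ 0) :
    Q.ord (lin ℓ U.x) = minOrd Q U.x :=
  ((LeadLinear49.leadLinear U Q ℓ).1 h).1

theorem ord_lin_gt {ℓ : Fin (U.n + 1) → K} (hℓ : lin ℓ U.x ≠ 0) (Q : Place K F)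
    (h0 : dot ℓ (U.pt Q) = 0) : minOrd Q U.x < Q.ord (lin ℓ U.x) := by
  obtain ⟨-, h2, h3⟩ := LeadLinear49.leadLinear U Q ℓ
  by_cases ht : dot ℓ (U.tg Q) = 0
  · rcases h3 h0 ht with h | h
    · exact absurd h hℓ
    · omega
  · have := (h2 h0 ht).1
    omega

theorem ord_lin_ge {ℓ : Fin (U.n + 1) → K} (hℓ : lin ℓ U.x ≠ 0) (Q : Place K F) :
    minOrd Q U.x ≤ Q.ord (lin ℓ U.x) := by
  by_cases h0 : dot ℓ (U.pt Q) = 0
  · exact (ord_lin_gt U hℓ Q h0).le
  · exact (ord_lin_eq U Q h0).ge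

/-- The zero divisor of a nonzero linear section: the excess `ord - minOrd`, effective, of
degree `m`. -/
theorem exists_zeroDiv_lin {ℓ : Fin (U.n + 1) → K} (hℓ : lin ℓ U.x ≠ 0) :
    ∃ Z : Divisor K F, (∀ P, Z P = P.ord (lin ℓ U.x) - minOrd P U.x) ∧
      (Z.sum fun _ e => e) = (U.m : ℤ) := by
  classical
  obtain ⟨Z, hZ, -, hsum⟩ := ZeroDiv80.zeroDivSpec U 1 (lin ℓ U.x) (lin_mem_R U ℓ) hℓ
  obtain ⟨hmo1, hmo2⟩ := LeadLinear49.minOrdSpec U
  refine ⟨Z, fun P => ?_, ?_⟩
  · rw [hZ P, Finsupp.single_apply]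
    by_cases hP : P = U.inf
    · subst hP
      rw [if_pos rfl, hmo2, Nat.one_mul]
      ring
    · rw [if_neg (Ne.symm hP), hmo1 P hP]
      ring
  · rw [hsum, Nat.one_mul]

theorem m_pos : 0 < U.m := by
  have := U.m₀_large
  unfold USetup.m
  omega

/-- A nonzero linear form vanishes at some point of the curve. -/
theorem exists_dot_eq_zero {ℓ : Fin (U.n + 1) → K} (hℓ : lin ℓ U.x ≠ 0) :
    ∃ P : Place K F, dot ℓ (U.pt P) = 0 := by
  obtain ⟨Z, hZ, hsum⟩ := exists_zeroDiv_lin U hℓ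
  by_contra hcon
  push Not at hcon
  have hZ0 : Z = 0 := by
    ext P
    rw [hZ P, ord_lin_eq U P (hcon P), sub_self, Finsupp.zero_apply]
  rw [hZ0, Finsupp.sum_zero_index] at hsum
  have := m_pos U
  omega

end Ord

/-! ### The pencil function -/

section Pencil

variable (U : USetup K F) (π : U.Pencil)

theorem lin_ξ_ne_zero : lin π.ξ U.x ≠ 0 := lin_ne_zero U π.ξ_ne

/-- At a zero of `ξ` the form `η` does not vanish. -/
theorem dot_η_ne_zero {P : Place K F} (h : dot π.ξ (U.pt P) = 0) : dot π.η (U.pt P) ≠ 0 := by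
  rcases π.bpf P with h1 | h1
  · exact absurd h h1
  · exact h1

theorem η_ne_zero : π.η ≠ 0 := by
  obtain ⟨P, hP⟩ := exists_dot_eq_zero U (lin_ξ_ne_zero U π)
  intro h0
  apply dot_η_ne_zero U π hP
  rw [h0]
  unfold dot
  simp

theorem lin_η_ne_zero : lin π.η U.x ≠ 0 := lin_ne_zero U (η_ne_zero U π)

theorem ord_pu (P : Place K F) :
    P.ord (pu U π) = P.ord (lin π.η U.x) - P.ord (lin π.ξ U.x) := by
  unfold pu
  rw [div_eq_mul_inv, P.ord_mul (lin_η_ne_zero U π) (inv_ne_zero (lin_ξ_ne_zero U π)), P.ord_inv]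
  ring

/-- The pencil function is regular exactly where `ξ` does not vanish. -/
theorem ord_pu_nonneg_iff (P : Place K F) : 0 ≤ P.ord (pu U π) ↔ dot π.ξ (U.pt P) ≠ 0 := by
  rw [ord_pu]
  constructor
  · intro h h0
    have h1 := ord_lin_gt U (lin_ξ_ne_zero U π) P h0
    have h2 := ord_lin_eq U P (dot_η_ne_zero U π h0)
    omega
  · intro h
    have h1 := ord_lin_eq U P h
    have h2 := ord_lin_ge U (lin_η_ne_zero U π) P
    omega

/-- The pencil function is not constant. -/
theorem transcendental_pu : Transcendental K (pu U π) := by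
  intro halg
  obtain ⟨c, hc⟩ := eq_algebraMap_of_isAlgebraic halg
  obtain ⟨P, hP⟩ := exists_dot_eq_zero U (lin_ξ_ne_zero U π)
  have h1 : ¬ 0 ≤ P.ord (pu U π) := fun h => (ord_pu_nonneg_iff U π P).mp h hP
  apply h1
  rw [hc, ord_algebraMap]

theorem isGen_pu : IsGen K (pu U π) := U.gen.of_transcendental (transcendental_pu U π)

theorem pu_sub (c : K) :
    pu U π - algebraMap K F c = lin (fun b => π.η b - c * π.ξ b) U.x / lin π.ξ U.x := by
  rw [lin_sub_mul]
  unfold pu
  field_simp [lin_ξ_ne_zero U π]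

theorem lin_sub_ne_zero (c : K) : lin (fun b => π.η b - c * π.ξ b) U.x ≠ 0 := by
  intro h0
  have := (isGen_pu U π).sub_algebraMap_ne_zero c
  rw [pu_sub, h0, zero_div] at this
  exact this rfl

/-- The fibres of the pencil function. -/
theorem ord_pu_sub_pos_iff (P : Place K F) (c : K) :
    0 < P.ord (pu U π - algebraMap K F c) ↔
      dot π.ξ (U.pt P) ≠ 0 ∧ dot π.η (U.pt P) = c * dot π.ξ (U.pt P) := by
  have hne := lin_sub_ne_zero U π c
  have hord : P.ord (pu U π - algebraMap K F c)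
      = P.ord (lin (fun b => π.η b - c * π.ξ b) U.x) - P.ord (lin π.ξ U.x) := by
    rw [pu_sub, div_eq_mul_inv, P.ord_mul hne (inv_ne_zero (lin_ξ_ne_zero U π)), P.ord_inv]
    ring
  have hdot := dot_sub_mul π.η π.ξ (U.pt P) c
  rw [hord]
  constructor
  · intro h
    have hge := ord_lin_ge U (lin_ξ_ne_zero U π) P
    have h0 : dot (fun b => π.η b - c * π.ξ b) (U.pt P) = 0 := by
      by_contra hcon
      have := ord_lin_eq U P hcon
      omega
    rw [hdot, sub_eq_zero] at h0
    refine ⟨fun hξ => ?_, h0⟩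
    apply dot_η_ne_zero U π hξ
    rw [h0, hξ, mul_zero]
  · rintro ⟨hξ, hη⟩
    have h1 := ord_lin_eq U P hξ
    have h0 : dot (fun b => π.η b - c * π.ξ b) (U.pt P) = 0 := by
      rw [hdot, hη, sub_self]
    have h2 := ord_lin_gt U hne P h0
    omega

/-- The degree of the pencil function is `m`. -/
theorem finrank_pu : Module.finrank K⟮pu U π⟯ F = U.m := by
  classical
  obtain ⟨Z, hZ, hsum⟩ := exists_zeroDiv_lin U (lin_ξ_ne_zero U π)
  have h1 := sum_ord_poles (isGen_pu U π)
  have h2 : (fun v : Place K F => ∑ᶠ (_ : v.ord (pu U π) < 0), -v.ord (pu U π))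
      = fun v => Z v := by
    funext P
    by_cases hP : P.ord (pu U π) < 0
    · rw [finsum_eq_if, if_pos hP, hZ P, ord_pu]
      have h0 : dot π.ξ (U.pt P) = 0 := by
        by_contra hcon
        have := (ord_pu_nonneg_iff U π P).mpr hcon
        omega
      rw [ord_lin_eq U P (dot_η_ne_zero U π h0)]
      ring
    · rw [finsum_eq_if, if_neg hP, hZ P]
      have hξ := (ord_pu_nonneg_iff U π P).mp (not_lt.mp hP)
      rw [ord_lin_eq U P hξ, sub_self]
  have h3 : ∑ᶠ v : Place K F, Z v = Z.sum fun _ e => e := by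
    rw [Finsupp.sum]
    exact finsum_eq_sum_of_support_subset _ (fun v hv => by simpa using hv)
  have h4 : (Module.finrank K⟮pu U π⟯ F : ℤ) = (U.m : ℤ) := by
    rw [← h1, ← hsum, ← h3]
    exact congrArg finsum h2
  exact_mod_cast h4

/-- **Brick UPa**: the geometry of the pencil function. -/
theorem pencilGeom : PencilGeom U π :=
  ⟨lin_ξ_ne_zero U π, isGen_pu U π, finrank_pu U π, ord_pu_nonneg_iff U π, ord_pu_sub_pos_iff U π⟩

end Pencil

end Fermat.Agent.MW.FF.PencilGeom80
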