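/-
Program MW-H (S17), brick N1 (helper48): NORMS AND FIBRES.

`K` algebraically closed of characteristic zero, `F / K` a function field, `u : F` a transcendental
generator (`IsGen K u`), `A = K[u]` (`X0/FFSum.polyRing`), `B` = the integral closure of `A` in `F`
(`X0/FFSum.intRing`).

* `count_relNorm` (Dedekind domains, Mathlib only): the exponent of a prime `p` in the relative
  norm of an ideal `I` is the number of prime factors of `I` above `p`, when these have residue
  degree one;
* `isIntegral_of_ord_nonneg` : a function without poles outside the poles of `u` is integral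
  over `K[u]`;
* `exists_poly_norm` : the norm to `K(u)` of such a function is a polynomial in `u`;
* `rootMultiplicity_norm` : the multiplicity of `c` as a root of that polynomial is the sum of the
  orders of `f` along the fibre `u = c`;
* `normFibre` : the contract `Spec.Bricks7.NormFibre K F`.
-/
import Mathlib
import Fermat.Agent.X0.FFSum
import Fermat.Agent.X0.FFDedekind
import Fermat.Agent.MW.Spec.Bricks7

set_option autoImplicit false
set_option linter.unusedSectionVars false
set_option linter.overlappingInstances false

open AlgebraicCurve IntermediateField Polynomial IsDedekindDomain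
open Fermat.Agent.X0.FF
open scoped IntermediateField.algebraAdjoinAdjoin

namespace Fermat.Agent.MW.FF.NormFibre48

/-! ### Relative norms of ideals and prime factors (Mathlib only) -/

section General

open Module UniqueFactorizationMonoid

variable {A B : Type*} [CommRing A] [IsDomain A] [CommRing B] [IsDomain B]
  [IsDedekindDomain A] [IsDedekindDomain B] [Algebra A B] [Module.Finite A B]
  [IsTorsionFree A B] [PerfectField (FractionRing A)]

open Classical in
/-- The exponent of `p` in the relative norm of a nonzero ideal `I` is the number of prime factors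
of `I` lying above `p` (with multiplicity), provided the primes above `p` have residue degree
one. -/
theorem count_relNorm (p : Ideal A)
    (hdeg : ∀ w : Ideal B, w.IsMaximal → w.LiesOver p → w.inertiaDeg A = 1)
    (I : Ideal B) (hI : I ≠ ⊥) :
    (normalizedFactors (Ideal.relNorm A I)).count p =
      (normalizedFactors I).countP (fun w => w.under A = p) := by
  revert hI
  refine induction_on_prime I ?_ ?_ ?_
  · intro h; exact absurd rfl h
  · intro x hx _
    rw [Ideal.isUnit_iff] at hx
    subst hx
    rw [Ideal.relNorm_top, ← Ideal.one_eq_top, ← Ideal.one_eq_top, normalizedFactors_one,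
      normalizedFactors_one]
    simp
  · intro J w hJ hw ih _
    have hJ' : J ≠ ⊥ := hJ
    have hw0 : w ≠ ⊥ := hw.ne_zero
    have hwprime : w.IsPrime := Ideal.isPrime_of_prime hw
    have hwmax : w.IsMaximal := hwprime.isMaximal hw0
    set q : Ideal A := w.under A with hq
    have hq0 : q ≠ ⊥ := Ideal.under_ne_bot A hw0
    have hqprime : q.IsPrime := Ideal.IsPrime.under A w
    have hqmax : q.IsMaximal := hqprime.isMaximal hq0
    have hlies : w.LiesOver q := Ideal.over_under w
    have hrel : Ideal.relNorm A w = q ^ w.inertiaDeg A := Ideal.relNorm_eq_pow_of_isMaximal w q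
    have hqirr : Irreducible q := (Ideal.prime_of_isPrime hq0 hqprime).irreducible
    have h1 : Ideal.relNorm A w ≠ 0 := by
      rw [Ideal.zero_eq_bot, Ne, Ideal.relNorm_eq_bot_iff]; exact hw0
    have h2 : Ideal.relNorm A J ≠ 0 := by
      rw [Ideal.zero_eq_bot, Ne, Ideal.relNorm_eq_bot_iff]; exact hJ'
    rw [map_mul, normalizedFactors_mul h1 h2, normalizedFactors_mul hw.ne_zero hJ,
      Multiset.count_add, Multiset.countP_add, ih hJ', normalizedFactors_irreducible hw.irreducible,
      normalize_eq, ← Multiset.cons_zero, Multiset.countP_cons, Multiset.countP_zero, hrel,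
      normalizedFactors_pow, normalizedFactors_irreducible hqirr, normalize_eq,
      Multiset.count_nsmul, Multiset.count_singleton]
    congr 1
    by_cases hqp : q = p
    · have hl : w.LiesOver p := hqp ▸ hlies
      have hqp' : Ideal.under A w = p := hqp
      rw [hdeg w hwmax hl]
      simp [hqp, hqp']
    · have : ¬ p = q := fun h => hqp h.symm
      have hqp' : ¬ Ideal.under A w = p := hqp
      simp [hqp', this]

end General

/-! ### Function fields -/

variable {K F : Type*} [Field K] [Field F] [Algebra K F] [IsAlgClosed K] [CharZero K] {u : F}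

/-- A function without poles outside the poles of `u` is integral over `K[u]`. -/
theorem isIntegral_of_ord_nonneg (hu : IsGen K u) {f : F}
    (h : ∀ P : Place K F, 0 ≤ P.ord u → 0 ≤ P.ord f) : IsIntegral (polyRing K u) f := by
  have hDedB := isDedekindDomain_intRing hu
  have hFracB := isFractionRing_intRing hu
  have hmem : f ∈ (algebraMap (intRing K u) F).range := by
    apply HeightOneSpectrum.mem_integers_of_valuation_le_one F f
    intro w
    set P : Place K F := Place.ofHeightOneSpectrum (K := K) (F := F) w with hP
    have hu0 : 0 ≤ P.ord u :=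
      Fermat.Agent.X0.FFDedekind.ord_ofHeightOneSpectrum_algebraMap_nonneg (K := K) (F := F) w
        (⟨u, isIntegral_algebraMap (R := polyRing K u) (x := genA K u)⟩ : intRing K u)
    exact mem_of_ord_nonneg P (h P hu0)
  obtain ⟨b, rfl⟩ := hmem
  exact b.2

/-- The norm to `K(u)` of a function integral over `K[u]` lies in `K[u]`; more precisely it is the
image of `Algebra.intNorm`. -/
theorem norm_eq_intNorm (hu : IsGen K u) {f : F} (hf : IsIntegral (polyRing K u) f) :
    haveI := hu.finite
    haveI := isPrincipalIdealRing_polyRing hu.transcendental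
    haveI := isDedekindDomain_intRing hu
    algebraMap K⟮u⟯ F (Algebra.norm K⟮u⟯ f) =
      ((Algebra.intNorm (polyRing K u) (intRing K u) (⟨f, hf⟩ : intRing K u) : polyRing K u) : F) := by
  have := hu.finite
  have := isPrincipalIdealRing_polyRing hu.transcendental
  have := isDedekindDomain_intRing hu
  have h := Algebra.algebraMap_intNorm (A := polyRing K u) (K := K⟮u⟯) (L := F)
    (B := intRing K u) (⟨f, hf⟩ : intRing K u)
  have h2 : algebraMap (intRing K u) F (⟨f, hf⟩ : intRing K u) = f := rfl
  rw [h2] at h
  rw [← h]
  rfl

/-- The norm to `K(u)` of a function integral over `K[u]` is a polynomial in `u`. -/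
theorem exists_poly_norm (hu : IsGen K u) {f : F} (hf : IsIntegral (polyRing K u) f) :
    ∃ N : K[X], algebraMap K⟮u⟯ F (Algebra.norm K⟮u⟯ f) = aeval u N := by
  rw [norm_eq_intNorm hu hf]
  have := hu.finite
  have := isPrincipalIdealRing_polyRing hu.transcendental
  have := isDedekindDomain_intRing hu
  have hmem : ((Algebra.intNorm (polyRing K u) (intRing K u) (⟨f, hf⟩ : intRing K u) :
      polyRing K u) : F) ∈ Algebra.adjoin K ({u} : Set F) :=
    (Algebra.intNorm (polyRing K u) (intRing K u) (⟨f, hf⟩ : intRing K u)).2
  rw [Algebra.adjoin_singleton_eq_range_aeval] at hmem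
  obtain ⟨N, hN⟩ := hmem
  exact ⟨N, hN.symm⟩

/-- Sums of multiplicities over a finite set of height-one primes cut out by a predicate. -/
theorem sum_count_eq_countP {B : Type*} [CommRing B] [IsDedekindDomain B]
    [DecidableEq (Ideal B)] (T : Finset (HeightOneSpectrum B)) (pr : Ideal B → Prop)
    [DecidablePred pr] (hT : ∀ w : HeightOneSpectrum B, w ∈ T ↔ pr w.asIdeal)
    (s : Multiset (Ideal B)) (hs : ∀ a ∈ s, a.IsPrime ∧ a ≠ ⊥) :
    ∑ w ∈ T, s.count w.asIdeal = s.countP pr := by
  classical
  induction s using Multiset.induction_on with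
  | empty => simp
  | cons a s ih =>
    have hs' : ∀ a' ∈ s, a'.IsPrime ∧ a' ≠ ⊥ := fun a' ha' => hs a' (Multiset.mem_cons_of_mem ha')
    obtain ⟨ha1, ha2⟩ := hs a (Multiset.mem_cons_self a s)
    let wa : HeightOneSpectrum B := ⟨a, ha1, ha2⟩
    have hite : ∀ w : HeightOneSpectrum B, (if w.asIdeal = a then 1 else 0 : ℕ) =
        if w = wa then 1 else 0 := by
      intro w
      have : w.asIdeal = a ↔ w = wa := by
        constructor
        · intro h; exact HeightOneSpectrum.ext h
        · intro h; rw [h]
      simp only [this]
    simp only [Multiset.count_cons, Finset.sum_add_distrib, ih hs', Multiset.countP_cons, hite,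
      Finset.sum_ite_eq', hT wa]
    rfl

set_option maxHeartbeats 1600000 in
/-- **N1, multiplicity formula.**  If `f ≠ 0` is integral over `K[u]` and its norm to `K(u)` is
`N(u)`, then the multiplicity of `c` as a root of `N` is the sum of the orders of `f` at the places
of the fibre `u = c`. -/
theorem rootMultiplicity_norm (hu : IsGen K u) {f : F} (hf0 : f ≠ 0)
    (hf : IsIntegral (polyRing K u) f) (N : K[X])
    (hN : algebraMap K⟮u⟯ F (Algebra.norm K⟮u⟯ f) = aeval u N) (c : K) :
    (N.rootMultiplicity c : ℤ) =
      ∑ᶠ (P : Place K F) (_ : 0 < P.ord (u - algebraMap K F c)), P.ord f := by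
  classical
  have hfin := hu.finite
  have hPID := isPrincipalIdealRing_polyRing hu.transcendental
  have hDedB := isDedekindDomain_intRing hu
  have hFracB := isFractionRing_intRing hu
  have hFinB := finite_intRing hu
  have hTF : Module.IsTorsionFree (polyRing K u) (intRing K u) := by
    rw [Module.isTorsionFree_iff_algebraMap_injective]
    intro a a' h
    exact Subtype.ext (congrArg (fun z : intRing K u => (z : F)) h)
  have hchar : CharZero (FractionRing (polyRing K u)) :=
    charZero_of_injective_algebraMap (algebraMap K (FractionRing (polyRing K u))).injective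
  have hPerf : PerfectField (FractionRing (polyRing K u)) := inferInstance
  set b : intRing K u := ⟨f, hf⟩ with hb
  have hb0 : b ≠ 0 := fun h => hf0 (congrArg (fun z : intRing K u => (z : F)) h)
  set n : polyRing K u := Algebra.intNorm (polyRing K u) (intRing K u) b with hn
  have hnF : (n : F) = aeval u N := by rw [← hN, norm_eq_intNorm hu hf]
  let e := Polynomial.algEquivOfTranscendental K u hu.transcendental
  have heF : ∀ P : K[X], ((e P : polyRing K u) : F) = aeval u P := fun P => by simp [e]
  have hen : e N = n := Subtype.ext (by rw [heF, hnF])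
  have hn0 : n ≠ 0 := by rw [hn]; exact Algebra.intNorm_ne_zero.mpr hb0
  have hN0 : N ≠ 0 := by
    rintro rfl
    apply hn0
    rw [← hen, map_zero]
  -- the prime `p = (u - c)`
  set π : polyRing K u := e (X - C c) with hπ
  have hπF : (π : F) = u - algebraMap K F c := by rw [hπ, heF]; simp
  have hπ0 : π ≠ 0 := by
    intro h
    have h1 : (π : F) = 0 := by rw [h]; rfl
    rw [hπF] at h1
    exact hu.sub_algebraMap_ne_zero c h1
  set p : Ideal (polyRing K u) := Ideal.span {π} with hp
  have hpmax : p.IsMaximal := by
    have h1 : (Ideal.span {(X - C c : K[X])}).IsMaximal :=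
      PrincipalIdealRing.isMaximal_of_irreducible (Polynomial.irreducible_X_sub_C c)
    have h2 : p = Ideal.map e.toRingEquiv (Ideal.span {(X - C c : K[X])}) := by
      rw [Ideal.map_span, Set.image_singleton]; rfl
    rw [h2]
    exact Ideal.map_isMaximal_of_equiv e.toRingEquiv
  -- (i) the exponent of `p` in `(n)` is the root multiplicity
  have hcount1 : (UniqueFactorizationMonoid.normalizedFactors (Ideal.span {n})).count p
      = N.rootMultiplicity c := by
    have : p.IsPrime := hpmax.isPrime
    apply Ideal.count_normalizedFactors_eq
    · rw [hp, Ideal.span_singleton_pow, Ideal.span_singleton_le_span_singleton, ← hen, hπ,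
        ← map_pow]
      exact map_dvd e (pow_rootMultiplicity_dvd N c)
    · rw [hp, Ideal.span_singleton_pow, Ideal.span_singleton_le_span_singleton, ← hen, hπ,
        ← map_pow]
      intro hdvd
      have h3 : (X - C c) ^ (N.rootMultiplicity c + 1) ∣ N := by
        have := map_dvd e.symm hdvd
        simpa using this
      have := (le_rootMultiplicity_iff hN0).mpr h3
      omega
  -- (ii) the relative norm of `(b)`
  have hrel : Ideal.relNorm (polyRing K u) (Ideal.span {b}) = Ideal.span {n} :=
    Ideal.relNorm_singleton (polyRing K u) b
  have hI0 : (Ideal.span {b} : Ideal (intRing K u)) ≠ ⊥ := by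
    rw [Ne, Ideal.span_singleton_eq_bot]; exact hb0
  -- places attached to primes
  let Φ : HeightOneSpectrum (intRing K u) → Place K F :=
    fun w => Place.ofHeightOneSpectrum (K := K) (F := F) w
  have hΦinj : Function.Injective Φ := dict_ofHeightOneSpectrum_injective (K := K) (F := F)
  have hdeg : ∀ w : Ideal (intRing K u), w.IsMaximal → w.LiesOver p →
      w.inertiaDeg (polyRing K u) = 1 := by
    intro w hwmax hlies
    have hw0 : w ≠ ⊥ := by
      intro h
      have h1 : p = Ideal.under (polyRing K u) w := hlies.over
      rw [h] at h1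
      have h2 : π ∈ Ideal.under (polyRing K u) (⊥ : Ideal (intRing K u)) := by
        rw [← h1]; exact Ideal.subset_span (Set.mem_singleton _)
      rw [Ideal.under_def, Ideal.mem_comap, Ideal.mem_bot] at h2
      exact hπ0 (Subtype.ext (congrArg (fun z : intRing K u => (z : F)) h2))
    let W : HeightOneSpectrum (intRing K u) := ⟨w, hwmax.isPrime, hw0⟩
    refine inertiaDeg_eq_one_of_forall p w ?_
    intro b'
    have hbmem : algebraMap (intRing K u) F b' ∈ (Φ W).toValuationSubring :=
      W.valuation_le_one b'
    obtain ⟨c', hc'⟩ := exists_ord_sub_pos hu (Φ W) hbmem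
    refine ⟨algebraMap K (polyRing K u) c', ?_⟩
    show algebraMap (polyRing K u) (intRing K u) (algebraMap K (polyRing K u) c') - b' ∈ W.asIdeal
    rw [mem_asIdeal_iff_ord_pos (K := K) (F := F)]
    have hF : algebraMap (intRing K u) F
        (algebraMap (polyRing K u) (intRing K u) (algebraMap K (polyRing K u) c') - b') =
        algebraMap K F c' - algebraMap (intRing K u) F b' := by
      rw [map_sub]; rfl
    rcases hc' with hc' | hc'
    · left
      apply IsFractionRing.injective (intRing K u) F
      rw [hF, hc', sub_self, map_zero]
    · right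
      rw [hF, ← ord_neg, neg_sub]
      exact hc'
  have hcount2 := count_relNorm p hdeg (Ideal.span {b}) hI0
  rw [hrel, hcount1] at hcount2
  -- (iii) the primes above `p` and the fibre `u = c`
  set πB : intRing K u := algebraMap (polyRing K u) (intRing K u) π with hπB
  have hπBF : algebraMap (intRing K u) F πB = u - algebraMap K F c := hπF
  have hπB0 : πB ≠ 0 := by
    intro h
    have h1 : algebraMap (intRing K u) F πB = 0 := by rw [h, map_zero]
    rw [hπBF] at h1
    exact hu.sub_algebraMap_ne_zero c h1
  have hover : ∀ w : HeightOneSpectrum (intRing K u),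
      w.asIdeal.under (polyRing K u) = p ↔ πB ∈ w.asIdeal := by
    intro w
    constructor
    · intro h
      have : π ∈ w.asIdeal.under (polyRing K u) := by
        rw [h]; exact Ideal.subset_span (Set.mem_singleton _)
      exact this
    · intro h
      have hle : p ≤ w.asIdeal.under (polyRing K u) := by
        rw [hp, Ideal.span_le, Set.singleton_subset_iff]
        exact h
      exact (hpmax.eq_of_le (Ideal.IsPrime.under (polyRing K u) w.asIdeal).ne_top hle).symm
  have hTfin : {w : HeightOneSpectrum (intRing K u) |
      w.asIdeal.under (polyRing K u) = p}.Finite := by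
    have hI : (Ideal.span {πB} : Ideal (intRing K u)) ≠ 0 := by
      rw [Ne, Ideal.zero_eq_bot, Ideal.span_singleton_eq_bot]; exact hπB0
    refine (Ideal.finite_factors hI).subset ?_
    intro w hw
    rw [Set.mem_ofPred_eq, hover] at hw
    rw [Set.mem_ofPred_eq, Ideal.dvd_iff_le, Ideal.span_le, Set.singleton_subset_iff]
    exact hw
  set T : Finset (HeightOneSpectrum (intRing K u)) := hTfin.toFinset with hT
  have hTmem : ∀ w : HeightOneSpectrum (intRing K u),
      w ∈ T ↔ w.asIdeal.under (polyRing K u) = p := by
    intro w
    rw [hT, Set.Finite.mem_toFinset, Set.mem_ofPred_eq]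
  have hprimes : ∀ a ∈ UniqueFactorizationMonoid.normalizedFactors
      (Ideal.span {b} : Ideal (intRing K u)), a.IsPrime ∧ a ≠ ⊥ := by
    intro a ha
    have hpr := UniqueFactorizationMonoid.prime_of_normalized_factor a ha
    exact ⟨Ideal.isPrime_of_prime hpr, hpr.ne_zero⟩
  have hsum := sum_count_eq_countP T (fun w : Ideal (intRing K u) =>
    w.under (polyRing K u) = p) hTmem _ hprimes
  -- the image of `T` is the fibre
  have himage : Φ '' (T : Set (HeightOneSpectrum (intRing K u))) =
      {P : Place K F | 0 < P.ord (u - algebraMap K F c)} := by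
    ext P
    constructor
    · rintro ⟨w, hw, rfl⟩
      rw [Finset.mem_coe, hTmem, hover] at hw
      have h1 : πB = 0 ∨ 0 < (Place.ofHeightOneSpectrum (K := K) (F := F) w).ord
          (algebraMap (intRing K u) F πB) := by
        rw [← mem_asIdeal_iff_ord_pos (K := K) (F := F)]
        exact hw
      rcases h1 with h1 | h1
      · exact absurd h1 hπB0
      · rw [hπBF] at h1
        exact h1
    · intro hP
      have hP' : 0 < P.ord (u - algebraMap K F c) := hP
      have hu_mem : u ∈ P.toValuationSubring := by
        have h1 : u - algebraMap K F c ∈ P.toValuationSubring := mem_of_ord_nonneg P hP'.le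
        have h2 : algebraMap K F c ∈ P.toValuationSubring := P.algebraMap_mem' c
        have : u = (u - algebraMap K F c) + algebraMap K F c := by ring
        rw [this]
        exact P.toValuationSubring.add_mem _ _ h1 h2
      obtain ⟨w, hw⟩ := exists_eq_ofHeightOneSpectrum (K := K) (F := F) (R := intRing K u) P
        (intRing_le_of_mem P hu_mem)
      refine ⟨w, ?_, hw.symm⟩
      rw [Finset.mem_coe, hTmem, hover, mem_asIdeal_iff_ord_pos (K := K) (F := F), ← hw, hπBF]
      exact Or.inr hP'
  have hgoal : ∑ᶠ (P : Place K F) (_ : 0 < P.ord (u - algebraMap K F c)), P.ord f =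
      ∑ᶠ P ∈ Φ '' (T : Set (HeightOneSpectrum (intRing K u))), P.ord f := by
    rw [himage]
    rfl
  rw [hgoal, finsum_mem_image hΦinj.injOn, finsum_mem_coe_finset, hcount2, ← hsum, Nat.cast_sum]
  refine Finset.sum_congr rfl fun w _ => ?_
  exact Fermat.Agent.X0.FFDedekind.count_normalizedFactors_eq_ord (K := K) (F := F) w hb0

/-- **N1**: the contract `Bricks7.NormFibre` (for an algebraically closed constant field of
characteristic zero; the statement without residue degrees is false otherwise). -/
theorem normFibre : Fermat.Agent.MW.Spec.Bricks7.NormFibre K F := by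
  intro u f hu hf0 hpole
  have hf := isIntegral_of_ord_nonneg hu hpole
  obtain ⟨N, hN⟩ := exists_poly_norm hu hf
  refine ⟨N, ?_, hN, fun c => rootMultiplicity_norm hu hf0 hf N hN c⟩
  rintro rfl
  rw [map_zero] at hN
  have := hu.finite
  have h1 : Algebra.norm K⟮u⟯ f = 0 :=
    (map_eq_zero_iff _ (algebraMap K⟮u⟯ F).injective).mp hN
  exact hf0 (Algebra.norm_eq_zero_iff.mp h1)

end Fermat.Agent.MW.FF.NormFibre48
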