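/-
Program MW-H (S17), brick UB1 (helper80): PENCIL ALGEBRA.

`u : F` with `IsGen K u`, `A = polyRing K u = K[u] ⊆ F`, `B = intRing K u` = the integral closure of
`K[u]` in `F` (free of rank `m = [F : K(u)]` over `A ≃ K[X]`).  For `f_1, …, f_l ∈ B` and a
coefficient vector `c ∈ K^l` put `x(c) = ∑ c_j f_j`.  Then

* the norm `N_{F/K(u)} x(c)` is `∑_i N_i(c) u^i` with `N_i ∈ K[c_1..c_l]` homogeneous of degree `m`;
* there are finitely many `w_a ∈ B` and `G_a ∈ K[c_1..c_l]` homogeneous of degree `m - 1` with
  `x(c) · ∑_a G_a(c) w_a = N_{F/K(u)} x(c)`   (the adjugate cofactor).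

Main theorem: `pencilAlgebra`.  Pure algebra: `Algebra.leftMulMatrix` on an `A`-basis of `B`,
`Matrix.adjugate`, homogeneity of determinants, expansion of the coefficients in powers of `u`.

Parts:
* `isHomogeneous_det`, `isHomogeneous_adjugate`;
* `genM`, `genN`, `genG` (generic multiplication matrix, norm, cofactor) over any base ring, with
  `eval_genN`, `mul_eval_genG`, `mul_cofactor`;
* `expandCoeff`, `eval_eq_sum_expandCoeff` (`R ≃ K[X]`);
* `free_intRing`, `norm_intRing` (norm over `K(u)` = norm over `K[u]` on `intRing`).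
-/
import Mathlib
import Fermat.Agent.X0.FFSum

set_option autoImplicit false

open IntermediateField
open scoped IntermediateField.algebraAdjoinAdjoin
open Fermat.Agent.X0.FF

namespace Fermat.Agent.MW.FF.PencilAlgebra80

open MvPolynomial Matrix

/-! ### Homogeneity of determinants -/

section Hom

variable {σ R : Type*} [CommRing R] {n : Type*} [Fintype n] [DecidableEq n]

/-- A determinant whose `i`-th row consists of homogeneous polynomials of degree `d i` is
homogeneous of degree `∑ i, d i`. -/
theorem isHomogeneous_det (M : Matrix n n (MvPolynomial σ R)) (d : n → ℕ)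
    (h : ∀ i j, (M i j).IsHomogeneous (d i)) : M.det.IsHomogeneous (∑ i, d i) := by
  rw [Matrix.det_apply]
  refine IsHomogeneous.sum _ _ _ fun τ _ => ?_
  have h1 : (∏ i, M (τ i) i).IsHomogeneous (∑ i, d (τ i)) :=
    IsHomogeneous.prod _ _ _ fun i _ => h (τ i) i
  rw [Equiv.sum_comp τ d] at h1
  rcases Int.units_eq_one_or (Equiv.Perm.sign τ) with hs | hs
  · rw [hs, one_smul]; exact h1
  · rw [hs, Units.neg_smul, one_smul]; exact h1.neg

/-- The entries of the adjugate of a matrix of linear forms are homogeneous of degree `card - 1`. -/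
theorem isHomogeneous_adjugate (M : Matrix n n (MvPolynomial σ R))
    (h : ∀ i j, (M i j).IsHomogeneous 1) (i j : n) :
    (M.adjugate i j).IsHomogeneous (Fintype.card n - 1) := by
  rw [Matrix.adjugate_apply]
  have h1 := isHomogeneous_det (M.updateRow j (Pi.single i 1)) (fun r => if r = j then 0 else 1)
    (fun r c => by
      by_cases hr : r = j
      · subst hr
        rw [if_pos rfl, Matrix.updateRow_self]
        by_cases hc : c = i
        · subst hc; rw [Pi.single_eq_same]; exact isHomogeneous_one _ _
        · rw [Pi.single_eq_of_ne hc]; exact isHomogeneous_zero _ _ _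
      · rw [if_neg hr, Matrix.updateRow_ne hr]; exact h r c)
  have h2 : (∑ r : n, if r = j then 0 else 1) = Fintype.card n - 1 := by
    have h3 : (∑ r : n, if r = j then 0 else 1) = ∑ r : n, (1 - if r = j then 1 else 0) :=
      Finset.sum_congr rfl fun r _ => by split_ifs <;> rfl
    have h4 : (∑ r : n, (if r = j then 1 else 0 : ℕ)) = 1 := by simp
    have h5 : ∀ r : n, (if r = j then 1 else 0 : ℕ) ≤ 1 := fun r => by split_ifs <;> simp
    rw [h3, Finset.sum_tsub_distrib _ (fun r _ => h5 r), h4]
    simp
  rw [h2] at h1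
  exact h1

end Hom


/-! ### The generic multiplication matrix -/

section Generic

variable {R O : Type*} [CommRing R] [CommRing O] [Algebra R O]
variable {ι : Type*} [Fintype ι] [DecidableEq ι] (w : Module.Basis ι R O)
variable {l : ℕ} (f : Fin l → O)

/-- The matrix of multiplication by the generic element `∑ X_j f_j` in the basis `w`. -/
noncomputable def genM : Matrix ι ι (MvPolynomial (Fin l) R) :=
  Matrix.of fun a b => ∑ j, X j * C (Algebra.leftMulMatrix w (f j) a b)

theorem genM_isHomogeneous (a b : ι) : (genM w f a b).IsHomogeneous 1 := by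
  unfold genM
  rw [Matrix.of_apply]
  refine IsHomogeneous.sum _ _ _ fun j _ => ?_
  have := (isHomogeneous_X R j).mul (isHomogeneous_C (Fin l) (Algebra.leftMulMatrix w (f j) a b))
  simpa using this

/-- Specialising the generic matrix gives the multiplication matrix of `∑ c_j f_j`. -/
theorem eval_genM (c : Fin l → R) :
    (MvPolynomial.eval c).mapMatrix (genM w f) = Algebra.leftMulMatrix w (∑ j, c j • f j) := by
  ext a b
  rw [RingHom.mapMatrix_apply, Matrix.map_apply]
  unfold genM
  rw [Matrix.of_apply, map_sum, map_sum, Matrix.sum_apply]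
  refine Finset.sum_congr rfl fun j _ => ?_
  rw [map_mul, eval_X, eval_C, map_smul, Matrix.smul_apply, smul_eq_mul]

/-- The generic norm. -/
noncomputable def genN : MvPolynomial (Fin l) R := (genM w f).det

theorem genN_isHomogeneous : (genN w f).IsHomogeneous (Fintype.card ι) := by
  have := isHomogeneous_det (genM w f) (fun _ => 1) (fun a b => genM_isHomogeneous w f a b)
  unfold genN
  simpa using this

theorem eval_genN (c : Fin l → R) :
    MvPolynomial.eval c (genN w f) = Algebra.norm R (∑ j, c j • f j) := by
  unfold genN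
  rw [RingHom.map_det, eval_genM, Algebra.norm_eq_matrix_det w]

/-- The coordinates (in the basis `w`) of the generic cofactor. -/
noncomputable def genG (a : ι) : MvPolynomial (Fin l) R :=
  ∑ b, (genM w f).adjugate a b * C (w.repr 1 b)

theorem genG_isHomogeneous (a : ι) : (genG w f a).IsHomogeneous (Fintype.card ι - 1) := by
  unfold genG
  refine IsHomogeneous.sum _ _ _ fun b _ => ?_
  have := (isHomogeneous_adjugate (genM w f) (fun a b => genM_isHomogeneous w f a b) a b).mul
    (isHomogeneous_C (Fin l) (w.repr 1 b))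
  simpa using this

theorem eval_genG (c : Fin l → R) (a : ι) :
    MvPolynomial.eval c (genG w f a)
      = ((Algebra.leftMulMatrix w (∑ j, c j • f j)).adjugate *ᵥ (w.repr 1)) a := by
  unfold genG
  rw [map_sum, Matrix.mulVec, dotProduct]
  refine Finset.sum_congr rfl fun b _ => ?_
  rw [map_mul, eval_C, ← eval_genM w f c, ← RingHom.map_adjugate, RingHom.mapMatrix_apply,
    Matrix.map_apply]

/-- **Cofactor identity**: `x · (adj M(x) · 1) = N(x)`. -/
theorem mul_cofactor (x : O) :
    x * ∑ a, ((Algebra.leftMulMatrix w x).adjugate *ᵥ (w.repr 1)) a • w a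
      = algebraMap R O (Algebra.norm R x) := by
  apply w.repr.injective
  ext a
  rw [← Algebra.leftMulMatrix_mulVec_repr w x, Module.Basis.repr_sum_self, Matrix.mulVec_mulVec,
    Matrix.mul_adjugate, Matrix.smul_mulVec, Matrix.one_mulVec, Algebra.norm_eq_matrix_det w,
    Algebra.algebraMap_eq_smul_one, map_smul]
  rfl

/-- The generic cofactor identity, specialised. -/
theorem mul_eval_genG (c : Fin l → R) :
    (∑ j, c j • f j) * ∑ a, MvPolynomial.eval c (genG w f a) • w a
      = algebraMap R O (MvPolynomial.eval c (genN w f)) := by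
  rw [eval_genN, ← mul_cofactor w]
  congr 1
  refine Finset.sum_congr rfl fun a _ => ?_
  rw [eval_genG]

end Generic


/-! ### Expanding coefficients in `R ≃ K[X]` -/

section Expand

variable {K R : Type*} [CommRing K] [CommRing R] [Algebra K R] (e : Polynomial K ≃ₐ[K] R)
variable {σ : Type*}

/-- The part of `P ∈ R[c]`, `R ≃ K[X]`, of degree `i` in `X`: a polynomial over `K`. -/
noncomputable def expandCoeff (P : MvPolynomial σ R) (i : ℕ) : MvPolynomial σ K :=
  ∑ s ∈ P.support, monomial s ((e.symm (coeff s P)).coeff i)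

theorem expandCoeff_isHomogeneous {P : MvPolynomial σ R} {d : ℕ} (hP : P.IsHomogeneous d)
    (i : ℕ) : (expandCoeff e P i).IsHomogeneous d := by
  unfold expandCoeff
  refine IsHomogeneous.sum _ _ _ fun s hs => ?_
  apply isHomogeneous_monomial
  have := hP (mem_support_iff.mp hs)
  rwa [Finsupp.degree_eq_weight_one]

/-- A bound for the degrees in `X` of the coefficients of `P`. -/
noncomputable def expandDeg (P : MvPolynomial σ R) : ℕ :=
  P.support.sup fun s => (e.symm (coeff s P)).natDegree

theorem expandCoeff_eq_zero {P : MvPolynomial σ R} {i : ℕ} (hi : expandDeg e P < i) :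
    expandCoeff e P i = 0 := by
  unfold expandCoeff
  refine Finset.sum_eq_zero fun s hs => ?_
  have h1 : (e.symm (coeff s P)).natDegree ≤ expandDeg e P :=
    Finset.le_sup (f := fun s => (e.symm (coeff s P)).natDegree) hs
  rw [Polynomial.coeff_eq_zero_of_natDegree_lt (lt_of_le_of_lt h1 hi), map_zero]

/-- Evaluating `P` at constants: the expansion in powers of `e X`. -/
theorem eval_eq_sum_expandCoeff (P : MvPolynomial σ R) {D : ℕ} (hD : expandDeg e P ≤ D)
    (c : σ → K) :
    MvPolynomial.eval (fun j => algebraMap K R (c j)) P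
      = ∑ i ∈ Finset.range (D + 1), MvPolynomial.eval c (expandCoeff e P i) • (e Polynomial.X) ^ i := by
  classical
  rw [MvPolynomial.eval_eq]
  have h1 : ∀ s ∈ P.support, coeff s P
      = ∑ i ∈ Finset.range (D + 1), (e.symm (coeff s P)).coeff i • (e Polynomial.X) ^ i := by
    intro s hs
    have hdeg : (e.symm (coeff s P)).natDegree < D + 1 :=
      Nat.lt_succ_of_le ((Finset.le_sup (f := fun s => (e.symm (coeff s P)).natDegree) hs).trans hD)
    conv_lhs => rw [← e.apply_symm_apply (coeff s P), Polynomial.as_sum_range' _ (D + 1) hdeg]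
    rw [map_sum]
    refine Finset.sum_congr rfl fun i _ => ?_
    rw [← Polynomial.C_mul_X_pow_eq_monomial, map_mul, map_pow, ← Polynomial.algebraMap_eq,
      AlgEquiv.commutes, Algebra.smul_def]
  have h2 : ∀ i, MvPolynomial.eval c (expandCoeff e P i)
      = ∑ s ∈ P.support, (e.symm (coeff s P)).coeff i * ∏ j ∈ s.support, c j ^ s j := by
    intro i
    unfold expandCoeff
    rw [map_sum]
    refine Finset.sum_congr rfl fun s _ => ?_
    rw [eval_monomial]
    rfl
  calc ∑ s ∈ P.support, coeff s P * ∏ j ∈ s.support, (algebraMap K R (c j)) ^ s j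
      = ∑ s ∈ P.support, ∑ i ∈ Finset.range (D + 1),
          ((e.symm (coeff s P)).coeff i * ∏ j ∈ s.support, c j ^ s j) • (e Polynomial.X) ^ i := by
        refine Finset.sum_congr rfl fun s hs => ?_
        conv_lhs => rw [h1 s hs]
        rw [Finset.sum_mul]
        refine Finset.sum_congr rfl fun i _ => ?_
        simp only [← map_pow, ← map_prod, Algebra.smul_def, map_mul]
        ring
    _ = ∑ i ∈ Finset.range (D + 1), MvPolynomial.eval c (expandCoeff e P i) • (e Polynomial.X) ^ i := by
        rw [Finset.sum_comm]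
        refine Finset.sum_congr rfl fun i _ => ?_
        rw [h2 i, Finset.sum_smul]

end Expand


section Inst

variable {K F : Type*} [Field K] [Field F] [Algebra K F] {u : F}

/-- The tower `K[u] ⊆ intRing ⊆ F`. -/
theorem isScalarTower_poly_int (u : F) : IsScalarTower (polyRing K u) (intRing K u) F :=
  IsScalarTower.of_algebraMap_eq fun _ => rfl

/-- The integral closure of `K[u]` is free over `K[u]`. -/
theorem free_intRing [CharZero K] (hu : IsGen K u) : Module.Free (polyRing K u) (intRing K u) := by
  have := finite_intRing hu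
  have := isPrincipalIdealRing_polyRing hu.transcendental
  exact Module.free_of_finite_type_torsion_free'

/-- The norm over `K(u)` of an integral element is the norm over `K[u]`. -/
theorem norm_intRing [CharZero K] (hu : IsGen K u) (x : intRing K u) :
    algebraMap K⟮u⟯ F (Algebra.norm K⟮u⟯ (x : F))
      = ((Algebra.norm (polyRing K u) x : polyRing K u) : F) := by
  have := finite_intRing hu
  have := free_intRing hu
  have := hu.finite
  have := isScalarTower_poly_int (K := K) u
  have : Algebra.IsAlgebraic K⟮u⟯ F := Algebra.IsAlgebraic.of_finite K⟮u⟯ F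
  have hloc : IsLocalization (Algebra.algebraMapSubmonoid (intRing K u)
      (nonZeroDivisors (polyRing K u))) F :=
    IsIntegralClosure.isLocalization (polyRing K u) K⟮u⟯ F (intRing K u)
  have h := Algebra.norm_localization (polyRing K u) (S := intRing K u) (Rₘ := K⟮u⟯) (Sₘ := F)
    (nonZeroDivisors (polyRing K u)) x
  have h2 : (algebraMap (intRing K u) F x) = (x : F) := rfl
  rw [h2] at h
  rw [h]
  rfl

end Inst

/-! ### The main theorem -/

section Main

variable {K F : Type*} [Field K] [Field F] [Algebra K F] {u : F}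

/-- The chosen isomorphism `K[X] ≃ K[u]`. -/
noncomputable def polyEquiv (hu : Transcendental K u) : Polynomial K ≃ₐ[K] polyRing K u :=
  Polynomial.algEquivOfTranscendental K u hu

theorem coe_polyEquiv_X (hu : Transcendental K u) :
    ((polyEquiv hu Polynomial.X : polyRing K u) : F) = u := by
  simp [polyEquiv]

/-- Expansion in `F` of the value of a polynomial with coefficients in `K[u]`. -/
theorem coe_eval_eq_sum (hu : Transcendental K u) {l : ℕ} (P : MvPolynomial (Fin l) (polyRing K u))
    {D : ℕ} (hD : expandDeg (polyEquiv hu) P ≤ D) (c : Fin l → K) :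
    ((MvPolynomial.eval (fun j => algebraMap K (polyRing K u) (c j)) P : polyRing K u) : F)
      = ∑ i ∈ Finset.range (D + 1),
          algebraMap K F (MvPolynomial.eval c (expandCoeff (polyEquiv hu) P i)) * u ^ i := by
  rw [eval_eq_sum_expandCoeff (polyEquiv hu) P hD c, AddSubmonoidClass.coe_finsetSum]
  refine Finset.sum_congr rfl fun i _ => ?_
  rw [Subalgebra.coe_smul, Subalgebra.coe_pow, coe_polyEquiv_X, Algebra.smul_def]

/-- The element `∑ c_j f_j` of `intRing`, seen in `F`. -/
theorem coe_sum_smul {l : ℕ} (fB : Fin l → intRing K u) (c : Fin l → K) :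
    ((∑ j, algebraMap K (polyRing K u) (c j) • fB j : intRing K u) : F)
      = ∑ j, c j • (fB j : F) := by
  rw [AddSubmonoidClass.coe_finsetSum]
  refine Finset.sum_congr rfl fun j _ => ?_
  rw [Subalgebra.coe_smul, algebraMap_smul]

/-- **Brick UB1 (pencil algebra)**: the norm of `∑ c_j f_j` and its cofactor are polynomial in
`c`, homogeneous of degrees `m = [F : K(u)]` and `m - 1`. -/
theorem pencilAlgebra [CharZero K] (hu : IsGen K u) {l : ℕ} (f : Fin l → F)
    (hf : ∀ j, IsIntegral (polyRing K u) (f j)) :
    ∃ (D : ℕ) (N : ℕ → MvPolynomial (Fin l) K) (r : ℕ) (w : Fin r → F)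
      (G : Fin r → MvPolynomial (Fin l) K),
      (∀ i, (N i).IsHomogeneous (Module.finrank K⟮u⟯ F)) ∧ (∀ i, D < i → N i = 0) ∧
      (∀ a, (G a).IsHomogeneous (Module.finrank K⟮u⟯ F - 1)) ∧
      (∀ a, IsIntegral (polyRing K u) (w a)) ∧
      ∀ c : Fin l → K,
        algebraMap K⟮u⟯ F (Algebra.norm K⟮u⟯ (∑ j, c j • f j))
          = ∑ i ∈ Finset.range (D + 1), algebraMap K F (MvPolynomial.eval c (N i)) * u ^ i ∧
        (∑ j, c j • f j) * (∑ a, algebraMap K F (MvPolynomial.eval c (G a)) * w a)
          = ∑ i ∈ Finset.range (D + 1), algebraMap K F (MvPolynomial.eval c (N i)) * u ^ i := by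
  classical
  have hfin := finite_intRing hu
  have hfree := free_intRing hu
  have hm : Module.finrank (polyRing K u) (intRing K u) = Module.finrank K⟮u⟯ F :=
    finrank_intRing hu
  set m := Module.finrank (polyRing K u) (intRing K u) with hmdef
  let wb : Module.Basis (Fin m) (polyRing K u) (intRing K u) :=
    Module.finBasis (polyRing K u) (intRing K u)
  let fB : Fin l → intRing K u := fun j => ⟨f j, hf j⟩
  let e := polyEquiv hu.transcendental
  let P : MvPolynomial (Fin l) (polyRing K u) := genN wb fB
  let Q : Fin m → MvPolynomial (Fin l) (polyRing K u) := genG wb fB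
  let D : ℕ := max (expandDeg e P) (Finset.univ.sup fun a => expandDeg e (Q a))
  have hDP : expandDeg e P ≤ D := le_max_left _ _
  have hDQ : ∀ a, expandDeg e (Q a) ≤ D := fun a =>
    (Finset.le_sup (f := fun a => expandDeg e (Q a)) (Finset.mem_univ a)).trans (le_max_right _ _)
  have hcard : Fintype.card (Fin m) = m := Fintype.card_fin m
  refine ⟨D, expandCoeff e P, m * (D + 1),
    fun x => u ^ ((finProdFinEquiv.symm x).2 : ℕ) * ((wb (finProdFinEquiv.symm x).1 : intRing K u) : F),
    fun x => expandCoeff e (Q (finProdFinEquiv.symm x).1) ((finProdFinEquiv.symm x).2 : ℕ),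
    ?_, ?_, ?_, ?_, ?_⟩
  · intro i
    rw [← hm]
    have := expandCoeff_isHomogeneous e (genN_isHomogeneous wb fB) i
    rwa [hcard] at this
  · intro i hi
    exact expandCoeff_eq_zero e (lt_of_le_of_lt hDP hi)
  · intro x
    rw [← hm]
    have := expandCoeff_isHomogeneous e (genG_isHomogeneous wb fB (finProdFinEquiv.symm x).1)
      ((finProdFinEquiv.symm x).2 : ℕ)
    rwa [hcard] at this
  · intro x
    refine IsIntegral.mul (IsIntegral.pow ?_ _) (wb (finProdFinEquiv.symm x).1).2
    have : u = algebraMap (polyRing K u) F (genA K u) := rfl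
    rw [this]
    exact isIntegral_algebraMap
  · intro c
    set c' : Fin l → polyRing K u := fun j => algebraMap K (polyRing K u) (c j) with hc'
    have hx : ((∑ j, c' j • fB j : intRing K u) : F) = ∑ j, c j • f j := coe_sum_smul fB c
    have hnorm : algebraMap K⟮u⟯ F (Algebra.norm K⟮u⟯ (∑ j, c j • f j))
        = ∑ i ∈ Finset.range (D + 1),
            algebraMap K F (MvPolynomial.eval c (expandCoeff e P i)) * u ^ i := by
      rw [← hx, norm_intRing hu, ← eval_genN wb fB c']
      exact coe_eval_eq_sum hu.transcendental P hDP c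
    refine ⟨hnorm, ?_⟩
    rw [← hnorm, ← hx, norm_intRing hu, ← eval_genN wb fB c']
    have hcof := congrArg (fun y : intRing K u => (y : F)) (mul_eval_genG wb fB c')
    simp only [Subalgebra.coe_mul] at hcof
    have hR : ((algebraMap (polyRing K u) (intRing K u) (MvPolynomial.eval c' (genN wb fB))
        : intRing K u) : F) = ((MvPolynomial.eval c' (genN wb fB) : polyRing K u) : F) := rfl
    rw [hR] at hcof
    rw [← hcof]
    congr 1
    -- the cofactor
    rw [AddSubmonoidClass.coe_finsetSum]
    rw [← Equiv.sum_comp finProdFinEquiv, Fintype.sum_prod_type]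
    refine Finset.sum_congr rfl fun a _ => ?_
    simp only [Equiv.symm_apply_apply]
    rw [Subalgebra.coe_smul]
    have h1 : ((MvPolynomial.eval c' (genG wb fB a) : polyRing K u) • ((wb a : intRing K u) : F))
        = ((MvPolynomial.eval c' (genG wb fB a) : polyRing K u) : F) * ((wb a : intRing K u) : F) :=
      rfl
    rw [h1, coe_eval_eq_sum hu.transcendental (Q a) (hDQ a) c, Finset.sum_mul,
      Finset.sum_range]
    refine Finset.sum_congr rfl fun i _ => ?_
    ring

end Main

end Fermat.Agent.MW.FF.PencilAlgebra80
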