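/-
Program MW-H (S17), brick UB1 (helper80): the contract `PencilDefs51.PencilAlgebra K F` (the literal
form asked for by the owner of UP, report #956), from `PencilAlgebra80.pencilAlgebra`.
-/
import Mathlib
import Fermat.Agent.MW.FF.PencilDefs51
import Fermat.Agent.MW.FF.PencilAlgebra80

set_option autoImplicit false

open IntermediateField
open Fermat.Agent.X0.FF

namespace Fermat.Agent.MW.FF.PencilAlgebraContract80

/-- **Brick UB1**, in the literal form of `PencilDefs51`. -/
theorem pencilAlgebra (K F : Type) [Field K] [Field F] [Algebra K F] [CharZero K] :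
    PencilDefs51.PencilAlgebra K F := by
  intro u hu ℓ f hf
  obtain ⟨D, N, r, w, G, hN, -, hG, -, H⟩ := PencilAlgebra80.pencilAlgebra hu f hf
  refine ⟨D, fun i => N i, r, w, G, fun i => hN i, hG, fun c => ?_⟩
  have hsum : (∑ j, algebraMap K F (c j) * f j) = ∑ j, c j • f j :=
    Finset.sum_congr rfl fun j _ => (Algebra.smul_def _ _).symm
  obtain ⟨h1, h2⟩ := H c
  rw [hsum]
  refine ⟨?_, ?_⟩
  · rw [h1, Finset.sum_range]
  · rw [h2, h1]

end Fermat.Agent.MW.FF.PencilAlgebraContract80
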