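/-
Program MW-H (S17), brick UP (helper51), part 2: orders of linear sections and of sections of
degree `k`, zero divisors of sections (effective, of degree `k m`), orders of finite products.
-/
import Mathlib
import Fermat.Agent.MW.FF.LeadLinear49
import Fermat.Agent.MW.FF.PencilDefs51
import Fermat.Agent.X0.FFGenus6

set_option autoImplicit false
set_option linter.unusedSectionVars false

open AlgebraicCurve IntermediateField

namespace Fermat.Agent.MW.FF.PencilOrd51

open Fermat.Agent.MW.Spec.Defs7 Fermat.Agent.MW.Spec.Bricks7 Fermat.Agent.MW.Spec.BricksU7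
open Fermat.Agent.X0 Fermat.Agent.X0.FF
open Fermat.Agent.MW.FF.EvalLead49 Fermat.Agent.MW.FF.Coord49 Fermat.Agent.MW.FF.VeryAmple49
open Fermat.Agent.MW.FF.LeadLinear49 Fermat.Agent.MW.FF.PencilDefs51

/-! ### Linear forms -/

section Lin

variable {K F : Type*} [Field K] [Field F] [Algebra K F] {n : ℕ}

theorem lin_add (ℓ ℓ' : Fin (n + 1) → K) (x : Fin (n + 1) → F) :
    lin (ℓ + ℓ') x = lin ℓ x + lin ℓ' x := by
  unfold lin
  rw [← Finset.sum_add_distrib]
  refine Finset.sum_congr rfl fun b _ => ?_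
  rw [Pi.add_apply, map_add, add_mul]

theorem lin_smul (a : K) (ℓ : Fin (n + 1) → K) (x : Fin (n + 1) → F) :
    lin (a • ℓ) x = algebraMap K F a * lin ℓ x := by
  unfold lin
  rw [Finset.mul_sum]
  refine Finset.sum_congr rfl fun b _ => ?_
  rw [Pi.smul_apply, smul_eq_mul, map_mul, mul_assoc]

theorem lin_sub (ℓ ℓ' : Fin (n + 1) → K) (x : Fin (n + 1) → F) :
    lin (ℓ - ℓ') x = lin ℓ x - lin ℓ' x := by
  unfold lin
  rw [← Finset.sum_sub_distrib]
  refine Finset.sum_congr rfl fun b _ => ?_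
  rw [Pi.sub_apply, map_sub, sub_mul]

theorem contr_eq (ξ η p : Fin (n + 1) → K) : contr ξ η p = dot ξ p • η - dot η p • ξ := by
  funext b
  simp [contr]

theorem lin_contr (ξ η p : Fin (n + 1) → K) (x : Fin (n + 1) → F) :
    lin (contr ξ η p) x =
      algebraMap K F (dot ξ p) * lin η x - algebraMap K F (dot η p) * lin ξ x := by
  rw [contr_eq, lin_sub, lin_smul, lin_smul]

theorem dot_contr_self (ξ η p : Fin (n + 1) → K) : dot (contr ξ η p) p = 0 := by
  have h : dot (contr ξ η p) p = dot ξ p * dot η p - dot η p * dot ξ p := by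
    unfold dot contr
    rw [Finset.mul_sum, Finset.mul_sum, ← Finset.sum_sub_distrib]
    refine Finset.sum_congr rfl fun b _ => ?_
    unfold dot
    ring
  rw [h]
  ring

theorem lin_ne_zero {x : Fin (n + 1) → F} (hx : LinearIndependent K x) {ℓ : Fin (n + 1) → K}
    (hℓ : ℓ ≠ 0) : lin ℓ x ≠ 0 := by
  intro h
  rw [lin_eq_sum] at h
  have := Fintype.linearIndependent_iff.mp hx ℓ h
  exact hℓ (funext this)

end Lin

/-! ### Orders of finite products -/

section Prod

variable {K F : Type*} [Field K] [Field F] [Algebra K F]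

theorem ord_finset_prod (P : Place K F) {ι : Type*} (s : Finset ι) (f : ι → F)
    (h : ∀ i ∈ s, f i ≠ 0) : P.ord (∏ i ∈ s, f i) = ∑ i ∈ s, P.ord (f i) := by
  classical
  induction s using Finset.induction_on with
  | empty => simp [Place.ord_one]
  | insert j s hj ih =>
    have hs : ∀ i ∈ s, f i ≠ 0 := fun i hi => h i (Finset.mem_insert_of_mem hi)
    rw [Finset.prod_insert hj, Finset.sum_insert hj,
      P.ord_mul (h j (Finset.mem_insert_self j s)) (Finset.prod_ne_zero_iff.mpr hs), ih hs]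

theorem ord_div (P : Place K F) {f g : F} (hf : f ≠ 0) (hg : g ≠ 0) :
    P.ord (f / g) = P.ord f - P.ord g := by
  rw [div_eq_mul_inv, P.ord_mul hf (inv_ne_zero hg), P.ord_inv]
  ring

end Prod

/-! ### Linear sections and sections of degree `k` on the standing data -/

section U

variable {K F : Type} [Field K] [Field F] [Algebra K F] [HasCanonicalDivisor (K := K) (F := F)]
  [IsAlgClosed K] [CharZero K] (U : USetup K F)

theorem ord_lin_ge {ℓ : Fin (U.n + 1) → K} (hℓ : lin ℓ U.x ≠ 0) (Q : Place K F) :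
    minOrd Q U.x ≤ Q.ord (lin ℓ U.x) :=
  le_ord_of_isValAt (hasResK U.gen Q) (U.t_ord Q) (isValAt_lin (hasResK U.gen Q) (U.t_ord Q) ℓ) hℓ

theorem ord_lin_gt {ℓ : Fin (U.n + 1) → K} (hℓ : lin ℓ U.x ≠ 0) (Q : Place K F)
    (h0 : dot ℓ (U.pt Q) = 0) : minOrd Q U.x < Q.ord (lin ℓ U.x) := by
  have h := isValAt_lin (hasResK U.gen Q) (U.t_ord Q) (x := U.x) ℓ
  have h0' : dot ℓ (coordAt Q (U.t Q) U.x) = 0 := h0
  rw [h0'] at h
  exact lt_ord_of_isValAt_zero (hasResK U.gen Q) (U.t_ord Q) h hℓ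

theorem ord_lin_eq {ℓ : Fin (U.n + 1) → K} (Q : Place K F) (h : dot ℓ (U.pt Q) ≠ 0) :
    Q.ord (lin ℓ U.x) = minOrd Q U.x :=
  (leadLinear_one (hasResK U.gen Q) (U.t_ord Q) ℓ h).1

/-- `minOrd` in one formula: `minOrd Q x = - m · [Q = inf]`. -/
theorem minOrd_eq_neg_single (Q : Place K F) :
    minOrd Q U.x = -(Finsupp.single U.inf ((U.m : ℕ) : ℤ) Q) := by
  classical
  obtain ⟨h1, h2⟩ := minOrdSpec U
  by_cases hQ : Q = U.inf
  · subst hQ
    rw [h2, Finsupp.single_eq_same]
  · rw [h1 Q hQ, Finsupp.single_eq_of_ne hQ, neg_zero]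

theorem single_mul_eq (k : ℕ) (Q : Place K F) :
    Finsupp.single U.inf ((k * U.m : ℕ) : ℤ) Q = -((k : ℤ) * minOrd Q U.x) := by
  classical
  rw [minOrd_eq_neg_single]
  by_cases hQ : Q = U.inf
  · subst hQ
    rw [Finsupp.single_eq_same, Finsupp.single_eq_same]
    push_cast
    ring
  · rw [Finsupp.single_eq_of_ne hQ, Finsupp.single_eq_of_ne hQ]
    ring

/-- Membership in `L(k m · inf)` through orders. -/
theorem mem_R_iff {k : ℕ} {f : F} (hf : f ≠ 0) :
    f ∈ U.R k ↔ ∀ Q : Place K F, (k : ℤ) * minOrd Q U.x ≤ Q.ord f := by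
  unfold USetup.R
  rw [mem_riemannRochSpace_iff]
  refine forall_congr' fun Q => ?_
  rw [single_mul_eq, neg_neg]
  constructor
  · rintro (h | h)
    · exact absurd h hf
    · exact h
  · exact fun h => Or.inr h

variable {U}

/-- The zero divisor of a nonzero section in terms of orders. -/
theorem isZeroDiv_apply {k : ℕ} {Z : Divisor K F} {s : F} (hZ : U.IsZeroDiv k Z s)
    (Q : Place K F) : Z Q = Q.ord s - (k : ℤ) * minOrd Q U.x := by
  rw [hZ Q, single_mul_eq]
  ring

theorem isZeroDiv_nonneg {k : ℕ} (B : U.MonoBasis k) (c : Fin B.ℓ → K) {Z : Divisor K F}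
    (hs : B.sec c ≠ 0) (hZ : U.IsZeroDiv k Z (B.sec c)) (Q : Place K F) : 0 ≤ Z Q := by
  rw [isZeroDiv_apply hZ Q]
  have := ((secValue U) k B c Q).1 hs
  linarith

/-- The zero divisor of a nonzero section has degree `k m`. -/
theorem isZeroDiv_sum {k : ℕ} {Z : Divisor K F} {s : F} (hs : s ≠ 0)
    (hZ : U.IsZeroDiv k Z s) : ∑ P ∈ Z.support, Z P = ((k * U.m : ℕ) : ℤ) := by
  classical
  have H := ff1Data U.gen
  set E : Divisor K F := Finsupp.single U.inf ((k * U.m : ℕ) : ℤ) with hE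
  have hD : ∀ v, (Z - E) v = v.ord s := by
    intro v
    rw [Finsupp.sub_apply, hZ v]
    ring
  have h0 := ffq_degree_eq_zero_of_principal H hs (Z - E) hD
  rw [map_sub, hE, degree_single' U.gen, sub_eq_zero] at h0
  rw [← h0, ffq_degree_eq_sum H]

theorem isZeroDiv_sum_toNat {k : ℕ} (B : U.MonoBasis k) (c : Fin B.ℓ → K) {Z : Divisor K F}
    (hs : B.sec c ≠ 0) (hZ : U.IsZeroDiv k Z (B.sec c)) :
    ∑ P ∈ Z.support, (Z P).toNat = k * U.m := by
  have h := isZeroDiv_sum hs hZ
  have h2 : ((∑ P ∈ Z.support, (Z P).toNat : ℕ) : ℤ) = ((k * U.m : ℕ) : ℤ) := by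
    rw [← h, Nat.cast_sum]
    refine Finset.sum_congr rfl fun P _ => ?_
    exact Int.toNat_of_nonneg (isZeroDiv_nonneg B c hs hZ P)
  exact_mod_cast h2

/-- A nonzero coefficient vector gives a nonzero section. -/
theorem sec_ne_zero {k : ℕ} (B : U.MonoBasis k) {c : Fin B.ℓ → K} (hc : c ≠ 0) :
    B.sec c ≠ 0 := by
  intro h
  have h' : ∑ j, c j • mono U.x (B.α j) = 0 := by
    rw [← h]
    unfold USetup.MonoBasis.sec
    exact Finset.sum_congr rfl fun j _ => Algebra.smul_def _ _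
  exact hc (funext (Fintype.linearIndependent_iff.mp B.indep c h'))

/-- The monomials of a monomial basis are sections. -/
theorem sec_single {k : ℕ} (B : U.MonoBasis k) (j : Fin B.ℓ) :
    B.sec (Pi.single j 1) = mono U.x (B.α j) := by
  classical
  unfold USetup.MonoBasis.sec
  rw [Finset.sum_eq_single j]
  · rw [Pi.single_eq_same, map_one, one_mul]
  · intro b _ hb
    rw [Pi.single_eq_of_ne hb, map_zero, zero_mul]
  · intro h
    exact absurd (Finset.mem_univ j) h

theorem mono_ne_zero {k : ℕ} (B : U.MonoBasis k) (j : Fin B.ℓ) : mono U.x (B.α j) ≠ 0 :=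
  B.indep.ne_zero j

theorem ord_mono_ge {k : ℕ} (B : U.MonoBasis k) (j : Fin B.ℓ) (Q : Place K F) :
    (k : ℤ) * minOrd Q U.x ≤ Q.ord (mono U.x (B.α j)) := by
  have h := ((secValue U) k B (Pi.single j 1) Q).1
  rw [sec_single] at h
  exact h (mono_ne_zero B j)

/-- Every element of `L(k m · inf)` is a section of a monomial basis. -/
theorem exists_sec_eq {k : ℕ} (B : U.MonoBasis k) {y : F} (hy : y ∈ U.R k) :
    ∃ c : Fin B.ℓ → K, B.sec c = y := by
  rw [← B.span] at hy
  obtain ⟨c, hc⟩ := (Submodule.mem_span_range_iff_exists_fun K).mp hy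
  refine ⟨c, ?_⟩
  rw [← hc]
  unfold USetup.MonoBasis.sec
  exact Finset.sum_congr rfl fun j _ => (Algebra.smul_def _ _).symm

end U

end Fermat.Agent.MW.FF.PencilOrd51
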