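/-
Program MW-H (S17), brick UP (helper51), part 1 (Mathlib only): polynomials over an algebraically
closed field with the same root multiplicities are proportional; root multiplicities and degree
of a product of powers of linear binary forms `(a X - b)^e`.
-/
import Mathlib

set_option autoImplicit false

open Polynomial

namespace Fermat.Agent.MW.FF.PencilRoots51

variable {K : Type*} [Field K]

/-- Two nonzero polynomials over an algebraically closed field with the same root multiplicities
are proportional. -/
theorem eq_C_mul_of_rootMultiplicity_eq [IsAlgClosed K] {p q : K[X]} (hp : p ≠ 0) (hq : q ≠ 0)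
    (h : ∀ c : K, p.rootMultiplicity c = q.rootMultiplicity c) :
    ∃ κ : K, κ ≠ 0 ∧ p = C κ * q := by
  classical
  have hroots : p.roots = q.roots := by
    ext c
    rw [count_roots, count_roots, h c]
  refine ⟨p.leadingCoeff / q.leadingCoeff,
    div_ne_zero (leadingCoeff_ne_zero.mpr hp) (leadingCoeff_ne_zero.mpr hq), ?_⟩
  have h1 := (IsAlgClosed.splits p).eq_prod_roots
  have h2 := (IsAlgClosed.splits q).eq_prod_roots
  rw [hroots] at h1
  have hq' : q.leadingCoeff ≠ 0 := leadingCoeff_ne_zero.mpr hq
  calc p = C p.leadingCoeff * (q.roots.map (X - C ·)).prod := h1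
    _ = C (p.leadingCoeff / q.leadingCoeff) *
          (C q.leadingCoeff * (q.roots.map (X - C ·)).prod) := by
        rw [← mul_assoc, ← C_mul, div_mul_cancel₀ _ hq']
    _ = C (p.leadingCoeff / q.leadingCoeff) * q := by rw [← h2]

/-- The linear factor `a X - b` is nonzero if `(a, b) ≠ (0, 0)`. -/
theorem linFactor_ne_zero {a b : K} (h : a ≠ 0 ∨ b ≠ 0) : C a * X - C b ≠ 0 := by
  intro h0
  have h1 := congrArg (fun p => coeff p 1) h0
  have h2 := congrArg (fun p => coeff p 0) h0
  simp at h1 h2
  rcases h with h | h
  · exact h h1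
  · exact h h2

/-- Root multiplicity of the linear factor `a X - b`. -/
theorem rootMultiplicity_linFactor [DecidableEq K] {a b : K} (h : a ≠ 0 ∨ b ≠ 0) (c : K) :
    (C a * X - C b).rootMultiplicity c = if a ≠ 0 ∧ b = c * a then 1 else 0 := by
  rw [← count_roots]
  by_cases ha : a = 0
  · have hb : b ≠ 0 := by
      rcases h with h | h
      · exact absurd ha h
      · exact h
    subst ha
    simp
  · rw [roots_C_mul_X_sub_C b ha]
    by_cases hbc : b = c * a
    · rw [if_pos ⟨ha, hbc⟩, hbc]
      have : a⁻¹ * (c * a) = c := by field_simp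
      rw [this]
      simp
    · rw [if_neg (fun hh => hbc hh.2)]
      rw [Multiset.count_singleton, if_neg]
      intro hc
      apply hbc
      rw [hc]
      field_simp

/-- Root multiplicity of a power. -/
theorem rootMultiplicity_pow' [DecidableEq K] (p : K[X]) (e : ℕ) (c : K) :
    (p ^ e).rootMultiplicity c = e * p.rootMultiplicity c := by
  rw [← count_roots, ← count_roots, roots_pow, Multiset.count_nsmul]

/-- A finite product of powers of nonzero linear factors is nonzero. -/
theorem prod_linFactor_ne_zero {ι : Type*} (s : Finset ι) (a b : ι → K) (e : ι → ℕ)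
    (h : ∀ i ∈ s, a i ≠ 0 ∨ b i ≠ 0) :
    ∏ i ∈ s, (C (a i) * X - C (b i)) ^ e i ≠ 0 :=
  Finset.prod_ne_zero_iff.mpr fun i hi => pow_ne_zero _ (linFactor_ne_zero (h i hi))

/-- Root multiplicities of a finite product of powers of linear factors. -/
theorem rootMultiplicity_prod_linFactor [DecidableEq K] {ι : Type*} (s : Finset ι)
    (a b : ι → K) (e : ι → ℕ) (h : ∀ i ∈ s, a i ≠ 0 ∨ b i ≠ 0) (c : K) :
    (∏ i ∈ s, (C (a i) * X - C (b i)) ^ e i).rootMultiplicity c =
      ∑ i ∈ s, if a i ≠ 0 ∧ b i = c * a i then e i else 0 := by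
  classical
  induction s using Finset.induction_on with
  | empty => simp
  | insert j s hj ih =>
    have hs : ∀ i ∈ s, a i ≠ 0 ∨ b i ≠ 0 := fun i hi => h i (Finset.mem_insert_of_mem hi)
    have hjne : (C (a j) * X - C (b j)) ^ e j ≠ 0 :=
      pow_ne_zero _ (linFactor_ne_zero (h j (Finset.mem_insert_self j s)))
    rw [Finset.prod_insert hj, Finset.sum_insert hj,
      rootMultiplicity_mul (mul_ne_zero hjne (prod_linFactor_ne_zero s a b e hs)), ih hs,
      rootMultiplicity_pow',
      rootMultiplicity_linFactor (h j (Finset.mem_insert_self j s))]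
    congr 1
    split_ifs <;> simp

/-- Degree bound for a finite product of powers of linear factors. -/
theorem natDegree_prod_linFactor_le {ι : Type*} (s : Finset ι) (a b : ι → K) (e : ι → ℕ) :
    (∏ i ∈ s, (C (a i) * X - C (b i)) ^ e i).natDegree ≤ ∑ i ∈ s, e i := by
  refine (natDegree_prod_le _ _).trans (Finset.sum_le_sum fun i _ => ?_)
  refine natDegree_pow_le.trans ?_
  have h1 : (C (a i) * X - C (b i)).natDegree ≤ 1 := by
    refine (natDegree_sub_le _ _).trans (max_le ?_ ?_)
    · exact (natDegree_C_mul_le _ _).trans natDegree_X_le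
    · rw [natDegree_C]; exact Nat.zero_le _
  calc e i * (C (a i) * X - C (b i)).natDegree ≤ e i * 1 := Nat.mul_le_mul_left _ h1
    _ = e i := mul_one _

end Fermat.Agent.MW.FF.PencilRoots51
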