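/-
Program MW-H (S17), brick UP (helper51), part 3: the norm of a section along a pencil.

For a pencil `π = (ξ, η)`, `u = η(x)/ξ(x)`, a nonzero section `s = B.sec c` of degree `k` with zero
divisor `Z`: the norm of `s / ξ(x)^k` to `K(u)` is `N(u)` with
`N = κ ∏_P (ξ(p) X - η(p))^{Z P}`, `κ ≠ 0`, `deg N ≤ k m` (`norm_section`); the binary form
`T = ∑_i N_i η(x)^i ξ(x)^{k m - i}` equals `ξ(x)^{k m} N(u)` and `T / s ∈ L(k (m-1) m · inf)`
(`binary_eq`, `cofactor_mem`).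
-/
import Mathlib
import Fermat.Agent.MW.FF.PencilOrd51
import Fermat.Agent.MW.FF.PencilRoots51

set_option autoImplicit false
set_option linter.unusedSectionVars false

open AlgebraicCurve IntermediateField Polynomial

namespace Fermat.Agent.MW.FF.PencilNorm51

open Fermat.Agent.MW.Spec.Defs7 Fermat.Agent.MW.Spec.Bricks7 Fermat.Agent.MW.Spec.BricksU7
open Fermat.Agent.X0 Fermat.Agent.X0.FF
open Fermat.Agent.MW.FF.EvalLead49 Fermat.Agent.MW.FF.Coord49 Fermat.Agent.MW.FF.VeryAmple49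
open Fermat.Agent.MW.FF.LeadLinear49 Fermat.Agent.MW.FF.PencilDefs51
open Fermat.Agent.MW.FF.PencilOrd51 Fermat.Agent.MW.FF.PencilRoots51

variable {K F : Type} [Field K] [Field F] [Algebra K F] [HasCanonicalDivisor (K := K) (F := F)]
  [IsAlgClosed K] [CharZero K] {U : USetup K F}

/-- The product of linear factors attached to a divisor. -/
noncomputable def rootProd (π : U.Pencil) (Z : Divisor K F) : K[X] :=
  Z.prod fun P e => (C (dot π.ξ (U.pt P)) * X - C (dot π.η (U.pt P))) ^ e.toNat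

theorem rootProd_eq (π : U.Pencil) (Z : Divisor K F) :
    rootProd π Z = ∏ P ∈ Z.support,
      (C (dot π.ξ (U.pt P)) * X - C (dot π.η (U.pt P))) ^ (Z P).toNat := rfl

/-- A section divided by `ξ(x)^k` is regular where the pencil function is. -/
theorem ord_div_nonneg (π : U.Pencil) (hG : PencilGeom U π) {k : ℕ} {s : F} (hs : s ≠ 0)
    (hord : ∀ Q : Place K F, (k : ℤ) * minOrd Q U.x ≤ Q.ord s) (P : Place K F)
    (hP : 0 ≤ P.ord (pu U π)) : 0 ≤ P.ord (s / lin π.ξ U.x ^ k) := by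
  have hξ := hG.1
  have hp : dot π.ξ (U.pt P) ≠ 0 := (hG.2.2.2.1 P).mp hP
  rw [ord_div P hs (pow_ne_zero _ hξ), ord_pow, ord_lin_eq U P hp]
  have := hord P
  linarith

/-- At a place where `ξ(p) ≠ 0`, the order of `s / ξ(x)^k` is the multiplicity of the zero
divisor. -/
theorem ord_div_eq (π : U.Pencil) (hG : PencilGeom U π) {k : ℕ} {s : F} (hs : s ≠ 0)
    {Z : Divisor K F} (hZ : U.IsZeroDiv k Z s) (P : Place K F)
    (hp : dot π.ξ (U.pt P) ≠ 0) : P.ord (s / lin π.ξ U.x ^ k) = Z P := by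
  rw [ord_div P hs (pow_ne_zero _ hG.1), ord_pow, ord_lin_eq U P hp, isZeroDiv_apply hZ P]

/-- **(id1), core**: the norm polynomial of a section. -/
theorem norm_section (π : U.Pencil) (hG : PencilGeom U π) (hN1 : NormFibre K F) {k : ℕ}
    (B : U.MonoBasis k) (c : Fin B.ℓ → K) (hc : c ≠ 0) (Z : Divisor K F)
    (hZ : U.IsZeroDiv k Z (B.sec c)) :
    ∃ (N : K[X]) (κ : K), κ ≠ 0 ∧ N.natDegree ≤ k * U.m ∧
      algebraMap K⟮pu U π⟯ F (Algebra.norm K⟮pu U π⟯ (B.sec c / lin π.ξ U.x ^ k)) =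
        aeval (pu U π) N ∧
      N = C κ * rootProd π Z := by
  classical
  have hs : B.sec c ≠ 0 := sec_ne_zero B hc
  have hξ := hG.1
  have hu := hG.2.1
  have hf : B.sec c / lin π.ξ U.x ^ k ≠ 0 := div_ne_zero hs (pow_ne_zero _ hξ)
  have hreg : ∀ P : Place K F, 0 ≤ P.ord (pu U π) → 0 ≤ P.ord (B.sec c / lin π.ξ U.x ^ k) :=
    fun P hP => ord_div_nonneg π hG hs (fun Q => ((secValue U) k B c Q).1 hs) P hP
  obtain ⟨N, hN0, hNorm, hmult⟩ := hN1 (pu U π) (B.sec c / lin π.ξ U.x ^ k) hu hf hreg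
  have hbpf : ∀ P ∈ Z.support, dot π.ξ (U.pt P) ≠ 0 ∨ dot π.η (U.pt P) ≠ 0 :=
    fun P _ => π.bpf P
  have hR0 : rootProd π Z ≠ 0 := by
    rw [rootProd_eq]
    exact prod_linFactor_ne_zero _ _ _ _ hbpf
  have hroots : ∀ a : K, N.rootMultiplicity a = (rootProd π Z).rootMultiplicity a := by
    intro a
    have h1 : (N.rootMultiplicity a : ℤ) =
        ∑ P ∈ Z.support, if dot π.ξ (U.pt P) ≠ 0 ∧ dot π.η (U.pt P) = a * dot π.ξ (U.pt P)
          then Z P else 0 := by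
      rw [hmult a]
      have hcongr : ∀ P : Place K F,
          (∑ᶠ (_ : 0 < P.ord (pu U π - algebraMap K F a)),
            P.ord (B.sec c / lin π.ξ U.x ^ k)) =
          if dot π.ξ (U.pt P) ≠ 0 ∧ dot π.η (U.pt P) = a * dot π.ξ (U.pt P)
            then Z P else 0 := by
        intro P
        rw [finsum_eq_if]
        by_cases h : 0 < P.ord (pu U π - algebraMap K F a)
        · have h' := (hG.2.2.2.2 P a).mp h
          rw [if_pos h, if_pos h', ord_div_eq π hG hs hZ P h'.1]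
        · have h' : ¬ (dot π.ξ (U.pt P) ≠ 0 ∧ dot π.η (U.pt P) = a * dot π.ξ (U.pt P)) :=
            fun hh => h ((hG.2.2.2.2 P a).mpr hh)
          rw [if_neg h, if_neg h']
      rw [finsum_congr hcongr]
      apply finsum_eq_sum_of_support_subset
      intro P hP
      rw [Function.mem_support] at hP
      rw [Finset.mem_coe, Finsupp.mem_support_iff]
      intro h0
      apply hP
      rw [h0]
      simp
    have h2 : ((rootProd π Z).rootMultiplicity a : ℤ) =
        ∑ P ∈ Z.support, if dot π.ξ (U.pt P) ≠ 0 ∧ dot π.η (U.pt P) = a * dot π.ξ (U.pt P)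
          then Z P else 0 := by
      rw [rootProd_eq, rootMultiplicity_prod_linFactor _ _ _ _ hbpf a, Nat.cast_sum]
      refine Finset.sum_congr rfl fun P _ => ?_
      split_ifs
      · exact Int.toNat_of_nonneg (isZeroDiv_nonneg B c hs hZ P)
      · rfl
    exact_mod_cast h1.trans h2.symm
  obtain ⟨κ, hκ, hNκ⟩ := eq_C_mul_of_rootMultiplicity_eq hN0 hR0 hroots
  refine ⟨N, κ, hκ, ?_, hNorm, hNκ⟩
  rw [hNκ, natDegree_C_mul hκ, rootProd_eq]
  exact (natDegree_prod_linFactor_le _ _ _ _).trans (isZeroDiv_sum_toNat B c hs hZ).le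

/-- The binary form of a polynomial of degree `≤ d` evaluated at `(η(x), ξ(x))`. -/
theorem binary_eq (π : U.Pencil) (hξ : lin π.ξ U.x ≠ 0) (N : K[X]) (d : ℕ)
    (hd : N.natDegree ≤ d) :
    (∑ i : Fin (d + 1), algebraMap K F (N.coeff i) * lin π.η U.x ^ (i : ℕ) *
        lin π.ξ U.x ^ (d - (i : ℕ))) = lin π.ξ U.x ^ d * aeval (pu U π) N := by
  rw [aeval_eq_sum_range' (Nat.lt_succ_of_le hd), Finset.mul_sum,
    ← Fin.sum_univ_eq_sum_range (fun i => lin π.ξ U.x ^ d * (N.coeff i • pu U π ^ i)) (d + 1)]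
  refine Finset.sum_congr rfl fun i _ => ?_
  have hi : (i : ℕ) ≤ d := Nat.lt_succ_iff.mp i.2
  have hpow : lin π.ξ U.x ^ d = lin π.ξ U.x ^ (i : ℕ) * lin π.ξ U.x ^ (d - (i : ℕ)) := by
    rw [← pow_add, Nat.add_sub_cancel' hi]
  rw [Algebra.smul_def, hpow]
  unfold pu
  rw [div_pow]
  field_simp

/-- `ξ(x)^d · (∏_P (ξ(p) X - η(p))^{Z P})(u) = ∏_P (lin (contr ξ η p) x)^{Z P}` when `∑ Z = d`. -/
theorem pow_mul_aeval_rootProd (π : U.Pencil) (hξ : lin π.ξ U.x ≠ 0) (Z : Divisor K F) (d : ℕ)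
    (hd : ∑ P ∈ Z.support, (Z P).toNat = d) :
    lin π.ξ U.x ^ d * aeval (pu U π) (rootProd π Z) =
      ∏ P ∈ Z.support, lin (contr π.ξ π.η (U.pt P)) U.x ^ (Z P).toNat := by
  rw [rootProd_eq, map_prod, ← hd, ← Finset.prod_pow_eq_pow_sum, ← Finset.prod_mul_distrib]
  refine Finset.prod_congr rfl fun P _ => ?_
  rw [map_pow, ← mul_pow]
  congr 1
  rw [map_sub, map_mul, aeval_C, aeval_C, aeval_X, lin_contr]
  unfold pu
  field_simp

/-- The linear section cut out by the point of a place is nonzero. -/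
theorem lin_contr_ne_zero (π : U.Pencil) (hG : PencilGeom U π) (P : Place K F) :
    lin (contr π.ξ π.η (U.pt P)) U.x ≠ 0 := by
  have hξ := hG.1
  have hu := hG.2.1
  have h : lin (contr π.ξ π.η (U.pt P)) U.x =
      lin π.ξ U.x * (algebraMap K F (dot π.ξ (U.pt P)) * pu U π -
        algebraMap K F (dot π.η (U.pt P))) := by
    rw [lin_contr]
    unfold pu
    field_simp
  rw [h]
  refine mul_ne_zero hξ ?_
  by_cases hp : dot π.ξ (U.pt P) = 0
  · rw [hp, map_zero, zero_mul, zero_sub, neg_ne_zero]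
    rcases π.bpf P with h1 | h1
    · exact absurd hp h1
    · exact (_root_.map_ne_zero _).mpr h1
  · intro h0
    apply hu.sub_algebraMap_ne_zero (dot π.η (U.pt P) / dot π.ξ (U.pt P))
    have hp' : algebraMap K F (dot π.ξ (U.pt P)) ≠ 0 := (_root_.map_ne_zero _).mpr hp
    rw [map_div₀, sub_eq_zero, eq_div_iff hp', mul_comm]
    exact sub_eq_zero.mp h0

/-- **(id1F), core**: `ξ(x)^{k m} N(u) = κ ∏_P (lin (contr ξ η p) x)^{Z P}`. -/
theorem pow_mul_aeval_eq (π : U.Pencil) (hG : PencilGeom U π) {k : ℕ}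
    (B : U.MonoBasis k) (c : Fin B.ℓ → K) (hc : c ≠ 0) (Z : Divisor K F)
    (hZ : U.IsZeroDiv k Z (B.sec c)) (N : K[X]) (κ : K)
    (hN : N = C κ * rootProd π Z) :
    lin π.ξ U.x ^ (k * U.m) * aeval (pu U π) N =
      algebraMap K F κ * Z.prod fun P e => lin (contr π.ξ π.η (U.pt P)) U.x ^ e.toNat := by
  have hs : B.sec c ≠ 0 := sec_ne_zero B hc
  have hsum := isZeroDiv_sum_toNat B c hs hZ
  rw [hN, map_mul, aeval_C, mul_left_comm, pow_mul_aeval_rootProd π hG.1 Z _ hsum]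
  rfl

/-- **UB3**: the cofactor `ξ(x)^{k m} N(u) / s` is a section of degree `k (m - 1)`. -/
theorem cofactor_mem (π : U.Pencil) (hG : PencilGeom U π) {k : ℕ}
    (B : U.MonoBasis k) (c : Fin B.ℓ → K) (hc : c ≠ 0) (Z : Divisor K F)
    (hZ : U.IsZeroDiv k Z (B.sec c)) (N : K[X]) (κ : K) (hκ : κ ≠ 0)
    (hN : N = C κ * rootProd π Z) :
    lin π.ξ U.x ^ (k * U.m) * aeval (pu U π) N / B.sec c ∈ U.R (k * (U.m - 1)) := by
  classical
  have hs : B.sec c ≠ 0 := sec_ne_zero B hc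
  have hξ := hG.1
  have hsum := isZeroDiv_sum_toNat B c hs hZ
  have hT : lin π.ξ U.x ^ (k * U.m) * aeval (pu U π) N =
      algebraMap K F κ * ∏ P ∈ Z.support,
        lin (contr π.ξ π.η (U.pt P)) U.x ^ (Z P).toNat :=
    pow_mul_aeval_eq π hG B c hc Z hZ N κ hN
  have hfac : ∀ P ∈ Z.support, lin (contr π.ξ π.η (U.pt P)) U.x ^ (Z P).toNat ≠ 0 :=
    fun P _ => pow_ne_zero _ (lin_contr_ne_zero π hG P)
  have hprod : (∏ P ∈ Z.support, lin (contr π.ξ π.η (U.pt P)) U.x ^ (Z P).toNat) ≠ 0 :=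
    Finset.prod_ne_zero_iff.mpr hfac
  have hκ' : algebraMap K F κ ≠ 0 := (_root_.map_ne_zero _).mpr hκ
  have hT0 : lin π.ξ U.x ^ (k * U.m) * aeval (pu U π) N ≠ 0 := by
    rw [hT]
    exact mul_ne_zero hκ' hprod
  rw [mem_R_iff U (div_ne_zero hT0 hs)]
  intro Q
  rw [ord_div Q hT0 hs, hT, Q.ord_mul hκ' hprod, ord_algebraMap, zero_add,
    ord_finset_prod Q _ _ hfac]
  -- lower bound for the sum of the orders of the linear factors
  have hterm : ∀ P ∈ Z.support,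
      ((Z P).toNat : ℤ) * minOrd Q U.x + (if P = Q then ((Z P).toNat : ℤ) else 0) ≤
        Q.ord (lin (contr π.ξ π.η (U.pt P)) U.x ^ (Z P).toNat) := by
    intro P _
    rw [ord_pow]
    have h1 := ord_lin_ge U (lin_contr_ne_zero π hG P) Q
    by_cases hPQ : P = Q
    · subst hPQ
      rw [if_pos rfl]
      have h2 := ord_lin_gt U (lin_contr_ne_zero π hG P) P (dot_contr_self _ _ _)
      have h3 : (0 : ℤ) ≤ ((Z P).toNat : ℤ) := Int.natCast_nonneg _
      nlinarith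
    · rw [if_neg hPQ, add_zero]
      have h3 : (0 : ℤ) ≤ ((Z P).toNat : ℤ) := Int.natCast_nonneg _
      nlinarith
  have hsumle := Finset.sum_le_sum hterm
  rw [Finset.sum_add_distrib, ← Finset.sum_mul] at hsumle
  have hcast : (∑ P ∈ Z.support, ((Z P).toNat : ℤ)) = ((k * U.m : ℕ) : ℤ) := by
    rw [← hsum, Nat.cast_sum]
  have hZQ : (∑ P ∈ Z.support, if P = Q then ((Z P).toNat : ℤ) else 0) = Z Q := by
    rw [Finset.sum_ite_eq' Z.support Q fun P => ((Z P).toNat : ℤ)]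
    by_cases hQ : Q ∈ Z.support
    · rw [if_pos hQ]
      exact Int.toNat_of_nonneg (isZeroDiv_nonneg B c hs hZ Q)
    · rw [if_neg hQ]
      exact (Finsupp.notMem_support_iff.mp hQ).symm
  rw [hcast, hZQ] at hsumle
  have hsQ := isZeroDiv_apply hZ Q
  have hm : 1 ≤ U.m := by
    have := U.m₀_large
    unfold USetup.m
    omega
  have hcast2 : ((k * (U.m - 1) : ℕ) : ℤ) = (k : ℤ) * ((U.m : ℤ) - 1) := by
    rw [Nat.cast_mul, Nat.cast_sub hm, Nat.cast_one]
  rw [hcast2]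
  push_cast at hsumle
  nlinarith

end Fermat.Agent.MW.FF.PencilNorm51
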