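/-
Program MW-H (S17), brick UP (helper51), part 4: ASSEMBLY of `U.PencilPackage` from
N1 (`Bricks7.NormFibre`), the integrality criterion (`IntegralOfOrd`), UB1 (`PencilAlgebra`) and
UPa (`PencilGeom`).
-/
import Mathlib
import Fermat.Agent.MW.FF.PencilNorm51
import Fermat.Agent.MW.FF.NormFibre48
import Fermat.Agent.MW.FF.PencilAlgebraContract80

set_option autoImplicit false
set_option linter.unusedSectionVars false

open AlgebraicCurve IntermediateField Polynomial

namespace Fermat.Agent.MW.FF.PencilPack51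

open Fermat.Agent.MW.Spec.Defs7 Fermat.Agent.MW.Spec.Bricks7 Fermat.Agent.MW.Spec.BricksU7
open Fermat.Agent.X0 Fermat.Agent.X0.FF
open Fermat.Agent.MW.FF.EvalLead49 Fermat.Agent.MW.FF.Coord49 Fermat.Agent.MW.FF.VeryAmple49
open Fermat.Agent.MW.FF.LeadLinear49 Fermat.Agent.MW.FF.PencilDefs51
open Fermat.Agent.MW.FF.PencilOrd51 Fermat.Agent.MW.FF.PencilRoots51
open Fermat.Agent.MW.FF.PencilNorm51

variable {K F : Type} [Field K] [Field F] [Algebra K F] [HasCanonicalDivisor (K := K) (F := F)]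
  [IsAlgClosed K] [CharZero K] {U : USetup K F}

/-- A `K`-linear retraction of `F` onto the coefficient vectors of a monomial basis. -/
theorem exists_coord {k : ℕ} (B : U.MonoBasis k) :
    ∃ φ : F →ₗ[K] (Fin B.ℓ → K), ∀ c : Fin B.ℓ → K, φ (B.sec c) = c := by
  classical
  let v : Fin B.ℓ → F := fun j => mono U.x (B.α j)
  let g : (Fin B.ℓ → K) →ₗ[K] F := Fintype.linearCombination K v
  have hg : ∀ c, g c = B.sec c := by
    intro c
    show Fintype.linearCombination K v c = _
    rw [Fintype.linearCombination_apply]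
    unfold USetup.MonoBasis.sec
    exact Finset.sum_congr rfl fun j _ => Algebra.smul_def _ _
  have hker : LinearMap.ker g = ⊥ := by
    rw [LinearMap.ker_eq_bot']
    intro c hc
    rw [hg] at hc
    by_contra hne
    exact sec_ne_zero B hne hc
  obtain ⟨φ, hφ⟩ := g.exists_leftInverse_of_injective hker
  refine ⟨φ, fun c => ?_⟩
  rw [← hg]
  exact LinearMap.congr_fun hφ c

/-- A polynomial is determined by its value at a transcendental element. -/
theorem coeff_of_aeval_eq {u : F} (hu : Transcendental K u) (N : K[X]) (D : ℕ)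
    (a : Fin (D + 1) → K)
    (h : aeval u N = ∑ i : Fin (D + 1), algebraMap K F (a i) * u ^ (i : ℕ)) (i : ℕ) :
    N.coeff i = if h : i ≤ D then a ⟨i, Nat.lt_succ_of_le h⟩ else 0 := by
  have hinj := transcendental_iff_injective.mp hu
  have h2 : aeval u N = aeval u (∑ i : Fin (D + 1), C (a i) * X ^ (i : ℕ)) := by
    rw [h, map_sum]
    refine Finset.sum_congr rfl fun i _ => ?_
    rw [map_mul, aeval_C, map_pow, aeval_X]
  have h3 := hinj h2
  rw [h3, finset_sum_coeff]
  by_cases hi : i ≤ D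
  · rw [dif_pos hi, Finset.sum_eq_single (⟨i, Nat.lt_succ_of_le hi⟩ : Fin (D + 1))]
    · rw [coeff_C_mul, coeff_X_pow, if_pos rfl, mul_one]
    · intro b _ hb
      rw [coeff_C_mul, coeff_X_pow, if_neg, mul_zero]
      intro hib
      apply hb
      exact Fin.ext hib.symm
    · intro hh
      exact absurd (Finset.mem_univ _) hh
  · rw [dif_neg hi]
    refine Finset.sum_eq_zero fun b _ => ?_
    rw [coeff_C_mul, coeff_X_pow, if_neg, mul_zero]
    intro hib
    apply hi
    rw [hib]
    exact Nat.lt_succ_iff.mp b.2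

/-- **UP**: the pencil package, from N1, the integrality criterion, UB1 and UPa. -/
theorem pencilPackage_of (U : USetup K F) (hN1 : NormFibre K F) (hInt : IntegralOfOrd K F)
    (hUB1 : PencilAlgebra K F) (hG : ∀ π : U.Pencil, PencilGeom U π) : U.PencilPackage := by
  classical
  intro π k _hk B B'
  have hGπ := hG π
  have hξ := hGπ.1
  have hu := hGπ.2.1
  have hfin := hGπ.2.2.1
  have hm : 1 ≤ U.m := by
    have := U.m₀_large
    unfold USetup.m
    omega
  -- the functions `f_j = B_j / ξ(x)^k`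
  let f : Fin B.ℓ → F := fun j => mono U.x (B.α j) / lin π.ξ U.x ^ k
  have hfint : ∀ j, IsIntegral (polyRing K (pu U π)) (f j) := fun j =>
    hInt _ _ hu fun P hP => ord_div_nonneg π hGπ (mono_ne_zero B j) (ord_mono_ge B j) P hP
  obtain ⟨D, Nc, r, w, A, hNc, hA, hUB⟩ := hUB1 (pu U π) hu B.ℓ f hfint
  obtain ⟨φ, hφ⟩ := exists_coord B'
  have hfc : ∀ c : Fin B.ℓ → K,
      ∑ j, algebraMap K F (c j) * f j = B.sec c / lin π.ξ U.x ^ k := by
    intro c
    unfold USetup.MonoBasis.sec
    rw [Finset.sum_div]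
    exact Finset.sum_congr rfl fun j _ => (mul_div_assoc _ _ _).symm
  let Np : Fin (k * U.m + 1) → MvPolynomial (Fin B.ℓ) K := fun i =>
    if h : (i : ℕ) ≤ D then Nc ⟨i, Nat.lt_succ_of_le h⟩ else 0
  let Sp : Fin B'.ℓ → MvPolynomial (Fin B.ℓ) K := fun b =>
    ∑ i, MvPolynomial.C (φ (w i * lin π.ξ U.x ^ (k * (U.m - 1))) b) * A i
  have hNp_def : ∀ i, Np i = if h : (i : ℕ) ≤ D then Nc ⟨i, Nat.lt_succ_of_le h⟩ else 0 :=
    fun _ => rfl
  have hSp_def : ∀ b, Sp b =
      ∑ i, MvPolynomial.C (φ (w i * lin π.ξ U.x ^ (k * (U.m - 1))) b) * A i := fun _ => rfl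
  have hNp_hom : ∀ i, (Np i).IsHomogeneous U.m := by
    intro i
    rw [hNp_def]
    by_cases h : (i : ℕ) ≤ D
    · rw [dif_pos h]
      have := hNc ⟨i, Nat.lt_succ_of_le h⟩
      rwa [hfin] at this
    · rw [dif_neg h]
      exact MvPolynomial.isHomogeneous_zero _ _ _
  have hSp_hom : ∀ b, (Sp b).IsHomogeneous (U.m - 1) := by
    intro b
    rw [hSp_def]
    refine MvPolynomial.IsHomogeneous.sum _ _ _ fun i _ => ?_
    have := hA i
    rw [hfin] at this
    exact this.C_mul _
  refine ⟨Np, Sp, hNp_hom, hSp_hom, ?_⟩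
  intro c hc Z hZ
  have hs : B.sec c ≠ 0 := sec_ne_zero B hc
  obtain ⟨N, κ, hκ, hdeg, hnorm, hNκ⟩ := norm_section π hGπ hN1 B c hc Z hZ
  obtain ⟨h1, h2⟩ := hUB c
  rw [hfc c] at h1 h2
  rw [hnorm] at h1 h2
  -- the coefficients of `N`
  have hcoeff := coeff_of_aeval_eq hu.transcendental N D
    (fun i => MvPolynomial.eval c (Nc i)) h1
  have hNp : ∀ i : Fin (k * U.m + 1), MvPolynomial.eval c (Np i) = N.coeff i := by
    intro i
    rw [hcoeff i, hNp_def]
    by_cases h : (i : ℕ) ≤ D
    · rw [dif_pos h, dif_pos h]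
    · rw [dif_neg h, dif_neg h, map_zero]
  have hbin := binary_eq π hξ N (k * U.m) hdeg
  have hbin' : (∑ i : Fin (k * U.m + 1), algebraMap K F (MvPolynomial.eval c (Np i)) *
      lin π.η U.x ^ (i : ℕ) * lin π.ξ U.x ^ (k * U.m - (i : ℕ))) =
      lin π.ξ U.x ^ (k * U.m) * aeval (pu U π) N := by
    rw [← hbin]
    refine Finset.sum_congr rfl fun i _ => ?_
    rw [hNp i]
  refine ⟨⟨κ, hκ, ?_, ?_⟩, ?_⟩
  · -- (id1)
    have hN' : N = ∑ i : Fin (k * U.m + 1), C (N.coeff i) * X ^ (i : ℕ) := by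
      conv_lhs => rw [as_sum_range' N (k * U.m + 1) (Nat.lt_succ_of_le hdeg)]
      rw [← Fin.sum_univ_eq_sum_range (fun i => monomial i (N.coeff i)) (k * U.m + 1)]
      exact Finset.sum_congr rfl fun i _ => (C_mul_X_pow_eq_monomial).symm
    calc (∑ i : Fin (k * U.m + 1), C (MvPolynomial.eval c (Np i)) * X ^ (i : ℕ))
        = ∑ i : Fin (k * U.m + 1), C (N.coeff i) * X ^ (i : ℕ) :=
          Finset.sum_congr rfl fun i _ => by rw [hNp i]
      _ = N := hN'.symm
      _ = C κ * rootProd π Z := hNκ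
  · -- (id1F)
    rw [hbin']
    exact pow_mul_aeval_eq π hGπ B c hc Z hZ N κ hNκ
  · -- (id2)
    have hmem := cofactor_mem π hGπ B c hc Z hZ N κ hκ hNκ
    set y : F := lin π.ξ U.x ^ (k * U.m) * aeval (pu U π) N / B.sec c with hy
    -- the cofactor in terms of UB1
    have hS : (∑ i, algebraMap K F (MvPolynomial.eval c (A i)) * w i) *
        lin π.ξ U.x ^ (k * (U.m - 1)) = y := by
      have hkm : k * U.m = k * (U.m - 1) + k := by
        have : U.m = (U.m - 1) + 1 := (Nat.sub_add_cancel hm).symm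
        conv_lhs => rw [this]
        ring
      have hξk : lin π.ξ U.x ^ k ≠ 0 := pow_ne_zero _ hξ
      rw [hy, ← h2, hkm, pow_add]
      field_simp
    -- the coordinates of the cofactor
    have hcoord : (fun b => MvPolynomial.eval c (Sp b)) = φ y := by
      funext b
      rw [hSp_def, ← hS, Finset.sum_mul, map_sum, map_sum, Finset.sum_apply]
      refine Finset.sum_congr rfl fun i _ => ?_
      rw [map_mul, MvPolynomial.eval_C, mul_assoc, ← Algebra.smul_def, map_smul,
        Pi.smul_apply, smul_eq_mul, mul_comm]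
    obtain ⟨c', hc'⟩ := exists_sec_eq B' hmem
    have hsec : B'.sec (φ y) = y := by
      rw [← hc', hφ c']
    rw [hcoord, hsec, hbin', hy]
    field_simp

/-- **UB4z**: a nonzero section of degree `k` has a zero divisor, effective of degree `k m`. -/
theorem zeroDivSpec (U : USetup K F) : U.ZeroDivSpec := by
  classical
  intro k s hsR hs
  have hfin : {v : Place K F | v.ord s ≠ 0}.Finite := finite_support_ord U.gen hs
  let D : Divisor K F := Finsupp.ofSupportFinite (fun v => v.ord s)
    (hfin.subset fun v hv => by simpa [Function.mem_support] using hv)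
  have hD : ∀ v, D v = v.ord s := fun v => rfl
  let Z : Divisor K F := D + Finsupp.single U.inf ((k * U.m : ℕ) : ℤ)
  have hZ : U.IsZeroDiv k Z s := by
    intro P
    rw [Finsupp.add_apply, hD]
  refine ⟨Z, hZ, ?_, ?_⟩
  · intro Q
    rw [Finsupp.zero_apply, isZeroDiv_apply hZ Q]
    have := (mem_R_iff U hs).mp hsR Q
    linarith
  · exact isZeroDiv_sum hs hZ

/-- **UP**, with N1 (helper48) and UB1 (helper80) plugged in; the only remaining input is UPa. -/
theorem pencilPackage_of_geom (U : USetup K F) (hG : ∀ π : U.Pencil, PencilGeom U π) :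
    U.PencilPackage :=
  pencilPackage_of U NormFibre48.normFibre
    (fun _ _ hu h => NormFibre48.isIntegral_of_ord_nonneg hu h)
    (PencilAlgebraContract80.pencilAlgebra K F) hG

end Fermat.Agent.MW.FF.PencilPack51
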