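/-
Program MW-H (S17), brick UP = `BricksU7.USetup.PencilPackage` (VERSION 2), CLOSED (helper51):
assembly of N1 (helper48), UB1 (helper80), UB4 (helper49), UPa = `PencilGeom` (helper80) and the
norm / cofactor analysis of `PencilNorm51`, `PencilPack51`.
-/
import Mathlib
import Fermat.Agent.MW.FF.PencilPack51
import Fermat.Agent.MW.FF.PencilGeom80

set_option autoImplicit false

open AlgebraicCurve

namespace Fermat.Agent.MW.FF.PencilPackage51

open Fermat.Agent.MW.Spec.BricksU7

variable {K F : Type} [Field K] [Field F] [Algebra K F] [HasCanonicalDivisor (K := K) (F := F)]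
  [IsAlgClosed K] [CharZero K]

/-- **UP**: the pencil package (contract `BricksU7.USetup.PencilPackage`, literally). -/
theorem pencilPackage (U : USetup K F) : U.PencilPackage :=
  PencilPack51.pencilPackage_of_geom U fun π => PencilGeom80.pencilGeom U π

end Fermat.Agent.MW.FF.PencilPackage51
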