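/-
Program MW-H (S17), helper86.  Package [d] of plan #590, brick **P2 = `Bricks7b.AuxPoint`**:
an effective divisor `D` of degree `< g` with `l(D) = 1` can be completed by a point of any set of
more than `2 g - 2` places: `∃ R ∈ T, l(D + R) = 1`.

Proof (Riemann-Roch, `Agent/RR/RRMain`): `l(W - D) = g - deg D > 0`; for `0 ≠ h ∈ L(W - D)` the
effective divisor `div h + W - D` has degree `≤ 2 g - 2`, so some `R ∈ T` is outside its support;
then `h ∉ L(W - D - R)`, hence `l(W - D - R) = l(W - D) - 1` and `l(D + R) = 1`.
-/
import Mathlib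
import Fermat.Agent.MW.Spec.Bricks7b
import Fermat.Agent.RR.RRMain

set_option autoImplicit false

open AlgebraicCurve KaehlerDifferential IntermediateField

namespace Fermat.Agent.MW.FF.AuxPoint86

open Fermat.Agent.X0.FF Fermat.Agent.RR.LSpace Fermat.Agent.RR.Duality Fermat.Agent.RR.Final
open Fermat.Agent.RR.RRMain

variable {K F : Type*} [Field K] [Field F] [Algebra K F] [IsAlgClosed K] [CharZero K]
  [HasCanonicalDivisor (K := K) (F := F)] {x : F}

omit [IsAlgClosed K] [CharZero K] [HasCanonicalDivisor (K := K) (F := F)] in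
/-- The support of an effective divisor has at most `deg` elements. -/
theorem card_support_le_degree (H : LHyp K F) {E : Divisor K F} (hE : 0 ≤ E) :
    (E.support.card : ℤ) ≤ Divisor.degree E := by
  rw [degree_eq_sum H]
  have : (E.support.card : ℤ) = ∑ _v ∈ E.support, (1 : ℤ) := by simp
  rw [this]
  apply Finset.sum_le_sum
  intro v hv
  have h0 : 0 ≤ E v := by simpa using hE v
  have h1 : E v ≠ 0 := Finsupp.mem_support_iff.mp hv
  omega

/-- **P2** in universe-polymorphic form. -/
theorem exists_add_single_finrank_eq_one (hx : IsGen K x) (D₀ : Divisor K F) (hD : 0 ≤ D₀)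
    (hdeg : Divisor.degree D₀ < (genus K F : ℤ))
    (hl : Module.finrank K (riemannRochSpace (K := K) (F := F) D₀) = 1)
    (T : Finset (Place K F)) (hT : 2 * genus K F - 2 < T.card) :
    ∃ R ∈ T, Module.finrank K
      (riemannRochSpace (K := K) (F := F) (D₀ + Finsupp.single R 1)) = 1 := by
  classical
  have H := Fermat.Agent.RR.LHypGen.lHyp_of_isGen hx
  have hω₀ := D_ne_zero hx
  have hW := fun v => canonicalDivisorOf_apply (K := K) (F := F) hω₀ v
  set W := canonicalDivisorOf hω₀ with hWdef
  have hdegW : Divisor.degree W = 2 * (genus K F : ℤ) - 2 := degree_canonical hx hω₀ hW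
  have hdeg0 : 0 ≤ Divisor.degree D₀ := degree_nonneg H hD
  -- `l(W - D) = g - deg D > 0`
  have hrr := riemann_roch_genus hx hω₀ hW D₀
  rw [hl] at hrr
  have hlW : (Module.finrank K (riemannRochSpace (W - D₀)) : ℤ) =
      genus K F - Divisor.degree D₀ := by
    push_cast at hrr
    omega
  have hfinW : FiniteDimensional K (riemannRochSpace (W - D₀)) := finiteDimensional_L H _
  -- a nonzero element `h`
  obtain ⟨h, hh, hh0⟩ : ∃ h : F, h ∈ riemannRochSpace (W - D₀) ∧ h ≠ 0 := by
    by_contra hcon
    push Not at hcon
    have hbot : riemannRochSpace (W - D₀) = ⊥ := by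
      rw [eq_bot_iff]
      intro f hf
      rw [Submodule.mem_bot]
      exact hcon f hf
    rw [hbot, finrank_bot] at hlW
    push_cast at hlW
    omega
  -- the effective divisor `E = W - D + div h`
  set E : Divisor K F := W - D₀ + divOf H hh0 with hEdef
  have hE : 0 ≤ E := by
    intro v
    have := (mem_L_iff hh0).mp hh v
    rw [hEdef, Finsupp.add_apply, divOf_apply]
    simp only [Finsupp.coe_zero, Pi.zero_apply]
    omega
  have hdegE : Divisor.degree E = 2 * (genus K F : ℤ) - 2 - Divisor.degree D₀ := by
    rw [hEdef, map_add, map_sub, degree_divOf, hdegW, add_zero]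
  have hcard := card_support_le_degree H hE
  -- a point of `T` outside the support of `E`
  obtain ⟨R, hRT, hRE⟩ : ∃ R ∈ T, R ∉ E.support := by
    by_contra hcon
    push Not at hcon
    have hsub : T ⊆ E.support := fun R hR => hcon R hR
    have := Finset.card_le_card hsub
    have h2 : (T.card : ℤ) ≤ E.support.card := by exact_mod_cast this
    omega
  refine ⟨R, hRT, ?_⟩
  have hER : E R = 0 := Finsupp.notMem_support_iff.mp hRE
  have hordR : R.ord h = -((W - D₀) R) := by
    rw [hEdef, Finsupp.add_apply, divOf_apply] at hER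
    omega
  -- `D' = W - D - R`
  set D' : Divisor K F := W - (D₀ + Finsupp.single R 1) with hD'def
  have hD'add : D' + Finsupp.single R 1 = W - D₀ := by
    rw [hD'def]
    abel
  have hfinD' : FiniteDimensional K (riemannRochSpace D') := finiteDimensional_L H _
  have hnot : h ∉ riemannRochSpace D' := by
    intro hmem
    have := (mem_L_iff hh0).mp hmem R
    rw [hD'def, Finsupp.sub_apply, Finsupp.add_apply, Finsupp.single_eq_same] at this
    rw [hordR, Finsupp.sub_apply] at this
    omega
  have hle : riemannRochSpace D' ≤ riemannRochSpace (W - D₀) := by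
    rw [← hD'add]
    exact L_mono (le_add_single D' R)
  have hlt : riemannRochSpace D' < riemannRochSpace (W - D₀) :=
    lt_of_le_of_ne hle (fun he => hnot (he ▸ hh))
  have h1 := Submodule.finrank_lt_finrank_of_lt hlt
  have h2 := (finrank_L_add_single_le H D' R).2
  rw [hD'add] at h2
  -- Riemann-Roch at `D + R`
  have hrr2 := riemann_roch_genus hx hω₀ hW (D₀ + Finsupp.single R 1)
  rw [map_add, degree_single H, ← hD'def] at hrr2
  have hnat : Module.finrank K (riemannRochSpace D') + 1 =
      Module.finrank K (riemannRochSpace (W - D₀)) := by omega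
  have hint : (Module.finrank K (riemannRochSpace D') : ℤ) + 1 =
      Module.finrank K (riemannRochSpace (W - D₀)) := by exact_mod_cast hnat
  have : (Module.finrank K (riemannRochSpace (D₀ + Finsupp.single R 1)) : ℤ) = 1 := by
    rw [hlW] at hint
    omega
  exact_mod_cast this

/-- **P2**: the contract `Bricks7b.AuxPoint`, for an algebraically closed constant field of
characteristic zero. -/
theorem auxPoint {K F : Type} [Field K] [Field F] [Algebra K F] [IsAlgClosed K] [CharZero K]
    [HasCanonicalDivisor (K := K) (F := F)] : Fermat.Agent.MW.Spec.Bricks7b.AuxPoint K F := by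
  intro u hu D₀ hD hdeg hl T hT
  exact exists_add_single_finrank_eq_one hu D₀ hD hdeg hl T hT

end Fermat.Agent.MW.FF.AuxPoint86
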