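/-
Program MW-H (S17), helper48.  Function-field inputs of HD-global, part 2:

* (D) `exists_aux_divisor` : iterated `P2` (`AuxPoint86`): an effective `D` with `l(D) = 1`,
  `deg D ≤ g`, can be completed inside any set of more than `2g - 2` places to a divisor
  `D + E₀` of degree `g` with `l(D + E₀) = 1`;
* (E) `L_canonical_sub_eq_bot` : Riemann-Roch: `deg T = g`, `l(T) = 1` ⟹ `L(W - T) = ⊥`;
* (F) `exists_stable_finset` : for the standing data `S : HSetup F`, arbitrarily large finite
  `Γ`-stable sets of places avoiding a given finite set (unions of fibres of `u` over natural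
  numbers).
-/
import Mathlib
import Fermat.Agent.MW.FF.AuxPoint86
import Fermat.Agent.MW.Local.FarPlace86
import Fermat.Agent.X0.FFSum
import Fermat.Agent.X0.FFDict

set_option autoImplicit false

open AlgebraicCurve KaehlerDifferential IntermediateField

namespace Fermat.Agent.MW.FF.AuxDivisor48

open Fermat.Agent.X0.FF Fermat.Agent.RR.LSpace Fermat.Agent.RR.Duality Fermat.Agent.RR.Final
open Fermat.Agent.RR.RRMain Fermat.Agent.MW.FF.AuxPoint86

section FF

variable {K F : Type*} [Field K] [Field F] [Algebra K F] [IsAlgClosed K] [CharZero K]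
  [HasCanonicalDivisor (K := K) (F := F)] {x : F}

/-- **(D)**, inductive form. -/
theorem exists_aux_divisor_aux (hx : IsGen K x) (T : Finset (Place K F))
    (hT : 2 * genus K F - 2 < T.card) :
    ∀ (n : ℕ) (D : Divisor K F), 0 ≤ D → Divisor.degree D + n = (genus K F : ℤ) →
      Module.finrank K (riemannRochSpace (K := K) (F := F) D) = 1 →
      ∃ E₀ : Divisor K F, 0 ≤ E₀ ∧ (∀ P, E₀ P ≠ 0 → P ∈ T) ∧ Divisor.degree E₀ = n ∧
        Module.finrank K (riemannRochSpace (K := K) (F := F) (D + E₀)) = 1 := by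
  classical
  have H := Fermat.Agent.RR.LHypGen.lHyp_of_isGen hx
  intro n
  induction n with
  | zero =>
    intro D _ _ hl
    refine ⟨0, le_refl _, fun P hP => absurd rfl hP, by simp, ?_⟩
    rwa [add_zero]
  | succ n ih =>
    intro D hD hdeg hl
    have hlt : Divisor.degree D < (genus K F : ℤ) := by
      push_cast at hdeg
      omega
    obtain ⟨R, hRT, hR⟩ := exists_add_single_finrank_eq_one hx D hD hlt hl T hT
    have hD' : 0 ≤ D + Finsupp.single R 1 := by
      intro v
      have h1 := hD v
      simp only [Finsupp.coe_zero, Pi.zero_apply, Finsupp.add_apply] at h1 ⊢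
      by_cases hv : R = v
      · subst hv; rw [Finsupp.single_eq_same]; omega
      · rw [Finsupp.single_eq_of_ne (Ne.symm hv)]; omega
    have hdeg' : Divisor.degree (D + Finsupp.single R 1) + n = (genus K F : ℤ) := by
      rw [map_add, degree_single H]
      push_cast at hdeg
      omega
    obtain ⟨E₁, hE₁, hsupp, hdegE, hlE⟩ := ih (D + Finsupp.single R 1) hD' hdeg' hR
    refine ⟨Finsupp.single R 1 + E₁, ?_, ?_, ?_, ?_⟩
    · intro v
      have h1 := hE₁ v
      simp only [Finsupp.coe_zero, Pi.zero_apply, Finsupp.add_apply] at h1 ⊢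
      by_cases hv : R = v
      · subst hv; rw [Finsupp.single_eq_same]; omega
      · rw [Finsupp.single_eq_of_ne (Ne.symm hv)]; omega
    · intro P hP
      by_cases hv : R = P
      · subst hv; exact hRT
      · apply hsupp
        rw [Finsupp.add_apply, Finsupp.single_eq_of_ne (Ne.symm hv), zero_add] at hP
        exact hP
    · rw [map_add, degree_single H, hdegE]
      push_cast
      ring
    · rwa [← add_assoc]

/-- **(D)** iterated `P2`: completion of `D` to a divisor of degree `g` with `l = 1` inside a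
given set of more than `2g - 2` places. -/
theorem exists_aux_divisor (hx : IsGen K x) (D : Divisor K F) (hD : 0 ≤ D)
    (hdeg : Divisor.degree D ≤ (genus K F : ℤ))
    (hl : Module.finrank K (riemannRochSpace (K := K) (F := F) D) = 1)
    (T : Finset (Place K F)) (hT : 2 * genus K F - 2 < T.card) :
    ∃ E₀ : Divisor K F, 0 ≤ E₀ ∧ (∀ P, E₀ P ≠ 0 → P ∈ T) ∧
      Divisor.degree E₀ = (genus K F : ℤ) - Divisor.degree D ∧
      Divisor.degree (D + E₀) = (genus K F : ℤ) ∧
      Module.finrank K (riemannRochSpace (K := K) (F := F) (D + E₀)) = 1 := by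
  obtain ⟨E₀, h1, h2, h3, h4⟩ := exists_aux_divisor_aux hx T hT
    ((genus K F : ℤ) - Divisor.degree D).toNat D hD (by rw [Int.toNat_of_nonneg (by omega)]; ring) hl
  rw [Int.toNat_of_nonneg (by omega)] at h3
  exact ⟨E₀, h1, h2, h3, by rw [map_add, h3]; ring, h4⟩

/-- **(E)** Riemann-Roch: a divisor `T` of degree `g` with `l(T) = 1` has `L(W - T) = ⊥`. -/
theorem L_canonical_sub_eq_bot (hx : IsGen K x) {ω₀ : Ω[F⁄K]} (hω₀ : ω₀ ≠ 0) {W : Divisor K F}
    (hW : ∀ v : Place K F, W v = v.ordDifferential ω₀) {T : Divisor K F}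
    (hdeg : Divisor.degree T = (genus K F : ℤ))
    (hl : Module.finrank K (riemannRochSpace (K := K) (F := F) T) = 1) :
    riemannRochSpace (K := K) (F := F) (W - T) = ⊥ := by
  have H := Fermat.Agent.RR.LHypGen.lHyp_of_isGen hx
  have hrr := riemann_roch_genus hx hω₀ hW T
  rw [hl, hdeg] at hrr
  have hfin : FiniteDimensional K (riemannRochSpace (K := K) (F := F) (W - T)) :=
    finiteDimensional_L H _
  have h0 : Module.finrank K (riemannRochSpace (K := K) (F := F) (W - T)) = 0 := by
    push_cast at hrr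
    omega
  exact Submodule.finrank_eq_zero.mp h0

/-- **(E)** for the divisor of `dx`. -/
theorem L_canonicalDivisorOf_sub_eq_bot (hx : IsGen K x) {T : Divisor K F}
    (hdeg : Divisor.degree T = (genus K F : ℤ))
    (hl : Module.finrank K (riemannRochSpace (K := K) (F := F) T) = 1) :
    riemannRochSpace (K := K) (F := F) (canonicalDivisorOf (D_ne_zero hx) - T) = ⊥ :=
  L_canonical_sub_eq_bot hx (D_ne_zero hx)
    (fun v => canonicalDivisorOf_apply (K := K) (F := F) (D_ne_zero hx) v) hdeg hl

end FF

/-! ### (F) Stable finite sets of places -/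

section Block

open Fermat.Agent.MW.Spec.Bricks7b Fermat.Agent.MW.Spec.Contract7
open Fermat.Agent.MW.Local.FarPlace86

variable {F : Type} [Field F] [Algebra Qb F] [HasCanonicalDivisor (K := Qb) (F := F)]
variable (S : HSetup F)

/-- the fibre of `u` over the natural number `n`. -/
def fib (n : ℕ) : Set (Place Qb F) := {P | 0 < P.ord (S.u - algebraMap Qb F (n : Qb))}

theorem fib_finite (n : ℕ) : (fib S n).Finite := finite_fibre S.gen _

theorem fib_nonempty (n : ℕ) : (fib S n).Nonempty := exists_place_pos S.gen _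

theorem fib_disjoint {m n : ℕ} (h : m ≠ n) : Disjoint (fib S m) (fib S n) := by
  rw [Set.disjoint_left]
  intro P h1 h2
  have hd : algebraMap Qb F ((n : Qb) - (m : Qb)) ≠ 0 := by
    rw [ne_eq, map_eq_zero_iff _ (algebraMap Qb F).injective, sub_eq_zero]
    exact fun h' => h (Nat.cast_injective h').symm
  have e : (S.u - algebraMap Qb F (m : Qb)) - (S.u - algebraMap Qb F (n : Qb)) =
      algebraMap Qb F ((n : Qb) - (m : Qb)) := by
    rw [map_sub]; ring
  have h3 := ord_sub_ge P (f := S.u - algebraMap Qb F (m : Qb))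
    (g := S.u - algebraMap Qb F (n : Qb)) (by rw [e]; exact hd)
  rw [e, ord_algebraMap] at h3
  have : 0 < min (P.ord (S.u - algebraMap Qb F (m : Qb))) (P.ord (S.u - algebraMap Qb F (n : Qb))) :=
    lt_min h1 h2
  omega

theorem smul_mem_fib (σ : GQ) {n : ℕ} {P : Place Qb F} (hP : P ∈ fib S n) :
    S.γ σ • P ∈ fib S n := by
  have e : S.γ σ • (S.u - algebraMap Qb F (n : Qb)) = S.u - algebraMap Qb F (n : Qb) := by
    rw [smul_sub, S.u_fixed σ, SemilinearAut.smul_algebraMap, S.base σ, map_natCast]
  show 0 < (S.γ σ • P).ord (S.u - algebraMap Qb F (n : Qb))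
  rw [← e, SemilinearAut.ord_smul]
  exact hP

/-- **(F)** arbitrarily large finite `Γ`-stable sets of places avoiding a given finite set. -/
theorem exists_stable_finset (S₀ : Finset (Place Qb F)) (N : ℕ) :
    ∃ 𝒯 : Finset (Place Qb F), (∀ (σ : GQ) (P : Place Qb F), P ∈ 𝒯 → S.γ σ • P ∈ 𝒯) ∧
      N ≤ 𝒯.card ∧ Disjoint 𝒯 S₀ := by
  classical
  set bad : Finset ℕ := (Finset.range (N + S₀.card)).filter fun n => ∃ P ∈ S₀, P ∈ fib S n
    with hbad
  -- the bad values inject into `S₀`
  have hbadcard : bad.card ≤ S₀.card := by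
    have hex : ∀ n ∈ bad, ∃ P ∈ S₀, P ∈ fib S n := fun n hn => (Finset.mem_filter.mp hn).2
    have : Nonempty (Place Qb F) := ⟨S.inf⟩
    choose! w hw using hex
    refine Finset.card_le_card_of_injOn w (fun n hn => (hw n hn).1) ?_
    intro m hm n hn hmn
    by_contra hne
    have h1 := (hw m hm).2
    have h2 := (hw n hn).2
    rw [hmn] at h1
    exact (Set.disjoint_left.mp (fib_disjoint S hne)) h1 h2
  set good : Finset ℕ := Finset.range (N + S₀.card) \ bad with hgood
  have hgoodcard : N ≤ good.card := by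
    have hsub : bad ⊆ Finset.range (N + S₀.card) := Finset.filter_subset _ _
    rw [hgood, Finset.card_sdiff_of_subset hsub, Finset.card_range]
    omega
  refine ⟨good.biUnion fun n => (fib_finite S n).toFinset, ?_, ?_, ?_⟩
  · intro σ P hP
    rw [Finset.mem_biUnion] at hP ⊢
    obtain ⟨n, hn, hPn⟩ := hP
    refine ⟨n, hn, ?_⟩
    rw [Set.Finite.mem_toFinset] at hPn ⊢
    exact smul_mem_fib S σ hPn
  · rw [Finset.card_biUnion]
    · calc N ≤ good.card := hgoodcard
        _ = ∑ _n ∈ good, 1 := by simp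
        _ ≤ ∑ n ∈ good, (fib_finite S n).toFinset.card := by
          refine Finset.sum_le_sum fun n _ => ?_
          rw [Nat.succ_le_iff, Finset.card_pos]
          obtain ⟨P, hP⟩ := fib_nonempty S n
          exact ⟨P, (Set.Finite.mem_toFinset _).mpr hP⟩
    · intro m _ n _ hmn
      rw [Function.onFun, Finset.disjoint_left]
      intro P h1 h2
      rw [Set.Finite.mem_toFinset] at h1 h2
      exact (Set.disjoint_left.mp (fib_disjoint S hmn)) h1 h2
  · rw [Finset.disjoint_left]
    intro P hP hPS
    rw [Finset.mem_biUnion] at hP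
    obtain ⟨n, hn, hPn⟩ := hP
    rw [Set.Finite.mem_toFinset] at hPn
    rw [hgood, Finset.mem_sdiff] at hn
    exact hn.2 (Finset.mem_filter.mpr ⟨hn.1, P, hPS, hPn⟩)

/-- **(F)** a finite `Γ`-stable set of more than `2g - 2` places not containing `inf`. -/
theorem exists_stable_block :
    ∃ 𝒯 : Finset (Place Qb F), (∀ (σ : GQ) (P : Place Qb F), P ∈ 𝒯 → S.γ σ • P ∈ 𝒯) ∧
      2 * genus Qb F - 2 < 𝒯.card ∧ S.inf ∉ 𝒯 := by
  obtain ⟨𝒯, h1, h2, h3⟩ := exists_stable_finset S {S.inf} (2 * genus Qb F - 2 + 1)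
  refine ⟨𝒯, h1, by omega, ?_⟩
  intro h
  exact (Finset.disjoint_left.mp h3) h (Finset.mem_singleton_self _)

end Block

end Fermat.Agent.MW.FF.AuxDivisor48
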