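/-
Program MW-H (S17), helper86.  Package [g] HD-local, part 1: TAYLOR COEFFICIENTS AND JETS AT PLACES.

Setting: `F / K` any extension of fields, `P : Place K F` with residue field `K` (`HasResK P`,
from `EvalLead49`), `t` a uniformiser at `P`.

* `shiftAt P t f = (f - f(P)) / t`, `taylorAt P t j f` = the `j`-th Taylor coefficient of `f` at `P`
  with respect to `t` (iterated shift, then `evalAt`);
* `taylorAt_add`, `taylorAt_smul` (on functions regular at `P`);
* `taylorAt_of_le_ord` : for `f ≠ 0` with `j ≤ ord_P f`,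
  `taylorAt P t j f = if ord_P f = j then leadAt P t f else 0`;
* `le_ord_of_taylorAt_eq_zero` : if the coefficients `0, …, j - 1` vanish then `j ≤ ord_P f`;
* jets along a sequence of places `P : Fin r → Place K F` (repetitions = higher jets) for the
  functions of `L(W)`: `jetIdx`, `jetAt`, `jetDet`; `jetAt_add`, `jetAt_smul`, `jetAt_sum`;
* `ord_ge_of_jetAt_eq_zero` : if the jets `j < m` of `h ∈ L(W)` vanish then
  `ord_Q h ≥ #{j < m : P j = Q} - W Q` at every place `Q`; `jetAt_eq` : the value of the next jet is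
  the leading coefficient of `h` (or `0`).
-/
import Mathlib
import Fermat.Agent.MW.FF.EvalLead49

set_option autoImplicit false

open AlgebraicCurve

namespace Fermat.Agent.MW.FF.Jet86

open Fermat.Agent.MW.Spec.Defs7 Fermat.Agent.MW.FF.EvalLead49 Fermat.Agent.X0

variable {K F : Type*} [Field K] [Field F] [Algebra K F]

/-! ### Taylor coefficients -/

/-- The shift `(f - f(P)) / t`. -/
noncomputable def shiftAt (P : Place K F) (t f : F) : F :=
  (f - algebraMap K F (evalAt P f)) * t⁻¹

/-- The `j`-th Taylor coefficient of `f` at `P` with respect to the uniformiser `t`. -/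
noncomputable def taylorAt (P : Place K F) (t : F) : ℕ → F → K
  | 0, f => evalAt P f
  | j + 1, f => taylorAt P t j (shiftAt P t f)

@[simp] theorem taylorAt_zero (P : Place K F) (t f : F) : taylorAt P t 0 f = evalAt P f := rfl

theorem taylorAt_succ (P : Place K F) (t f : F) (j : ℕ) :
    taylorAt P t (j + 1) f = taylorAt P t j (shiftAt P t f) := rfl

section ResK

variable {P : Place K F} (hP : HasResK P) {t : F} (ht : P.ord t = 1)

include hP ht

omit hP ht in
theorem le_one_of_ord' {f : F} (hf : 0 ≤ P.ord f) : P.adicValuation f ≤ 1 :=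
  P.adicValuation_le_one_iff.mpr (Or.inr hf)

/-- The shift of a regular function is regular. -/
theorem ord_shiftAt_nonneg {f : F} (hf : 0 ≤ P.ord f) : 0 ≤ P.ord (shiftAt P t f) := by
  have ht0 := ne_zero_of_ord_eq_one ht
  unfold shiftAt
  rcases isValAt_iff.mp (evalAt_spec_of_ord hP hf) with h | h
  · rw [h, zero_mul, P.ord_zero]
  · by_cases h0 : f - algebraMap K F (evalAt P f) = 0
    · rw [h0, zero_mul, P.ord_zero]
    · rw [P.ord_mul h0 (inv_ne_zero ht0), P.ord_inv, ht]
      omega

omit ht in
theorem shiftAt_add {f g : F} (hf : 0 ≤ P.ord f) (hg : 0 ≤ P.ord g) :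
    shiftAt P t (f + g) = shiftAt P t f + shiftAt P t g := by
  unfold shiftAt
  rw [evalAt_add hP (le_one_of_ord' hf) (le_one_of_ord' hg), map_add]
  ring

omit ht in
theorem shiftAt_smul (c : K) {f : F} (hf : 0 ≤ P.ord f) :
    shiftAt P t (c • f) = c • shiftAt P t f := by
  unfold shiftAt
  rw [evalAt_smul hP c (le_one_of_ord' hf), map_mul, Algebra.smul_def, Algebra.smul_def]
  ring

omit hP ht in
theorem ord_add_nonneg {f g : F} (hf : 0 ≤ P.ord f) (hg : 0 ≤ P.ord g) : 0 ≤ P.ord (f + g) := by
  by_cases h0 : f + g = 0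
  · rw [h0, P.ord_zero]
  · exact le_trans (le_min hf hg) (FF.ord_add_ge P h0)

omit hP ht in
theorem ord_smul_nonneg (c : K) {f : F} (hf : 0 ≤ P.ord f) : 0 ≤ P.ord (c • f) := by
  rw [Algebra.smul_def]
  by_cases hc : algebraMap K F c = 0
  · rw [hc, zero_mul, P.ord_zero]
  by_cases h0 : f = 0
  · rw [h0, mul_zero, P.ord_zero]
  rw [P.ord_mul hc h0, FF.ord_algebraMap, zero_add]
  exact hf

theorem taylorAt_add (j : ℕ) : ∀ {f g : F}, 0 ≤ P.ord f → 0 ≤ P.ord g →
    taylorAt P t j (f + g) = taylorAt P t j f + taylorAt P t j g := by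
  induction j with
  | zero =>
    intro f g hf hg
    exact evalAt_add hP (le_one_of_ord' hf) (le_one_of_ord' hg)
  | succ j ih =>
    intro f g hf hg
    rw [taylorAt_succ, taylorAt_succ, taylorAt_succ, shiftAt_add hP hf hg]
    exact ih (ord_shiftAt_nonneg hP ht hf) (ord_shiftAt_nonneg hP ht hg)

theorem taylorAt_smul (j : ℕ) (c : K) : ∀ {f : F}, 0 ≤ P.ord f →
    taylorAt P t j (c • f) = c * taylorAt P t j f := by
  induction j with
  | zero =>
    intro f hf
    exact evalAt_smul hP c (le_one_of_ord' hf)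
  | succ j ih =>
    intro f hf
    rw [taylorAt_succ, taylorAt_succ, shiftAt_smul hP c hf]
    exact ih (ord_shiftAt_nonneg hP ht hf)

omit hP ht in
theorem shiftAt_zero_fun : shiftAt P t 0 = 0 := by
  unfold shiftAt
  rw [evalAt_zero, map_zero, sub_zero, zero_mul]

omit hP ht in
theorem taylorAt_zero_fun (j : ℕ) : taylorAt P t j 0 = 0 := by
  induction j with
  | zero => exact evalAt_zero P
  | succ j ih => rw [taylorAt_succ, shiftAt_zero_fun]; exact ih

/-- **Taylor coefficients below the order vanish, the next one is the leading coefficient.** -/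
theorem taylorAt_of_le_ord (j : ℕ) : ∀ {f : F}, f ≠ 0 → (j : ℤ) ≤ P.ord f →
    taylorAt P t j f = if P.ord f = j then leadAt P t f else 0 := by
  have ht0 := ne_zero_of_ord_eq_one ht
  induction j with
  | zero =>
    intro f hf hj
    rw [taylorAt_zero]
    by_cases h0 : P.ord f = 0
    · rw [if_pos (by exact_mod_cast h0), leadAt_of_ord_eq_zero h0]
    · rw [if_neg (by exact_mod_cast h0)]
      have hpos : 0 < P.ord f := lt_of_le_of_ne (by exact_mod_cast hj) (Ne.symm h0)
      exact (evalAt_eq_zero_iff_ord hP (le_one_of_ord' hpos.le)).mpr (Or.inr hpos)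
  | succ j ih =>
    intro f hf hj
    have hpos : 0 < P.ord f := by
      push_cast at hj
      omega
    have hev : evalAt P f = 0 :=
      (evalAt_eq_zero_iff_ord hP (le_one_of_ord' hpos.le)).mpr (Or.inr hpos)
    have hshift : shiftAt P t f = f * t⁻¹ := by
      unfold shiftAt
      rw [hev, map_zero, sub_zero]
    have hne : f * t⁻¹ ≠ 0 := mul_ne_zero hf (inv_ne_zero ht0)
    have hord : P.ord (f * t⁻¹) = P.ord f - 1 := by
      rw [P.ord_mul hf (inv_ne_zero ht0), P.ord_inv, ht]
      ring
    rw [taylorAt_succ, hshift, ih hne (by rw [hord]; push_cast at hj; omega), hord]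
    have hlead : leadAt P t (f * t⁻¹) = leadAt P t f := by
      rw [leadAt_mul hP ht hf (inv_ne_zero ht0), leadAt_inv hP ht ht0, leadAt_self ht, inv_one,
        mul_one]
    rw [hlead]
    by_cases h1 : P.ord f = ((j + 1 : ℕ) : ℤ)
    · rw [if_pos h1, if_pos (by rw [h1]; push_cast; ring)]
    · rw [if_neg h1, if_neg (by
        intro h2
        apply h1
        push_cast
        omega)]

theorem taylorAt_eq_zero_of_lt_ord {j : ℕ} {f : F} (hf : f ≠ 0) (hj : (j : ℤ) < P.ord f) :
    taylorAt P t j f = 0 := by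
  rw [taylorAt_of_le_ord hP ht j hf hj.le, if_neg (ne_of_gt hj)]

theorem taylorAt_eq_leadAt {j : ℕ} {f : F} (hf : f ≠ 0) (hj : P.ord f = j) :
    taylorAt P t j f = leadAt P t f := by
  rw [taylorAt_of_le_ord hP ht j hf hj.ge, if_pos hj]

/-- If the Taylor coefficients `0, …, j - 1` of a regular function vanish, it has order `≥ j`. -/
theorem le_ord_of_taylorAt_eq_zero {f : F} (hf : f ≠ 0) (hreg : 0 ≤ P.ord f) (j : ℕ)
    (h : ∀ i < j, taylorAt P t i f = 0) : (j : ℤ) ≤ P.ord f := by
  induction j with
  | zero => simpa using hreg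
  | succ j ih =>
    have hj := ih fun i hi => h i (Nat.lt_succ_of_lt hi)
    have h1 := taylorAt_of_le_ord hP ht j hf hj
    rw [h j (Nat.lt_succ_self j)] at h1
    have hne : P.ord f ≠ j := by
      intro he
      rw [if_pos he] at h1
      exact leadAt_ne_zero hP ht hf h1.symm
    push_cast
    omega

end ResK

/-! ### Jets along a sequence of places -/

/-- The number of occurrences of `Q` among the first `m` terms of the sequence `P`. -/
noncomputable def cntBefore {r : ℕ} (P : Fin r → Place K F) (m : ℕ) (Q : Place K F) : ℕ := by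
  classical
  exact (Finset.univ.filter fun j : Fin r => (j : ℕ) < m ∧ P j = Q).card

/-- The number of earlier occurrences of `P k` in the sequence `P`. -/
noncomputable def jetIdx {r : ℕ} (P : Fin r → Place K F) (k : Fin r) : ℕ :=
  cntBefore P (k : ℕ) (P k)

/-- The `k`-th jet functional of the sequence `P` on `L(W)`: the Taylor coefficient of index
`jetIdx P k` at `P k` of the regularised function `h · t ^ W(P k)`. -/
noncomputable def jetAt (W : Divisor K F) (t : Place K F → F) {r : ℕ} (P : Fin r → Place K F)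
    (k : Fin r) (h : F) : K :=
  taylorAt (P k) (t (P k)) (jetIdx P k) (h * t (P k) ^ (W (P k)))

/-- The jet determinant of a family of functions along a sequence of places. -/
noncomputable def jetDet (W : Divisor K F) (t : Place K F → F) {r : ℕ} (ω : Fin r → F)
    (P : Fin r → Place K F) : K :=
  Matrix.det (Matrix.of fun i k => jetAt W t P k (ω i))

theorem cntBefore_zero {r : ℕ} (P : Fin r → Place K F) (Q : Place K F) : cntBefore P 0 Q = 0 := by
  classical
  unfold cntBefore
  simp

open Classical in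
theorem cntBefore_succ {r : ℕ} (P : Fin r → Place K F) (m : ℕ) (hm : m < r) (Q : Place K F) :
    cntBefore P (m + 1) Q = cntBefore P m Q + if P ⟨m, hm⟩ = Q then 1 else 0 := by
  unfold cntBefore
  have hsplit : (Finset.univ.filter fun j : Fin r => (j : ℕ) < m + 1 ∧ P j = Q) =
      (Finset.univ.filter fun j : Fin r => (j : ℕ) < m ∧ P j = Q) ∪
        (if P ⟨m, hm⟩ = Q then {⟨m, hm⟩} else ∅) := by
    ext j
    simp only [Finset.mem_filter, Finset.mem_univ, true_and, Finset.mem_union]
    constructor
    · rintro ⟨hj, hQ⟩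
      rcases Nat.lt_succ_iff_lt_or_eq.mp hj with hlt | heq
      · exact Or.inl ⟨hlt, hQ⟩
      · right
        have : j = ⟨m, hm⟩ := Fin.ext heq
        subst this
        rw [if_pos hQ]
        exact Finset.mem_singleton_self _
    · rintro (⟨hj, hQ⟩ | hj)
      · exact ⟨Nat.lt_succ_of_lt hj, hQ⟩
      · split_ifs at hj with hPQ
        · rw [Finset.mem_singleton] at hj
          subst hj
          exact ⟨Nat.lt_succ_self _, hPQ⟩
        · simp at hj
  rw [hsplit, Finset.card_union_of_disjoint]
  · split_ifs <;> simp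
  · rw [Finset.disjoint_left]
    intro j hj hj'
    split_ifs at hj' with hPQ
    · rw [Finset.mem_singleton] at hj'
      subst hj'
      simp at hj
    · simp at hj'

section Jets

/-- The regularised function of `h ∈ L(W)` at a place is regular. -/
theorem ord_regularised_nonneg {t : Place K F → F} (ht : ∀ P : Place K F, P.ord (t P) = 1)
    {W : Divisor K F} {h : F} (hh : h ∈ riemannRochSpace (K := K) (F := F) W)
    (Q : Place K F) : 0 ≤ Q.ord (h * t Q ^ (W Q)) := by
  by_cases h0 : h = 0
  · rw [h0, zero_mul, Q.ord_zero]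
  have ht0 := ne_zero_of_ord_eq_one (ht Q)
  rw [Q.ord_mul h0 (zpow_ne_zero _ ht0), Q.ord_zpow, ht Q, mul_one]
  rcases (mem_riemannRochSpace_iff.mp hh) Q with h1 | h1
  · exact absurd h1 h0
  · omega

variable (hres : ∀ P : Place K F, HasResK P) {t : Place K F → F}
  (ht : ∀ P : Place K F, P.ord (t P) = 1) {W : Divisor K F}

include hres ht

theorem jetAt_add {r : ℕ} (P : Fin r → Place K F) (k : Fin r) {h h' : F}
    (hh : h ∈ riemannRochSpace (K := K) (F := F) W)
    (hh' : h' ∈ riemannRochSpace (K := K) (F := F) W) :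
    jetAt W t P k (h + h') = jetAt W t P k h + jetAt W t P k h' := by
  unfold jetAt
  rw [add_mul]
  exact taylorAt_add (hres (P k)) (ht (P k)) _ (ord_regularised_nonneg ht hh (P k))
    (ord_regularised_nonneg ht hh' (P k))

theorem jetAt_smul {r : ℕ} (P : Fin r → Place K F) (k : Fin r) (c : K) {h : F}
    (hh : h ∈ riemannRochSpace (K := K) (F := F) W) :
    jetAt W t P k (c • h) = c * jetAt W t P k h := by
  unfold jetAt
  rw [smul_mul_assoc]
  exact taylorAt_smul (hres (P k)) (ht (P k)) _ c (ord_regularised_nonneg ht hh (P k))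

omit hres ht in
theorem jetAt_zero_fun {r : ℕ} (P : Fin r → Place K F) (k : Fin r) : jetAt W t P k 0 = 0 := by
  unfold jetAt
  rw [zero_mul]
  exact taylorAt_zero_fun _

theorem jetAt_sum {r : ℕ} (P : Fin r → Place K F) (k : Fin r) {ι : Type*} (s : Finset ι)
    (c : ι → K) (ω : ι → F) (hω : ∀ i ∈ s, ω i ∈ riemannRochSpace (K := K) (F := F) W) :
    jetAt W t P k (∑ i ∈ s, c i • ω i) = ∑ i ∈ s, c i * jetAt W t P k (ω i) := by
  classical
  induction s using Finset.induction_on with
  | empty => simpa using jetAt_zero_fun (W := W) (t := t) P k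
  | insert a s ha ih =>
    rw [Finset.sum_insert ha, Finset.sum_insert ha]
    have h1 : c a • ω a ∈ riemannRochSpace (K := K) (F := F) W :=
      Submodule.smul_mem _ _ (hω a (Finset.mem_insert_self a s))
    have h2 : ∑ i ∈ s, c i • ω i ∈ riemannRochSpace (K := K) (F := F) W :=
      Submodule.sum_mem _ fun i hi =>
        Submodule.smul_mem _ _ (hω i (Finset.mem_insert_of_mem hi))
    rw [jetAt_add hres ht P k h1 h2, jetAt_smul hres ht P k (c a)
      (hω a (Finset.mem_insert_self a s)), ih fun i hi => hω i (Finset.mem_insert_of_mem hi)]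

/-- **Vanishing jets bound the orders from below.** -/
theorem ord_ge_of_jetAt_eq_zero {r : ℕ} (P : Fin r → Place K F) {h : F} (h0 : h ≠ 0)
    (hh : h ∈ riemannRochSpace (K := K) (F := F) W) (m : ℕ) (hm : m ≤ r)
    (hjets : ∀ j : Fin r, (j : ℕ) < m → jetAt W t P j h = 0) (Q : Place K F) :
    (cntBefore P m Q : ℤ) - W Q ≤ Q.ord h := by
  induction m with
  | zero =>
    rw [cntBefore_zero]
    rcases (mem_riemannRochSpace_iff.mp hh) Q with h1 | h1
    · exact absurd h1 h0
    · push_cast
      omega
  | succ m ih =>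
    have hmr : m < r := hm
    have hIH := ih hmr.le fun j hj => hjets j (Nat.lt_succ_of_lt hj)
    rw [cntBefore_succ P m hmr Q]
    by_cases hPQ : P ⟨m, hmr⟩ = Q
    · rw [if_pos hPQ]
      have hjet := hjets ⟨m, hmr⟩ (Nat.lt_succ_self m)
      unfold jetAt jetIdx at hjet
      rw [hPQ] at hjet
      simp only at hjet
      have ht0 := ne_zero_of_ord_eq_one (ht Q)
      have hfne : h * t Q ^ (W Q) ≠ 0 := mul_ne_zero h0 (zpow_ne_zero _ ht0)
      have hford : Q.ord (h * t Q ^ (W Q)) = Q.ord h + W Q := by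
        rw [Q.ord_mul h0 (zpow_ne_zero _ ht0), Q.ord_zpow, ht Q, mul_one]
      have hle : (cntBefore P m Q : ℤ) ≤ Q.ord (h * t Q ^ (W Q)) := by
        rw [hford]; omega
      have h1 := taylorAt_of_le_ord (hres Q) (ht Q) (cntBefore P m Q) hfne hle
      rw [hjet] at h1
      have hne : Q.ord (h * t Q ^ (W Q)) ≠ (cntBefore P m Q : ℤ) := by
        intro he
        rw [if_pos he] at h1
        exact leadAt_ne_zero (hres Q) (ht Q) hfne h1.symm
      rw [hford] at hne hle
      push_cast
      omega
    · rw [if_neg hPQ, add_zero]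
      exact hIH

/-- **The value of the next jet**: if the jets `j < k` of `h ∈ L(W)` vanish, then the `k`-th jet is
the leading coefficient of `h` at `P k` if `ord h = jetIdx - W` there, and `0` otherwise. -/
theorem jetAt_eq {r : ℕ} (P : Fin r → Place K F) {h : F} (h0 : h ≠ 0)
    (hh : h ∈ riemannRochSpace (K := K) (F := F) W) (k : Fin r)
    (hjets : ∀ j : Fin r, j < k → jetAt W t P j h = 0) :
    jetAt W t P k h =
      if (P k).ord h = (jetIdx P k : ℤ) - W (P k) then leadAt (P k) (t (P k)) h else 0 := by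
  have hge := ord_ge_of_jetAt_eq_zero hres ht P h0 hh (k : ℕ) k.2.le
    (fun j hj => hjets j (Fin.lt_def.mpr hj)) (P k)
  set Q := P k with hQ
  have ht0 := ne_zero_of_ord_eq_one (ht Q)
  have hfne : h * t Q ^ (W Q) ≠ 0 := mul_ne_zero h0 (zpow_ne_zero _ ht0)
  have hford : Q.ord (h * t Q ^ (W Q)) = Q.ord h + W Q := by
    rw [Q.ord_mul h0 (zpow_ne_zero _ ht0), Q.ord_zpow, ht Q, mul_one]
  have hle : (jetIdx P k : ℤ) ≤ Q.ord (h * t Q ^ (W Q)) := by
    rw [hford]
    unfold jetIdx
    rw [← hQ]
    omega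
  unfold jetAt
  rw [← hQ, taylorAt_of_le_ord (hres Q) (ht Q) (jetIdx P k) hfne hle, hford]
  have hlead : leadAt Q (t Q) (h * t Q ^ (W Q)) = leadAt Q (t Q) h := by
    rw [leadAt_mul (hres Q) (ht Q) h0 (zpow_ne_zero _ ht0), leadAt_zpow (hres Q) (ht Q) ht0,
      leadAt_self (ht Q), one_zpow, mul_one]
  rw [hlead]
  by_cases h1 : Q.ord h = (jetIdx P k : ℤ) - W Q
  · rw [if_pos h1, if_pos (by omega)]
  · rw [if_neg h1, if_neg (by omega)]

end Jets

end Fermat.Agent.MW.FF.Jet86
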