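/-
Program MW-H (S17), brick [g] HD-local (helper82), part 1: TAYLOR COEFFICIENTS AT A PLACE.

Setting: `F / K` any extension of fields, `P : Place K F` with residue field `K` (`HasResK P`),
`t` a uniformiser at `P`.

* `remAt P t f = (f - f(P)) / t`, `taylorAt P t j f` = the `j`-th Taylor coefficient of `f` at `P`
  with respect to `t` (junk if `f` is not regular at `P`);
* linearity on functions regular at `P` : `taylorAt_add`, `taylorAt_smul`, `taylorAt_sum`;
* `taylorAt_of_le_ord` : if `ord_P f ≥ j` the coefficients of index `< j` vanish and the `j`-th one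
  is the value of `f / t ^ j`; `taylorAt_eq_leadAt` (`ord_P f = j`), `taylorAt_eq_zero_of_lt`;
* `ord_ge_of_taylorAt_eq_zero` : conversely, a regular function whose coefficients of index `< j`
  vanish has order `≥ j`.
-/
import Mathlib
import Fermat.Agent.MW.FF.EvalLead49

set_option autoImplicit false

open AlgebraicCurve

namespace Fermat.Agent.MW.FF.Taylor82

open Fermat.Agent.MW.Spec.Defs7 Fermat.Agent.MW.FF.EvalLead49 Fermat.Agent.X0

variable {K F : Type*} [Field K] [Field F] [Algebra K F]

/-- The remainder `(f - f(P)) / t`. -/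
noncomputable def remAt (P : Place K F) (t f : F) : F :=
  (f - algebraMap K F (evalAt P f)) * t⁻¹

/-- The `j`-th Taylor coefficient of `f` at `P` with respect to `t`. -/
noncomputable def taylorAt (P : Place K F) (t : F) : ℕ → F → K
  | 0, f => evalAt P f
  | j + 1, f => taylorAt P t j (remAt P t f)

variable {P : Place K F} {t f g : F}

@[simp] theorem taylorAt_zero_idx : taylorAt P t 0 f = evalAt P f := rfl

theorem taylorAt_succ (j : ℕ) : taylorAt P t (j + 1) f = taylorAt P t j (remAt P t f) := rfl

@[simp] theorem remAt_zero : remAt P t (0 : F) = 0 := by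
  simp [remAt]

@[simp] theorem taylorAt_zero_fun (j : ℕ) : taylorAt P t j (0 : F) = 0 := by
  induction j with
  | zero => simp
  | succ j ih => rw [taylorAt_succ, remAt_zero, ih]

section ResK

variable (hP : HasResK P)

include hP

/-- the remainder of a regular function is regular. -/
theorem reg_remAt (ht : P.ord t = 1) (hf : P.adicValuation f ≤ 1) :
    P.adicValuation (remAt P t f) ≤ 1 := by
  have ht0 := ne_zero_of_ord_eq_one ht
  rw [P.adicValuation_le_one_iff]
  by_cases h0 : f - algebraMap K F (evalAt P f) = 0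
  · left; rw [remAt, h0, zero_mul]
  right
  have h1 := isValAt_iff.mp (evalAt_spec hP hf)
  rcases h1 with h1 | h1
  · exact absurd h1 h0
  rw [remAt, P.ord_mul h0 (inv_ne_zero ht0), P.ord_inv, ht]
  omega

theorem remAt_add (hf : P.adicValuation f ≤ 1) (hg : P.adicValuation g ≤ 1) :
    remAt P t (f + g) = remAt P t f + remAt P t g := by
  rw [remAt, remAt, remAt, evalAt_add hP hf hg, map_add]
  ring

theorem remAt_smul (c : K) (hf : P.adicValuation f ≤ 1) :
    remAt P t (c • f) = c • remAt P t f := by
  rw [remAt, remAt, evalAt_smul hP c hf, map_mul, Algebra.smul_def, Algebra.smul_def]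
  ring

omit hP in
theorem reg_add (hf : P.adicValuation f ≤ 1) (hg : P.adicValuation g ≤ 1) :
    P.adicValuation (f + g) ≤ 1 :=
  (P.adicValuation.map_add f g).trans (max_le hf hg)

omit hP in
theorem reg_smul (c : K) (hf : P.adicValuation f ≤ 1) : P.adicValuation (c • f) ≤ 1 := by
  rw [Algebra.smul_def, map_mul]
  exact (mul_le_of_le_one_left' (P.adicValuation_algebraMap_le_one c)).trans hf

theorem taylorAt_add (ht : P.ord t = 1) (j : ℕ) :
    ∀ {f g : F}, P.adicValuation f ≤ 1 → P.adicValuation g ≤ 1 →
      taylorAt P t j (f + g) = taylorAt P t j f + taylorAt P t j g := by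
  induction j with
  | zero => intro f g hf hg; exact evalAt_add hP hf hg
  | succ j ih =>
    intro f g hf hg
    rw [taylorAt_succ, taylorAt_succ, taylorAt_succ, remAt_add hP hf hg]
    exact ih (reg_remAt hP ht hf) (reg_remAt hP ht hg)

theorem taylorAt_smul (ht : P.ord t = 1) (j : ℕ) (c : K) :
    ∀ {f : F}, P.adicValuation f ≤ 1 → taylorAt P t j (c • f) = c * taylorAt P t j f := by
  induction j with
  | zero => intro f hf; exact evalAt_smul hP c hf
  | succ j ih =>
    intro f hf
    rw [taylorAt_succ, taylorAt_succ, remAt_smul hP c hf]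
    exact ih (reg_remAt hP ht hf)

omit hP in
theorem reg_sum {ι : Type*} (s : Finset ι) (φ : ι → F) (hφ : ∀ b ∈ s, P.adicValuation (φ b) ≤ 1) :
    P.adicValuation (∑ b ∈ s, φ b) ≤ 1 := by
  classical
  induction s using Finset.induction_on with
  | empty => simp
  | insert a s ha ih =>
    rw [Finset.sum_insert ha]
    exact (P.adicValuation.map_add _ _).trans
      (max_le (hφ a (Finset.mem_insert_self a s))
        (ih fun b hb => hφ b (Finset.mem_insert_of_mem hb)))

theorem taylorAt_sum (ht : P.ord t = 1) (j : ℕ) {ι : Type*} (s : Finset ι) (φ : ι → F)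
    (hφ : ∀ b ∈ s, P.adicValuation (φ b) ≤ 1) :
    taylorAt P t j (∑ b ∈ s, φ b) = ∑ b ∈ s, taylorAt P t j (φ b) := by
  classical
  induction s using Finset.induction_on with
  | empty => simp
  | insert a s ha ih =>
    rw [Finset.sum_insert ha, Finset.sum_insert ha,
      taylorAt_add hP ht j (hφ a (Finset.mem_insert_self a s))
        (reg_sum s φ fun b hb => hφ b (Finset.mem_insert_of_mem hb)),
      ih fun b hb => hφ b (Finset.mem_insert_of_mem hb)]

/-- linear combinations: `∑ s_b · (j-th coefficient of φ_b) = j-th coefficient of ∑ s_b φ_b`. -/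
theorem sum_mul_taylorAt (ht : P.ord t = 1) (j : ℕ) {ι : Type*} [Fintype ι] (s : ι → K)
    (φ : ι → F) (hφ : ∀ b, P.adicValuation (φ b) ≤ 1) :
    ∑ b, s b * taylorAt P t j (φ b) = taylorAt P t j (∑ b, s b • φ b) := by
  rw [taylorAt_sum hP ht j Finset.univ (fun b => s b • φ b) fun b _ => reg_smul (s b) (hφ b)]
  exact Finset.sum_congr rfl fun b _ => (taylorAt_smul hP ht j (s b) (hφ b)).symm

omit hP in
theorem remAt_of_ord_pos (hf : f = 0 ∨ 0 < P.ord f) : remAt P t f = f * t⁻¹ := by
  have : evalAt P f = 0 := (isValAt_zero_iff_ord.mpr hf).evalAt_eq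
  rw [remAt, this, map_zero, sub_zero]

omit hP in
/-- if `ord_P f ≥ j`, the Taylor coefficients of index `< j` vanish and the `j`-th one is the value
of `f / t ^ j`. -/
theorem taylorAt_of_le_ord (ht : P.ord t = 1) (j : ℕ) :
    ∀ {f : F}, (f = 0 ∨ (j : ℤ) ≤ P.ord f) →
      (∀ i < j, taylorAt P t i f = 0) ∧ taylorAt P t j f = evalAt P (f * t ^ (-(j : ℤ))) := by
  have ht0 := ne_zero_of_ord_eq_one ht
  induction j with
  | zero =>
    intro f _
    refine ⟨fun i hi => absurd hi (Nat.not_lt_zero i), ?_⟩
    simp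
  | succ j ih =>
    intro f hf
    have hpos : f = 0 ∨ 0 < P.ord f := by
      rcases hf with hf | hf
      · exact Or.inl hf
      · right; push_cast at hf; omega
    have hrem : remAt P t f = f * t⁻¹ := remAt_of_ord_pos hpos
    have hord : f * t⁻¹ = 0 ∨ (j : ℤ) ≤ P.ord (f * t⁻¹) := by
      rcases hf with hf | hf
      · left; rw [hf, zero_mul]
      · by_cases h0 : f = 0
        · left; rw [h0, zero_mul]
        right
        rw [P.ord_mul h0 (inv_ne_zero ht0), P.ord_inv, ht]
        push_cast at hf; omega
    obtain ⟨h1, h2⟩ := ih hord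
    refine ⟨?_, ?_⟩
    · intro i hi
      rcases i with _ | i
      · exact (isValAt_zero_iff_ord.mpr hpos).evalAt_eq
      · rw [taylorAt_succ, hrem]
        exact h1 i (by omega)
    · rw [taylorAt_succ, hrem, h2]
      congr 1
      rw [mul_assoc]
      congr 1
      rw [← zpow_neg_one, ← zpow_add₀ ht0]
      congr 1
      push_cast; ring

omit hP in
theorem taylorAt_eq_leadAt (ht : P.ord t = 1) {j : ℕ} (h : P.ord f = j) :
    taylorAt P t j f = leadAt P t f := by
  rw [(taylorAt_of_le_ord ht j (Or.inr h.ge)).2, leadAt, h]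

omit hP in
theorem taylorAt_eq_zero_of_lt (ht : P.ord t = 1) {j : ℕ} (h : f = 0 ∨ (j : ℤ) < P.ord f) :
    taylorAt P t j f = 0 := by
  have h' : f = 0 ∨ ((j + 1 : ℕ) : ℤ) ≤ P.ord f := by
    rcases h with h | h
    · exact Or.inl h
    · right; push_cast; omega
  exact (taylorAt_of_le_ord ht (j + 1) h').1 j (Nat.lt_succ_self j)

/-- a regular function whose Taylor coefficients of index `< j` vanish has order `≥ j`. -/
theorem ord_ge_of_taylorAt_eq_zero (ht : P.ord t = 1) (j : ℕ) :
    ∀ {f : F}, P.adicValuation f ≤ 1 → (∀ i < j, taylorAt P t i f = 0) →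
      f = 0 ∨ (j : ℤ) ≤ P.ord f := by
  have ht0 := ne_zero_of_ord_eq_one ht
  induction j with
  | zero =>
    intro f hf _
    simpa using P.adicValuation_le_one_iff.mp hf
  | succ j ih =>
    intro f hf h
    have h0 : evalAt P f = 0 := h 0 (Nat.succ_pos j)
    have hpos : f = 0 ∨ 0 < P.ord f := (evalAt_eq_zero_iff_ord hP hf).mp h0
    have hrem : remAt P t f = f * t⁻¹ := remAt_of_ord_pos hpos
    have h' : ∀ i < j, taylorAt P t i (f * t⁻¹) = 0 := by
      intro i hi
      have := h (i + 1) (by omega)
      rwa [taylorAt_succ, hrem] at this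
    have hreg : P.adicValuation (f * t⁻¹) ≤ 1 := by
      rw [← hrem]; exact reg_remAt hP ht hf
    rcases ih hreg h' with h1 | h1
    · left
      rcases mul_eq_zero.mp h1 with h1 | h1
      · exact h1
      · exact absurd h1 (inv_ne_zero ht0)
    · by_cases hf0 : f = 0
      · exact Or.inl hf0
      right
      rw [P.ord_mul hf0 (inv_ne_zero ht0), P.ord_inv, ht] at h1
      push_cast; omega

end ResK

end Fermat.Agent.MW.FF.Taylor82
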