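/-
Program MW-H (S17), HD-local (helper82): BRIDGE between the two (identical) sets of definitions of
Taylor coefficients / jet functionals: `FF/Jet86` (helper86, used by the frozen contract
`JetHadamard86.jetHadamard`) and `FF/Taylor82` + `Local/JetHadamard82` (helper82).
-/
import Mathlib
import Fermat.Agent.MW.FF.Jet86
import Fermat.Agent.MW.Local.JetHadamard82

set_option autoImplicit false

open AlgebraicCurve Finset

namespace Fermat.Agent.MW.FF.JetBridge82

open Fermat.Agent.MW.Spec.Defs7 Fermat.Agent.MW.FF.EvalLead49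

open scoped Classical

variable {K F : Type*} [Field K] [Field F] [Algebra K F]

theorem taylorAt_eq (P : Place K F) (t : F) (j : ℕ) :
    ∀ f : F, Jet86.taylorAt P t j f = Taylor82.taylorAt P t j f := by
  induction j with
  | zero => intro f; rfl
  | succ j ih =>
    intro f
    rw [Jet86.taylorAt_succ, Taylor82.taylorAt_succ]
    exact ih _

theorem cntBefore_eq {r : ℕ} (pt : Fin r → Place K F) (k : Fin r) (Q : Place K F) :
    Jet86.cntBefore pt (k : ℕ) Q = Fermat.Agent.MW.Local.JetHadamard82.cntBefore pt k Q := by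
  unfold Jet86.cntBefore Fermat.Agent.MW.Local.JetHadamard82.cntBefore
  congr 1

theorem jetIdx_eq {r : ℕ} (pt : Fin r → Place K F) (k : Fin r) :
    Jet86.jetIdx pt k = Fermat.Agent.MW.Local.JetHadamard82.jetIdx pt k :=
  cntBefore_eq pt k (pt k)

theorem jetAt_eq_jetFun {ι : Type*} (W : Divisor K F) (t : Place K F → F) (ω : ι → F) {r : ℕ}
    (pt : Fin r → Place K F) (k : Fin r) (b : ι) :
    Jet86.jetAt W t pt k (ω b) = Fermat.Agent.MW.Local.JetHadamard82.jetFun t W ω pt k b := by
  unfold Jet86.jetAt Fermat.Agent.MW.Local.JetHadamard82.jetFun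
    Fermat.Agent.MW.Local.JetHadamard82.regAt
  rw [taylorAt_eq, jetIdx_eq]

theorem jetDet_eq (W : Divisor K F) (t : Place K F → F) {r : ℕ} (ω : Fin r → F)
    (pt : Fin r → Place K F) :
    Jet86.jetDet W t ω pt =
      Matrix.det (Matrix.of fun i k => Fermat.Agent.MW.Local.JetHadamard82.jetFun t W ω pt k i) := by
  unfold Jet86.jetDet
  congr 1
  ext i k
  exact jetAt_eq_jetFun W t ω pt k i

end Fermat.Agent.MW.FF.JetBridge82
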