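/-
Program MW-H (S17), helper48.  Function-field companions of the jet-Hadamard inequality
(`Local/JetHadamard82`), for HD-global:

* (A) `jetFun_smul_aut`, `det_jet_smul_aut` : the jet functionals and the jet determinant are
  equivariant under semilinear automorphisms (equivariant uniformisers, stable `W`, fixed `ω`);
* (B) `jetDet_ne_zero_iff` : for a basis `ω` of `L(W)` the jet determinant at the points
  `pt 0, …, pt (r-1)` is nonzero iff `L(W - ∑ pt k) = ⊥`;
* (C) `jetDet_sq_congr` : the square of the jet determinant depends only on the divisor `∑ pt k`.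
-/
import Mathlib
import Fermat.Agent.MW.Local.JetHadamard82

set_option autoImplicit false
set_option linter.unusedSectionVars false

open AlgebraicCurve Finset

namespace Fermat.Agent.MW.FF.JetDet48

open Fermat.Agent.MW.Spec.Defs7 Fermat.Agent.MW.FF.EvalLead49 Fermat.Agent.MW.FF.Taylor82
open Fermat.Agent.MW.Local.JetHadamard82 Fermat.Agent.X0

/-! ### Combinatorics of jet indices -/

section Jet

variable {r : ℕ} {α : Type*} [DecidableEq α] (pt : Fin r → α)

/-- the number of occurrences of `a` in the sequence. -/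
def cntAll (a : α) : ℕ := (univ.filter fun j : Fin r => pt j = a).card

theorem jetIdx_lt_cntAll (k : Fin r) : jetIdx pt k < cntAll pt (pt k) := by
  unfold jetIdx cntBefore cntAll
  refine card_lt_card ⟨fun i hi => ?_, fun h => ?_⟩
  · rw [mem_filter] at hi ⊢
    exact ⟨hi.1, hi.2.2⟩
  · have : k ∈ univ.filter fun i : Fin r => i < k ∧ pt i = pt k :=
      h (mem_filter.mpr ⟨mem_univ _, rfl⟩)
    exact lt_irrefl _ (mem_filter.mp this).2.1

theorem jetIdx_inj {j k : Fin r} (hpt : pt j = pt k) (hidx : jetIdx pt j = jetIdx pt k) :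
    j = k := by
  by_contra hne
  rcases lt_or_gt_of_ne hne with h | h
  · have h1 := cntBefore_lt pt h
    have h2 : cntBefore pt k (pt j) = jetIdx pt k := by rw [jetIdx, hpt]
    rw [h2] at h1
    have h3 : cntBefore pt j (pt j) = jetIdx pt j := rfl
    omega
  · have h1 := cntBefore_lt pt h
    have h2 : cntBefore pt j (pt k) = jetIdx pt j := by rw [jetIdx, hpt]
    rw [h2] at h1
    have h3 : cntBefore pt k (pt k) = jetIdx pt k := rfl
    omega

/-- every jet index below the total multiplicity is attained. -/
theorem exists_jetIdx_eq_total (a : α) {i : ℕ} (hi : i < cntAll pt a) :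
    ∃ j : Fin r, pt j = a ∧ jetIdx pt j = i := by
  set S := univ.filter fun j : Fin r => pt j = a with hS
  have hcard : S.card = cntAll pt a := rfl
  have hmaps : ∀ j ∈ S, jetIdx pt j ∈ range (cntAll pt a) := by
    intro j hj
    rw [mem_filter] at hj
    rw [mem_range, ← hj.2]
    exact jetIdx_lt_cntAll pt j
  have hinj : Set.InjOn (jetIdx pt) S := by
    intro j hj j' hj' hjj'
    rw [mem_coe, mem_filter] at hj hj'
    exact jetIdx_inj pt (hj.2.trans hj'.2.symm) hjj'
  have himg : S.image (jetIdx pt) = range (cntAll pt a) := by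
    apply eq_of_subset_of_card_le
    · intro x hx
      obtain ⟨j, hj, rfl⟩ := mem_image.mp hx
      exact hmaps j hj
    · rw [card_image_of_injOn hinj, card_range, hcard]
  have : i ∈ S.image (jetIdx pt) := by rw [himg, mem_range]; exact hi
  obtain ⟨j, hj, hji⟩ := mem_image.mp this
  rw [mem_filter] at hj
  exact ⟨j, hj.2, hji⟩

/-- the jet indices are invariant under an injective relabelling of the points. -/
theorem jetIdx_comp {β : Type*} [DecidableEq β] (φ : α → β) (hφ : Function.Injective φ)
    (k : Fin r) : jetIdx (fun j => φ (pt j)) k = jetIdx pt k := by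
  unfold jetIdx cntBefore
  congr 1
  ext j
  simp only [mem_filter, mem_univ, true_and, hφ.eq_iff]

end Jet

open scoped Classical

noncomputable section

variable {K F : Type*} [Field K] [Field F] [Algebra K F]

/-! ### (A) Equivariance -/

section Equivariant

open SemilinearAut

variable (g : SemilinearAut K F)

theorem remAt_smul_aut (P : Place K F) (t f : F) :
    remAt (g • P) (g • t) (g • f) = g • remAt P t f := by
  unfold remAt
  rw [evalAt_smul_aut, ← SemilinearAut.smul_algebraMap, ← smul_sub, smul_mul', smul_inv'']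

/-- **Taylor coefficients are equivariant.** -/
theorem taylorAt_smul_aut (P : Place K F) (t : F) (j : ℕ) :
    ∀ f : F, taylorAt (g • P) (g • t) j (g • f) = baseAut g (taylorAt P t j f) := by
  induction j with
  | zero => intro f; exact evalAt_smul_aut g P f
  | succ j ih =>
    intro f
    rw [taylorAt_succ, taylorAt_succ, remAt_smul_aut, ih]

variable {ι : Type*} [Fintype ι] {t : Place K F → F} {W : Divisor K F} {ω : ι → F}

theorem regAt_smul_aut (htg : ∀ P : Place K F, t (g • P) = g • t P)
    (hW : ∀ P : Place K F, W (g • P) = W P) (P : Place K F) (f : F) :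
    regAt t W (g • P) (g • f) = g • regAt t W P f := by
  unfold regAt
  rw [htg, hW, smul_mul', smul_zpow_aut]

/-- **(A)** the jet functionals are equivariant. -/
theorem jetFun_smul_aut (htg : ∀ P : Place K F, t (g • P) = g • t P)
    (hW : ∀ P : Place K F, W (g • P) = W P) (hω : ∀ b, g • ω b = ω b) {r : ℕ}
    (pt : Fin r → Place K F) (k : Fin r) (b : ι) :
    jetFun t W ω (fun k => g • pt k) k b = baseAut g (jetFun t W ω pt k b) := by
  unfold jetFun
  have hidx : jetIdx (fun k => g • pt k) k = jetIdx pt k :=
    jetIdx_comp pt (fun P : Place K F => g • P) (MulAction.injective g) k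
  rw [hidx, htg]
  conv_lhs => rw [← hω b]
  rw [regAt_smul_aut g htg hW, taylorAt_smul_aut]

/-- **(A)** the jet determinant is equivariant. -/
theorem det_jet_smul_aut (htg : ∀ P : Place K F, t (g • P) = g • t P)
    (hW : ∀ P : Place K F, W (g • P) = W P) (hω : ∀ b, g • ω b = ω b) {r : ℕ}
    (pt : Fin r → Place K F) (a : Fin r → ι) :
    Matrix.det (Matrix.of fun i k => jetFun t W ω (fun k => g • pt k) k (a i)) =
      baseAut g (Matrix.det (Matrix.of fun i k => jetFun t W ω pt k (a i))) := by
  rw [show baseAut g (Matrix.det (Matrix.of fun i k => jetFun t W ω pt k (a i))) =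
    (baseAut g).toRingHom (Matrix.det (Matrix.of fun i k => jetFun t W ω pt k (a i))) from rfl,
    RingHom.map_det]
  congr 1
  ext i k
  simp only [Matrix.of_apply, RingHom.mapMatrix_apply, Matrix.map_apply]
  exact jetFun_smul_aut g htg hW hω pt k (a i)

end Equivariant

/-! ### (B) Nonvanishing -/

section Nonvanishing

variable {ι : Type*} [Fintype ι] {t : Place K F → F} {W : Divisor K F} {ω : ι → F}

/-- the divisor `∑ pt k` of the points of a sequence. -/
def seqDiv {r : ℕ} (pt : Fin r → Place K F) : Divisor K F := ∑ k, Finsupp.single (pt k) 1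

theorem seqDiv_apply {r : ℕ} (pt : Fin r → Place K F) (a : Place K F) :
    seqDiv pt a = cntAll pt a := by
  rw [seqDiv, Finsupp.finsetSum_apply, cntAll, card_eq_sum_ones, Nat.cast_sum]
  simp only [Finsupp.single_apply, Nat.cast_one]
  rw [Finset.sum_filter]

theorem seqDiv_nonneg {r : ℕ} (pt : Fin r → Place K F) : 0 ≤ seqDiv pt := by
  intro a
  rw [seqDiv_apply]
  exact Nat.cast_nonneg _

theorem seqDiv_smul (g : SemilinearAut K F) {r : ℕ} (pt : Fin r → Place K F) :
    seqDiv (fun k => g • pt k) = g • seqDiv pt := by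
  unfold seqDiv
  rw [Finset.smul_sum]
  exact Finset.sum_congr rfl fun k _ => (SemilinearAut.smul_single g (pt k) 1).symm

/-- **the common kernel of the jet functionals on `L(W)` is `L(W - ∑ pt k)`.** -/
theorem forall_jetFun_eq_zero_iff (ht : ∀ P : Place K F, P.ord (t P) = 1)
    (hres : ∀ P : Place K F, HasResK P)
    (hω : ∀ b, ω b ∈ riemannRochSpace (K := K) (F := F) W) {r : ℕ} (pt : Fin r → Place K F)
    (s : ι → K) :
    (∀ k : Fin r, ∑ b, s b * jetFun t W ω pt k b = 0) ↔
      (∑ b, s b • ω b) ∈ riemannRochSpace (K := K) (F := F) (W - seqDiv pt) := by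
  have hmem : (∑ b, s b • ω b) ∈ riemannRochSpace (K := K) (F := F) W :=
    Submodule.sum_mem _ fun b _ => Submodule.smul_mem _ _ (hω b)
  constructor
  · intro hs
    rw [mem_riemannRochSpace_iff]
    intro a
    by_cases hh : (∑ b, s b • ω b) = 0
    · exact Or.inl hh
    right
    have hreg := reg_regAt ht hmem a
    have hvan : ∀ i < cntAll pt a,
        taylorAt a (t a) i (regAt t W a (∑ b, s b • ω b)) = 0 := by
      intro i hi
      obtain ⟨j, hja, hji⟩ := exists_jetIdx_eq_total pt a hi
      have := sum_mul_jetFun ht hres hω pt j s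
      rw [hs j, hji, hja] at this
      exact this.symm
    rcases ord_ge_of_taylorAt_eq_zero (hres a) (ht a) _ hreg hvan with h | h
    · exfalso
      rcases mul_eq_zero.mp h with h | h
      · exact hh h
      · exact zpow_ne_zero _ (ne_zero_of_ord_eq_one (ht a)) h
    · rw [ord_regAt ht hh] at h
      rw [Finsupp.sub_apply, seqDiv_apply]
      linarith
  · intro hmem' k
    rw [sum_mul_jetFun ht hres hω]
    by_cases hh : (∑ b, s b • ω b) = 0
    · rw [hh, regAt, zero_mul, taylorAt_zero_fun]
    refine taylorAt_eq_zero_of_lt (ht (pt k)) (Or.inr ?_)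
    rw [ord_regAt ht hh]
    rcases (mem_riemannRochSpace_iff.mp hmem') (pt k) with h | h
    · exact absurd h hh
    · rw [Finsupp.sub_apply, seqDiv_apply] at h
      have := jetIdx_lt_cntAll pt k
      have h2 : ((jetIdx pt k : ℕ) : ℤ) < (cntAll pt (pt k) : ℤ) := by exact_mod_cast this
      linarith

theorem riemannRochSpace_sub_le {D T : Divisor K F} (hT : 0 ≤ T) :
    riemannRochSpace (K := K) (F := F) (D - T) ≤ riemannRochSpace (K := K) (F := F) D := by
  intro f hf
  rw [mem_riemannRochSpace_iff] at hf ⊢
  intro a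
  rcases hf a with h | h
  · exact Or.inl h
  · right
    rw [Finsupp.sub_apply] at h
    have := hT a
    simp only [Finsupp.coe_zero, Pi.zero_apply] at this
    linarith

/-- **(B)** for a basis `ω` of `L(W)`, the jet determinant at `pt` is nonzero iff
`L(W - ∑ pt k) = ⊥`. -/
theorem jetDet_ne_zero_iff (ht : ∀ P : Place K F, P.ord (t P) = 1)
    (hres : ∀ P : Place K F, HasResK P) (hli : LinearIndependent K ω)
    (hspan : Submodule.span K (Set.range ω) = riemannRochSpace (K := K) (F := F) W) {r : ℕ}
    (pt : Fin r → Place K F) (e : Fin r ≃ ι) :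
    Matrix.det (Matrix.of fun i k => jetFun t W ω pt k (e i)) ≠ 0 ↔
      riemannRochSpace (K := K) (F := F) (W - seqDiv pt) = ⊥ := by
  have hω : ∀ b, ω b ∈ riemannRochSpace (K := K) (F := F) W := by
    intro b
    rw [← hspan]
    exact Submodule.subset_span ⟨b, rfl⟩
  rw [Ne, ← Matrix.exists_vecMul_eq_zero_iff, not_exists]
  constructor
  · intro hno
    rw [eq_bot_iff]
    intro h hh
    rw [Submodule.mem_bot]
    by_contra hh0
    have hhW : h ∈ Submodule.span K (Set.range ω) := by
      rw [hspan]; exact riemannRochSpace_sub_le (seqDiv_nonneg pt) hh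
    obtain ⟨s, hs⟩ := (Submodule.mem_span_range_iff_exists_fun K).mp hhW
    have hs0 : (fun i => s (e i)) ≠ 0 := by
      intro h0
      apply hh0
      rw [← hs]
      refine Finset.sum_eq_zero fun b _ => ?_
      have : s b = 0 := by
        have := congrFun h0 (e.symm b)
        simpa using this
      rw [this, zero_smul]
    refine hno (fun i => s (e i)) ⟨hs0, ?_⟩
    ext k
    have hker := (forall_jetFun_eq_zero_iff ht hres hω pt s).mpr (by rw [hs]; exact hh) k
    rw [Matrix.vecMul, dotProduct, Pi.zero_apply, ← hker]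
    simp only [Matrix.of_apply]
    exact Equiv.sum_comp e fun b => s b * jetFun t W ω pt k b
  · intro hbot v hv
    obtain ⟨hv0, hvM⟩ := hv
    set s : ι → K := fun b => v (e.symm b) with hs
    have hker : ∀ k : Fin r, ∑ b, s b * jetFun t W ω pt k b = 0 := by
      intro k
      have := congrFun hvM k
      rw [Matrix.vecMul, dotProduct, Pi.zero_apply] at this
      rw [← this]
      simp only [Matrix.of_apply]
      rw [← Equiv.sum_comp e]
      refine Finset.sum_congr rfl fun i _ => ?_
      rw [hs]
      simp
    have hmem := (forall_jetFun_eq_zero_iff ht hres hω pt s).mp hker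
    rw [hbot, Submodule.mem_bot] at hmem
    have hall := (Fintype.linearIndependent_iff.mp hli) s hmem
    apply hv0
    ext i
    have := hall (e i)
    rw [hs] at this
    simpa using this

end Nonvanishing

/-! ### (C) Independence of the order -/

section Order

variable {ι : Type*} [Fintype ι] {t : Place K F → F} {W : Divisor K F} {ω : ι → F}

theorem cntAll_eq_of_seqDiv_eq {r r' : ℕ} {pt : Fin r → Place K F} {pt' : Fin r' → Place K F}
    (h : seqDiv pt = seqDiv pt') (a : Place K F) : cntAll pt a = cntAll pt' a := by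
  have := congrArg (fun D : Divisor K F => D a) h
  simp only [seqDiv_apply] at this
  exact_mod_cast this

/-- two sequences with the same divisor differ by a permutation respecting the jet indices. -/
theorem exists_perm_of_seqDiv_eq {r : ℕ} (pt pt' : Fin r → Place K F)
    (h : seqDiv pt = seqDiv pt') :
    ∃ π : Equiv.Perm (Fin r), ∀ k, pt' (π k) = pt k ∧ jetIdx pt' (π k) = jetIdx pt k := by
  have hex : ∀ k : Fin r, ∃ k' : Fin r, pt' k' = pt k ∧ jetIdx pt' k' = jetIdx pt k := by
    intro k
    have h1 := jetIdx_lt_cntAll pt k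
    rw [cntAll_eq_of_seqDiv_eq h] at h1
    exact exists_jetIdx_eq_total pt' (pt k) h1
  choose π₀ hπ₀ using hex
  have hinj : Function.Injective π₀ := by
    intro j k hjk
    have h1 : pt j = pt k := by rw [← (hπ₀ j).1, ← (hπ₀ k).1, hjk]
    have h2 : jetIdx pt j = jetIdx pt k := by rw [← (hπ₀ j).2, ← (hπ₀ k).2, hjk]
    exact jetIdx_inj pt h1 h2
  exact ⟨Equiv.ofBijective π₀ (Finite.injective_iff_bijective.mp hinj), fun k => hπ₀ k⟩

theorem jetFun_perm {r : ℕ} (pt pt' : Fin r → Place K F) (π : Equiv.Perm (Fin r))
    (hπ : ∀ k, pt' (π k) = pt k ∧ jetIdx pt' (π k) = jetIdx pt k) (k : Fin r) (b : ι) :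
    jetFun t W ω pt' (π k) b = jetFun t W ω pt k b := by
  unfold jetFun
  rw [(hπ k).1, (hπ k).2]

/-- **(C)** the jet determinant depends on the sequence only through its divisor, up to sign. -/
theorem jetDet_eq_sign_mul {r : ℕ} (pt pt' : Fin r → Place K F) (h : seqDiv pt = seqDiv pt')
    (a : Fin r → ι) :
    ∃ ε : ℤˣ, Matrix.det (Matrix.of fun i k => jetFun t W ω pt k (a i)) =
      ((ε : ℤ) : K) * Matrix.det (Matrix.of fun i k => jetFun t W ω pt' k (a i)) := by
  obtain ⟨π, hπ⟩ := exists_perm_of_seqDiv_eq pt pt' h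
  refine ⟨Equiv.Perm.sign π, ?_⟩
  rw [← Matrix.det_permute']
  congr 1
  ext i k
  simp only [Matrix.of_apply, Matrix.submatrix_apply, id_eq]
  exact (jetFun_perm pt pt' π hπ k (a i)).symm

/-- **(C)** the square of the jet determinant depends only on the divisor of the sequence. -/
theorem jetDet_sq_congr {r : ℕ} (pt pt' : Fin r → Place K F) (h : seqDiv pt = seqDiv pt')
    (a : Fin r → ι) :
    Matrix.det (Matrix.of fun i k => jetFun t W ω pt k (a i)) ^ 2 =
      Matrix.det (Matrix.of fun i k => jetFun t W ω pt' k (a i)) ^ 2 := by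
  obtain ⟨ε, hε⟩ := jetDet_eq_sign_mul (t := t) (W := W) (ω := ω) pt pt' h a
  rw [hε, mul_pow]
  rcases Int.units_eq_one_or ε with h1 | h1 <;> simp [h1]

/-- the absolute value of the jet determinant depends only on the divisor of the sequence. -/
theorem abv_jetDet_congr (v : AbsoluteValue K ℝ) {r : ℕ} (pt pt' : Fin r → Place K F)
    (h : seqDiv pt = seqDiv pt') (a : Fin r → ι) :
    v (Matrix.det (Matrix.of fun i k => jetFun t W ω pt k (a i))) =
      v (Matrix.det (Matrix.of fun i k => jetFun t W ω pt' k (a i))) := by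
  obtain ⟨ε, hε⟩ := jetDet_eq_sign_mul (t := t) (W := W) (ω := ω) pt pt' h a
  rw [hε, map_mul]
  rcases Int.units_eq_one_or ε with h1 | h1 <;> simp [h1]

end Order

end

end Fermat.Agent.MW.FF.JetDet48
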