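/-
Program MW-H (S17), helper49: DIFFERENTIAL CALCULUS AT PLACES (for AD / HD).

Setting: `K` a field of characteristic zero, `F / K` a function field with generator `u`
(`hu : IsGen K u`); for the local statements `K` is algebraically closed.

* `coeffU hu : Ω[F⁄K] →ₗ[F] F` : the coefficient with respect to `du` (`ω = coeffU ω • du`);
* `derivU hu : Derivation K F F` : the `K`-derivation `d/du` (`derivU u = 1`, `D f = derivU f • D u`);
* `derivation_eq` : every `K`-derivation `d` of `F` is `d f = derivU f * d u`;
* `derivU_smul_aut` : `derivU (γ • f) = γ • derivU f` for a semilinear automorphism fixing `u`;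
* local (place `P`, uniformiser `t`): `derivU_ne_zero_of_ord_ne_zero`, `ord_derivU_unif`
  (`ord_P (derivU t) = - ordDifferential_P (du)`), `ord_derivT_nonneg`
  (`f` regular ⟹ `derivU f / derivU t` regular), `ord_derivT_of_ord_ne_zero`
  (`ord_P (derivU f / derivU t) = ord_P f - 1` if `ord_P f ≠ 0`),
  `isValAt_derivT` (first order coefficient = value of `derivU f / derivU t`).
-/
import Mathlib
import Fermat.Agent.MW.FF.Coord49
import Fermat.Agent.X0.FFDiff

set_option autoImplicit false
set_option linter.unusedSectionVars false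
set_option linter.style.haveILetI false

open AlgebraicCurve IntermediateField KaehlerDifferential

namespace Fermat.Agent.MW.FF.Deriv49

open Fermat.Agent.MW.Spec.Defs7 Fermat.Agent.X0 Fermat.Agent.X0.FF
open Fermat.Agent.MW.FF.EvalLead49

variable {K F : Type*} [Field K] [Field F] [Algebra K F] [CharZero K] {u : F}

/-! ### The derivation `d/du` -/

section Global

variable (hu : IsGen K u)

/-- `F ≃ Ω[F⁄K]`, `f ↦ f • du`. -/
noncomputable def smulDuEquiv : F ≃ₗ[F] Ω[F⁄K] :=
  (LinearEquiv.toSpanNonzeroSingleton F Ω[F⁄K] (D K F u) (D_ne_zero hu)).trans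
    ((LinearEquiv.ofEq _ _ (span_D_eq_top hu)).trans (Submodule.topEquiv))

@[simp] theorem smulDuEquiv_apply (f : F) : smulDuEquiv hu f = f • D K F u := rfl

/-- The coefficient of a differential with respect to `du`. -/
noncomputable def coeffU : Ω[F⁄K] →ₗ[F] F := (smulDuEquiv hu).symm.toLinearMap

theorem coeffU_smul_D (ω : Ω[F⁄K]) : coeffU hu ω • D K F u = ω := by
  have := (smulDuEquiv hu).apply_symm_apply ω
  rwa [smulDuEquiv_apply] at this

theorem coeffU_unique {ω : Ω[F⁄K]} {f : F} (h : ω = f • D K F u) : coeffU hu ω = f := by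
  rw [h, ← smulDuEquiv_apply hu]
  exact (smulDuEquiv hu).symm_apply_apply f

/-- The derivation `d/du` of `F` over `K`. -/
noncomputable def derivU : Derivation K F F := (coeffU hu).compDer (D K F)

theorem derivU_apply (f : F) : derivU hu f = coeffU hu (D K F f) := rfl

theorem D_eq_derivU_smul (f : F) : D K F f = derivU hu f • D K F u :=
  (coeffU_smul_D hu (D K F f)).symm

@[simp] theorem derivU_self : derivU hu u = 1 :=
  coeffU_unique hu (one_smul F _).symm

@[simp] theorem derivU_algebraMap (c : K) : derivU hu (algebraMap K F c) = 0 :=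
  (derivU hu).map_algebraMap c

/-- Every `K`-derivation of `F` is a multiple of `d/du`. -/
theorem derivation_eq (d : Derivation K F F) (f : F) : d f = derivU hu f * d u := by
  have h1 : d f = d.liftKaehlerDifferential (D K F f) :=
    (d.liftKaehlerDifferential_comp_D f).symm
  rw [h1, D_eq_derivU_smul hu f, map_smul, d.liftKaehlerDifferential_comp_D, smul_eq_mul]

theorem derivU_ne_zero_iff (f : F) : derivU hu f ≠ 0 ↔ D K F f ≠ 0 := by
  rw [D_eq_derivU_smul hu f]
  constructor
  · intro h
    exact smul_ne_zero h (D_ne_zero hu)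
  · intro h h0
    exact h (by rw [h0, zero_smul])

/-- Chain rule: `D f = (derivU f / derivU t) • D t` when `D t ≠ 0`. -/
theorem D_eq_div_smul {t : F} (ht : derivU hu t ≠ 0) (f : F) :
    D K F f = (derivU hu f / derivU hu t) • D K F t := by
  rw [D_eq_derivU_smul hu f, D_eq_derivU_smul hu t, smul_smul, div_mul_cancel₀ _ ht]

/-- Equivariance: `d/du` commutes with every semilinear automorphism fixing `u`. -/
theorem derivU_smul_aut (γ : SemilinearAut K F) (hγ : γ • u = u) (f : F) :
    derivU hu (γ • f) = γ • derivU hu f := by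
  -- the conjugate derivation `γ⁻¹ ∘ d/du ∘ γ`
  let d : Derivation K F F :=
    { toFun := fun f => γ⁻¹ • derivU hu (γ • f)
      map_add' := fun a b => by simp only [smul_add, map_add]
      map_smul' := fun c a => by
        show γ⁻¹ • derivU hu (γ • (c • a)) = c • (γ⁻¹ • derivU hu (γ • a))
        have e1 : γ • (c • a) = (SemilinearAut.baseAut γ c) • (γ • a) := by
          rw [Algebra.smul_def, Algebra.smul_def, smul_mul', SemilinearAut.smul_algebraMap]
        rw [e1, (derivU hu).map_smul, Algebra.smul_def, Algebra.smul_def, smul_mul',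
          SemilinearAut.smul_algebraMap, SemilinearAut.baseAut_inv, RingEquiv.symm_apply_apply]
      map_one_eq_zero' := by
        show γ⁻¹ • derivU hu (γ • (1 : F)) = 0
        rw [smul_one, Derivation.map_one_eq_zero, smul_zero]
      leibniz' := fun a b => by
        show γ⁻¹ • derivU hu (γ • (a * b)) = a • (γ⁻¹ • derivU hu (γ • b)) +
          b • (γ⁻¹ • derivU hu (γ • a))
        rw [smul_mul', Derivation.leibniz]
        simp only [smul_eq_mul, smul_add, smul_mul', inv_smul_smul] }
  have hd : ∀ f, d f = γ⁻¹ • derivU hu (γ • f) := fun _ => rfl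
  have h1 := derivation_eq hu d f
  rw [hd, hd, hγ, derivU_self, smul_one, mul_one] at h1
  rw [← h1, smul_inv_smul]

end Global

/-! ### Local calculus at a place -/

section Local

variable [IsAlgClosed K] (hu : IsGen K u) (P : Place K F)

include hu

/-- A function of nonzero order at some place has a nonzero differential. -/
theorem D_ne_zero_of_ord_ne_zero {y : F} (hy : P.ord y ≠ 0) : D K F y ≠ 0 :=
  ffd_D_ne_zero y (ffp_transcendental_of_ord_ne_zero P hy)
    (ffx_isAlgebraic_of_transcendental u y (ffg_isAlgebraic hu)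
      (ffp_transcendental_of_ord_ne_zero P hy))

theorem derivU_ne_zero_of_ord_ne_zero {y : F} (hy : P.ord y ≠ 0) : derivU hu y ≠ 0 :=
  (derivU_ne_zero_iff hu y).mpr (D_ne_zero_of_ord_ne_zero hu P hy)

variable {P} {t : F} (ht : P.ord t = 1)

include ht

theorem derivU_unif_ne_zero : derivU hu t ≠ 0 :=
  derivU_ne_zero_of_ord_ne_zero hu P (by rw [ht]; exact one_ne_zero)

theorem ordDifferential_D_unif : P.ordDifferential (D K F t) = 0 := by
  rw [ordDifferential_D_of_ord_ne_zero hu P (by rw [ht]; exact one_ne_zero), ht, sub_self]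

/-- `ord_P (derivU f / derivU t) = ord_P (df)`. -/
theorem ord_derivT_eq {f : F} (hf : D K F f ≠ 0) :
    P.ord (derivU hu f / derivU hu t) = P.ordDifferential (D K F f) := by
  have htD : D K F t ≠ 0 := D_ne_zero_of_ord_ne_zero hu P (by rw [ht]; exact one_ne_zero)
  have hne : derivU hu f / derivU hu t ≠ 0 :=
    div_ne_zero ((derivU_ne_zero_iff hu f).mpr hf) (derivU_unif_ne_zero hu ht)
  have h := ordDifferential_smul' hu P hne htD
  rw [← D_eq_div_smul hu (derivU_unif_ne_zero hu ht) f, ordDifferential_D_unif hu ht,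
    add_zero] at h
  exact h.symm

/-- The order of the differential `du` at `P` is `- ord_P (derivU t)`. -/
theorem ordDifferential_D_gen : P.ordDifferential (D K F u) = -P.ord (derivU hu t) := by
  have h := ord_derivT_eq hu ht (f := u) (D_ne_zero hu)
  rw [derivU_self, one_div, P.ord_inv] at h
  exact h.symm

/-- If `f` is regular at `P` then so is `df/dt`. -/
theorem ord_derivT_nonneg {f : F} (hf : 0 ≤ P.ord f) :
    0 ≤ P.ord (derivU hu f / derivU hu t) := by
  by_cases h0 : D K F f = 0
  · have : derivU hu f = 0 := by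
      by_contra hne
      exact (derivU_ne_zero_iff hu f).mp hne h0
    rw [this, zero_div]; simp
  · rw [ord_derivT_eq hu ht h0]
    exact ord_differentialCoeff_D_nonneg hu P hf

/-- `ord_P (df/dt) = ord_P f - 1` if `ord_P f ≠ 0`. -/
theorem ord_derivT_of_ord_ne_zero {f : F} (hf : P.ord f ≠ 0) :
    P.ord (derivU hu f / derivU hu t) = P.ord f - 1 := by
  rw [ord_derivT_eq hu ht (D_ne_zero_of_ord_ne_zero hu P hf),
    ordDifferential_D_of_ord_ne_zero hu P hf]

/-- `df/dt` vanishes at `P` to order `≥ ord_P f - 1` for `f` vanishing at `P`. -/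
theorem derivT_eq_zero_or_lt {f : F} (hf : f = 0 ∨ 1 < P.ord f) :
    derivU hu f / derivU hu t = 0 ∨ 0 < P.ord (derivU hu f / derivU hu t) := by
  rcases hf with rfl | hf
  · left; simp
  · right
    rw [ord_derivT_of_ord_ne_zero hu ht (by omega)]
    omega

/-- **First order coefficient = value of the derivative**: if `f = c₀ + c₁ t + O(t²)` at `P`
then `df/dt` has the value `c₁` at `P`. -/
theorem isValAt_derivT {f : F} {c₀ c₁ : K}
    (h : IsValAt P ((f - algebraMap K F c₀) * t⁻¹) c₁) :
    IsValAt P (derivU hu f / derivU hu t) c₁ := by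
  have ht0 := ne_zero_of_ord_eq_one ht
  have hdt := derivU_unif_ne_zero hu ht
  set r : F := f - algebraMap K F c₀ - algebraMap K F c₁ * t with hr
  -- `r = 0` or `ord r ≥ 2`
  have hr2 : r = 0 ∨ 1 < P.ord r := by
    have e : (f - algebraMap K F c₀) * t⁻¹ - algebraMap K F c₁ = r * t⁻¹ := by
      rw [hr]; field_simp
    rcases isValAt_iff.mp h with h | h
    · left
      rw [e] at h
      exact (mul_eq_zero.mp h).resolve_right (inv_ne_zero ht0)
    · by_cases hr0 : r = 0
      · exact Or.inl hr0
      right
      rw [e, P.ord_mul hr0 (inv_ne_zero ht0), P.ord_inv, ht] at h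
      omega
  have hderiv : derivU hu f / derivU hu t = algebraMap K F c₁ + derivU hu r / derivU hu t := by
    have : derivU hu r = derivU hu f - algebraMap K F c₁ * derivU hu t := by
      rw [hr, map_sub, map_sub, derivU_algebraMap, sub_zero, Derivation.leibniz,
        derivU_algebraMap]
      simp
    rw [this]
    field_simp
    ring
  rw [hderiv, isValAt_iff, add_sub_cancel_left]
  exact derivT_eq_zero_or_lt hu ht hr2

end Local

/-! ### Tangent vectors and Wronskians -/

section Wronskian

open Fermat.Agent.MW.FF.Coord49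

variable [IsAlgClosed K] (hu : IsGen K u) {n : ℕ}

/-- The Wronskian-type function `x_a d(x_b)/du - x_b d(x_a)/du`. -/
noncomputable def wron (x : Fin (n + 1) → F) (a b : Fin (n + 1)) : F :=
  x a * derivU hu (x b) - x b * derivU hu (x a)

theorem wron_self (x : Fin (n + 1) → F) (a : Fin (n + 1)) : wron hu x a a = 0 := by
  unfold wron; ring

theorem wron_antisymm (x : Fin (n + 1) → F) (a b : Fin (n + 1)) :
    wron hu x a b = -wron hu x b a := by
  unfold wron; ring

/-- The Wronskian of a rescaled tuple. -/
theorem wron_mul (x : Fin (n + 1) → F) (T : F) (a b : Fin (n + 1)) :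
    wron hu (fun c => x c * T) a b = T ^ 2 * wron hu x a b := by
  unfold wron
  simp only [Derivation.leibniz, smul_eq_mul]
  ring

theorem wron_smul_aut (γ : SemilinearAut K F) (hγ : γ • u = u) (x : Fin (n + 1) → F)
    (a b : Fin (n + 1)) :
    wron hu (fun c => γ • x c) a b = γ • wron hu x a b := by
  unfold wron
  rw [derivU_smul_aut hu γ hγ, derivU_smul_aut hu γ hγ, smul_sub, smul_mul', smul_mul']

variable {P : Place K F} {t : F} (hP : HasResK P) (ht : P.ord t = 1) (x : Fin (n + 1) → F)

include hP ht

/-- The tangent vector is the value of the derivative of the normalised coordinates. -/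
theorem isValAt_tangAt_deriv (a : Fin (n + 1)) :
    IsValAt P (derivU hu (x a * t ^ (-(minOrd P x))) / derivU hu t) (tangAt P t x a) :=
  isValAt_derivT hu ht (isValAt_tangAt hP ht a)

/-- **The minors of `(coordAt, tangAt)` are the values of the Wronskians**:
`(q ∧ q')_{ab}` is the value at `P` of `w_ab / (t^{2M} dt/du)`, `M = minOrd P x`. -/
theorem isValAt_wron (a b : Fin (n + 1)) :
    IsValAt P (wron hu x a b * t ^ (-(2 * minOrd P x)) / derivU hu t)
      (wedge (coordAt P t x) (tangAt P t x) (a, b)) := by
  have ht0 := ne_zero_of_ord_eq_one ht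
  have hdt := derivU_unif_ne_zero hu ht
  set M := minOrd P x with hM
  have e : wron hu x a b * t ^ (-(2 * M)) / derivU hu t =
      (x a * t ^ (-M)) * (derivU hu (x b * t ^ (-M)) / derivU hu t) -
      (x b * t ^ (-M)) * (derivU hu (x a * t ^ (-M)) / derivU hu t) := by
    have h1 := wron_mul hu x (t ^ (-M)) a b
    unfold wron at h1
    simp only at h1
    have h2 : (t ^ (-M)) ^ 2 = t ^ (-(2 * M)) := by
      rw [← zpow_natCast, ← zpow_mul]
      congr 1
      push_cast
      ring
    rw [h2] at h1
    unfold wron
    field_simp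
    rw [mul_comm _ (t ^ (-(2 * M))), ← h1]
    ring
  rw [e]
  exact ((isValAt_coordAt hP ht a).mul (isValAt_tangAt_deriv hu hP ht x b)).sub
    ((isValAt_coordAt hP ht b).mul (isValAt_tangAt_deriv hu hP ht x a))

end Wronskian

end Fermat.Agent.MW.FF.Deriv49
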