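/-
Program MW-H (S17), brick AD (helper49), part A: THE WRONSKIAN DIVISORS.

Setting: `U : USetup K F` (`Spec/BricksU7`), `K` algebraically closed of characteristic zero,
`u = U.u₀`, `x = U.x`, `t = U.t`, `m = U.m`, `M_P = minOrd P x` (`= 0` for `P ≠ inf`, `= -m` at `inf`).

* `Wdiv U` : the divisor of the differential `du`; `Wdiv_apply : Wdiv U P = - ord_P (d t_P / du)`;
* `gP U P = (d t_P / du)⁻¹` (`= du / d t_P`), `rho U P = leadAt P t_P (gP U P) ≠ 0`,
  `ord_gP : ord_P (gP U P) = Wdiv U P`;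
* `wr U a b = x_a dx_b/du - x_b dx_a/du`; `isValAt_wr` : the value at `P` of
  `wr a b · t_P^(-2 M_P) · gP P` is the minor `(pt P ∧ tg P)_{ab}`;
* `zfun U a b P = ord_P (wr a b) - 2 M_P + Wdiv U P`; `zfun_nonneg`; `wedge_ne_zero_iff`
  (`(pt P ∧ tg P)_{ab} ≠ 0 ↔ wr a b ≠ 0 ∧ zfun a b P = 0`); `wedge_eq_lead_mul_rho`;
* `exists_wedge_ne_zero` (E3): for every place some minor is nonzero;
* `Zdiv U a b h` : the effective divisor `div (wr a b) + 2 m · inf + div (du)`, `Zdiv_apply`,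
  `Zdiv_nonneg`, `divWr U a b h` with `isDivOf_divWr`, `divWr_eq`.
-/
import Mathlib
import Fermat.Agent.MW.FF.Deriv49
import Fermat.Agent.MW.FF.LeadLinear49
import Fermat.Agent.RR.LHypGen

set_option autoImplicit false
set_option linter.unusedSectionVars false

open AlgebraicCurve IntermediateField KaehlerDifferential

namespace Fermat.Agent.MW.FF.WronDiv49

open Fermat.Agent.MW.Spec.Defs7 Fermat.Agent.MW.Spec.Bricks7 Fermat.Agent.MW.Spec.BricksU7
open Fermat.Agent.X0 Fermat.Agent.X0.FF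
open Fermat.Agent.MW.FF.EvalLead49 Fermat.Agent.MW.FF.Coord49 Fermat.Agent.MW.FF.VeryAmple49
open Fermat.Agent.MW.FF.LeadLinear49 Fermat.Agent.MW.FF.Deriv49

variable {K F : Type} [Field K] [Field F] [Algebra K F] [HasCanonicalDivisor (K := K) (F := F)]
  [IsAlgClosed K] [CharZero K] (U : USetup K F)

/-! ### The divisor of `du` -/

/-- The divisor of the differential `du`. -/
noncomputable def Wdiv : Divisor K F := canonicalDivisorOf (D_ne_zero U.gen)

/-- `du / d t_P`. -/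
noncomputable def gP (P : Place K F) : F := (derivU U.gen (U.t P))⁻¹

theorem gP_ne_zero (P : Place K F) : gP U P ≠ 0 :=
  inv_ne_zero (derivU_unif_ne_zero U.gen (U.t_ord P))

theorem Wdiv_apply (P : Place K F) : Wdiv U P = -P.ord (derivU U.gen (U.t P)) := by
  unfold Wdiv
  rw [canonicalDivisorOf_apply, ordDifferential_D_gen U.gen (U.t_ord P)]

theorem ord_gP (P : Place K F) : P.ord (gP U P) = Wdiv U P := by
  rw [gP, P.ord_inv, Wdiv_apply]

/-- The leading coefficient of `du / d t_P` at `P`. -/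
noncomputable def rho (P : Place K F) : K := leadAt P (U.t P) (gP U P)

theorem rho_ne_zero (P : Place K F) : rho U P ≠ 0 :=
  leadAt_ne_zero (hasResK U.gen P) (U.t_ord P) (gP_ne_zero U P)

/-! ### The Wronskians -/

/-- `x_a dx_b/du - x_b dx_a/du`. -/
noncomputable def wr (a b : Fin (U.n + 1)) : F := wron U.gen U.x a b

theorem isValAt_wr (P : Place K F) (a b : Fin (U.n + 1)) :
    IsValAt P (wr U a b * (U.t P) ^ (-(2 * minOrd P U.x)) * gP U P)
      (wedge (U.pt P) (U.tg P) (a, b)) := by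
  have h := isValAt_wron U.gen (hasResK U.gen P) (U.t_ord P) U.x a b
  rwa [div_eq_mul_inv] at h

/-- The order of vanishing of the section `x_a dx_b - x_b dx_a` of `Ω(2 m · inf)` at `P`. -/
noncomputable def zfun (a b : Fin (U.n + 1)) (P : Place K F) : ℤ :=
  P.ord (wr U a b) - 2 * minOrd P U.x + Wdiv U P

theorem ord_wr_mul (P : Place K F) {a b : Fin (U.n + 1)} (h : wr U a b ≠ 0) :
    wr U a b * (U.t P) ^ (-(2 * minOrd P U.x)) * gP U P ≠ 0 ∧
    P.ord (wr U a b * (U.t P) ^ (-(2 * minOrd P U.x)) * gP U P) = zfun U a b P := by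
  have ht0 := ne_zero_of_ord_eq_one (U.t_ord P)
  have h1 : (U.t P) ^ (-(2 * minOrd P U.x)) ≠ 0 := zpow_ne_zero _ ht0
  refine ⟨mul_ne_zero (mul_ne_zero h h1) (gP_ne_zero U P), ?_⟩
  rw [P.ord_mul (mul_ne_zero h h1) (gP_ne_zero U P), P.ord_mul h h1, P.ord_zpow, U.t_ord P,
    ord_gP, zfun]
  ring

theorem zfun_nonneg (P : Place K F) {a b : Fin (U.n + 1)} (h : wr U a b ≠ 0) :
    0 ≤ zfun U a b P := by
  rw [← (ord_wr_mul U P h).2]
  exact (isValAt_wr U P a b).ord_nonneg

theorem wedge_ne_zero_iff (P : Place K F) (a b : Fin (U.n + 1)) :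
    wedge (U.pt P) (U.tg P) (a, b) ≠ 0 ↔ wr U a b ≠ 0 ∧ zfun U a b P = 0 := by
  constructor
  · intro hne
    obtain ⟨h1, h2⟩ := (isValAt_wr U P a b).ord_eq_zero hne
    have hw : wr U a b ≠ 0 := left_ne_zero_of_mul (left_ne_zero_of_mul h1)
    exact ⟨hw, by rw [← (ord_wr_mul U P hw).2]; exact h2⟩
  · rintro ⟨hw, hz⟩ h0
    obtain ⟨h1, h2⟩ := ord_wr_mul U P hw
    rcases ((isValAt_wr U P a b).eq_zero_iff).mp h0 with h | h
    · exact h1 h
    · rw [h2, hz] at h
      exact lt_irrefl _ h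

/-- Where the minor does not vanish it is `lead_P (wr a b) · rho P`. -/
theorem wedge_eq_lead_mul_rho (P : Place K F) {a b : Fin (U.n + 1)} (hw : wr U a b ≠ 0)
    (hz : zfun U a b P = 0) :
    wedge (U.pt P) (U.tg P) (a, b) = leadAt P (U.t P) (wr U a b) * rho U P := by
  have hP := hasResK U.gen P
  have ht := U.t_ord P
  have ht0 := ne_zero_of_ord_eq_one ht
  obtain ⟨h1, h2⟩ := ord_wr_mul U P hw
  rw [hz] at h2
  have h3 := (isValAt_wr U P a b).evalAt_eq
  rw [← leadAt_of_ord_eq_zero (t := U.t P) h2,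
    leadAt_mul hP ht (mul_ne_zero hw (zpow_ne_zero _ ht0)) (gP_ne_zero U P),
    leadAt_mul hP ht hw (zpow_ne_zero _ ht0), leadAt_zpow hP ht ht0, leadAt_self ht,
    one_zpow, mul_one] at h3
  exact h3.symm

/-- **E3**: at every place some minor of `(pt P, tg P)` is nonzero. -/
theorem exists_wedge_ne_zero (P : Place K F) :
    ∃ a b : Fin (U.n + 1), wedge (U.pt P) (U.tg P) (a, b) ≠ 0 := by
  have h := (veryAmpleU U).2.2 P
  by_contra hcon
  push Not at hcon
  exact h (funext fun ab => hcon ab.1 ab.2)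

/-! ### The divisors -/

include U in
theorem lHyp : Fermat.Agent.RR.LSpace.LHyp K F := Fermat.Agent.RR.LHypGen.lHyp_of_isGen U.gen

/-- The divisor of the function `wr a b`. -/
noncomputable def divWr (a b : Fin (U.n + 1)) (h : wr U a b ≠ 0) : Divisor K F :=
  Fermat.Agent.RR.LSpace.divOf (lHyp U) h

theorem isDivOf_divWr (a b : Fin (U.n + 1)) (h : wr U a b ≠ 0) :
    IsDivOf (divWr U a b h) (wr U a b) :=
  fun P => Fermat.Agent.RR.LSpace.divOf_apply (lHyp U) h P

/-- The zero divisor of the section `x_a dx_b - x_b dx_a`. -/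
noncomputable def Zdiv (a b : Fin (U.n + 1)) (h : wr U a b ≠ 0) : Divisor K F :=
  divWr U a b h + Finsupp.single U.inf ((2 * U.m : ℕ) : ℤ) + Wdiv U

theorem Zdiv_apply (a b : Fin (U.n + 1)) (h : wr U a b ≠ 0) (P : Place K F) :
    Zdiv U a b h P = zfun U a b P := by
  classical
  have hspec := minOrdSpec U
  unfold Zdiv zfun
  rw [Finsupp.add_apply, Finsupp.add_apply, isDivOf_divWr U a b h P, Finsupp.single_apply]
  by_cases hP : P = U.inf
  · subst hP
    rw [if_pos rfl, hspec.2]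
    push_cast
    ring
  · rw [if_neg (Ne.symm hP), hspec.1 P hP]
    ring

theorem Zdiv_nonneg (a b : Fin (U.n + 1)) (h : wr U a b ≠ 0) : 0 ≤ Zdiv U a b h := by
  intro P
  rw [Zdiv_apply]
  exact zfun_nonneg U P h

theorem divWr_eq (a b : Fin (U.n + 1)) (h : wr U a b ≠ 0) :
    divWr U a b h = Zdiv U a b h - Finsupp.single U.inf ((2 * U.m : ℕ) : ℤ) - Wdiv U := by
  unfold Zdiv
  abel

end Fermat.Agent.MW.FF.WronDiv49
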