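/-
Program MW-H (S17), brick AD (helper49), part B: THE LOCAL ADJUNCTION INEQUALITY.

Setting: `U : USetup K F`, `K` algebraically closed of characteristic zero, `v` any absolute value of
`K`.  With the Wronskian divisors of `WronDiv49`:

* `Zd U ab` : the zero divisor of `x_a dx_b - x_b dx_a` (junk `0` if the Wronskian vanishes);
  `Tset U` : the finite set of all their zeros; `Btot U` : a bound for their degrees;
* `Emu U v` : `∑_{R ≠ R' ∈ Tset} log⁺ (1 / chord_v (R, R'))` (zero at almost all places);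
* `bpf_lower` : for every place `Q` there is a minor `ab` of `(pt Q, tg Q)` which does not vanish
  and such that `pairAt v (Zd ab) Q ≤ Btot · (log (triC v 3) + Emu v)`   (chordal triangle
  inequality: `Q` is close to at most one point of `Tset`);
* `local_adj` : from `UDLocal v x t d Cv` for the Wronskians,
  `-λ_v(P,P) ≥ log |rho P|_v + 2m λ_v(inf,P) - 2 log ‖pt P‖_v + pairAt_v(div du, P) - Eloc`.
-/
import Mathlib
import Fermat.Agent.MW.FF.WronDiv49
import Fermat.Agent.MW.Global.PairBasic2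
import Fermat.Agent.MW.Local.Chord2

set_option autoImplicit false
set_option linter.unusedSectionVars false

open AlgebraicCurve IntermediateField

namespace Fermat.Agent.MW.FF.AdjLocal49

open Fermat.Agent.MW.Hadamard7 Fermat.Agent.MW.Spec.Defs7 Fermat.Agent.MW.Spec.Contract7
open Fermat.Agent.MW.Spec.Bricks7 Fermat.Agent.MW.Spec.BricksU7
open Fermat.Agent.X0 Fermat.Agent.X0.FF
open Fermat.Agent.MW.FF.EvalLead49 Fermat.Agent.MW.FF.Coord49 Fermat.Agent.MW.FF.VeryAmple49
open Fermat.Agent.MW.FF.LeadLinear49 Fermat.Agent.MW.FF.Deriv49 Fermat.Agent.MW.FF.WronDiv49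
open Fermat.Agent.MW.Global.PairBasic2 Fermat.Agent.MW.Local.Chord2
open scoped Classical

variable {K F : Type} [Field K] [Field F] [Algebra K F] [HasCanonicalDivisor (K := K) (F := F)]
  [IsAlgClosed K] [CharZero K] (U : USetup K F) (v : AbsoluteValue K ℝ)

/-! ### The zero divisors and their supports -/

/-- The zero divisor of the section `x_a dx_b - x_b dx_a` (junk `0` if the Wronskian vanishes). -/
noncomputable def Zd (ab : Fin (U.n + 1) × Fin (U.n + 1)) : Divisor K F :=
  if h : wr U ab.1 ab.2 ≠ 0 then Zdiv U ab.1 ab.2 h else 0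

theorem Zd_of_ne {ab : Fin (U.n + 1) × Fin (U.n + 1)} (h : wr U ab.1 ab.2 ≠ 0) :
    Zd U ab = Zdiv U ab.1 ab.2 h := by
  unfold Zd; rw [dif_pos h]

theorem Zd_nonneg (ab : Fin (U.n + 1) × Fin (U.n + 1)) : 0 ≤ Zd U ab := by
  unfold Zd
  split_ifs with h
  · exact Zdiv_nonneg U _ _ h
  · exact le_refl _

theorem Zd_apply_nonneg (ab : Fin (U.n + 1) × Fin (U.n + 1)) (R : Place K F) :
    (0 : ℝ) ≤ ((Zd U ab R : ℤ) : ℝ) := by
  exact_mod_cast Zd_nonneg U ab R

/-- The finite set of all zeros of the Wronskian sections. -/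
noncomputable def Tset : Finset (Place K F) :=
  Finset.univ.biUnion fun ab : Fin (U.n + 1) × Fin (U.n + 1) => (Zd U ab).support

theorem mem_Tset {ab : Fin (U.n + 1) × Fin (U.n + 1)} {R : Place K F}
    (h : R ∈ (Zd U ab).support) : R ∈ Tset U :=
  Finset.mem_biUnion.mpr ⟨ab, Finset.mem_univ _, h⟩

theorem Zd_eq_zero_of_notMem {ab : Fin (U.n + 1) × Fin (U.n + 1)} {Q : Place K F}
    (h : Q ∉ Tset U) : Zd U ab Q = 0 := by
  by_contra hne
  exact h (mem_Tset U (Finsupp.mem_support_iff.mpr hne))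

/-- A bound for the degrees of all the zero divisors. -/
noncomputable def Btot : ℝ :=
  ∑ ab : Fin (U.n + 1) × Fin (U.n + 1), ∑ R ∈ (Zd U ab).support, ((Zd U ab R : ℤ) : ℝ)

theorem sum_Zd_nonneg (ab : Fin (U.n + 1) × Fin (U.n + 1)) :
    0 ≤ ∑ R ∈ (Zd U ab).support, ((Zd U ab R : ℤ) : ℝ) :=
  Finset.sum_nonneg fun R _ => Zd_apply_nonneg U ab R

theorem Btot_nonneg : 0 ≤ Btot U := Finset.sum_nonneg fun ab _ => sum_Zd_nonneg U ab

theorem sum_Zd_le (ab : Fin (U.n + 1) × Fin (U.n + 1)) :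
    ∑ R ∈ (Zd U ab).support, ((Zd U ab R : ℤ) : ℝ) ≤ Btot U :=
  Finset.single_le_sum (f := fun ab => ∑ R ∈ (Zd U ab).support, ((Zd U ab R : ℤ) : ℝ))
    (fun ab _ => sum_Zd_nonneg U ab) (Finset.mem_univ ab)

/-- The vanishing of `Zd ab` at `Q` in terms of the minors. -/
theorem wedge_ne_zero_iff_Zd (Q : Place K F) (ab : Fin (U.n + 1) × Fin (U.n + 1)) :
    wedge (U.pt Q) (U.tg Q) ab ≠ 0 ↔ wr U ab.1 ab.2 ≠ 0 ∧ Zd U ab Q = 0 := by
  rw [show ab = (ab.1, ab.2) from rfl, wedge_ne_zero_iff]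
  constructor
  · rintro ⟨hw, hz⟩
    exact ⟨hw, by rw [Zd_of_ne U (ab := (ab.1, ab.2)) hw, Zdiv_apply]; exact hz⟩
  · rintro ⟨hw, hz⟩
    refine ⟨hw, ?_⟩
    rw [Zd_of_ne U (ab := (ab.1, ab.2)) hw, Zdiv_apply] at hz
    exact hz

/-! ### Distances between the points of `Tset` -/

theorem pt_ne_zero (P : Place K F) : U.pt P ≠ 0 := (veryAmpleU U).1 P

theorem chord_pos {P Q : Place K F} (h : P ≠ Q) : 0 < chord v (U.pt P) (U.pt Q) := by
  unfold chord
  refine div_pos ((supNorm_pos_iff v _).mpr ((veryAmpleU U).2.1 P Q h))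
    (mul_pos ((supNorm_pos_iff v _).mpr (pt_ne_zero U P)) ((supNorm_pos_iff v _).mpr (pt_ne_zero U Q)))

/-- `∑_{R ≠ R' ∈ Tset} log⁺ (1 / chord_v (R, R'))`. -/
noncomputable def Emu : ℝ :=
  ∑ RR ∈ Tset U ×ˢ Tset U,
    if RR.1 = RR.2 then 0 else max 0 (-Real.log (chord v (U.pt RR.1) (U.pt RR.2)))

theorem Emu_nonneg : 0 ≤ Emu U v := by
  refine Finset.sum_nonneg fun RR _ => ?_
  split_ifs
  · exact le_refl _
  · exact le_max_left _ _

theorem neg_log_chord_le_Emu {R R' : Place K F} (hR : R ∈ Tset U) (hR' : R' ∈ Tset U)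
    (h : R ≠ R') : -Real.log (chord v (U.pt R) (U.pt R')) ≤ Emu U v := by
  have hmem : (R, R') ∈ Tset U ×ˢ Tset U := Finset.mem_product.mpr ⟨hR, hR'⟩
  have h1 := Finset.single_le_sum
    (f := fun RR : Place K F × Place K F =>
      if RR.1 = RR.2 then (0 : ℝ) else max 0 (-Real.log (chord v (U.pt RR.1) (U.pt RR.2))))
    (fun RR _ => by
      show (0 : ℝ) ≤ _
      split_ifs
      · exact le_refl _
      · exact le_max_left _ _) hmem
  simp only [if_neg h] at h1
  exact le_trans (le_max_right _ _) h1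

/-! ### The lower bound at a base-point-free family -/

/-- The local pairing of `Zd ab` with a point outside its support, bounded through the chordal
distances. -/
theorem pairAt_Zd_le (ab : Fin (U.n + 1) × Fin (U.n + 1)) (Q : Place K F) (bound : ℝ)
    (hb : 0 ≤ bound) (hQ : Zd U ab Q = 0)
    (h : ∀ R ∈ (Zd U ab).support, -Real.log (chord v (U.pt R) (U.pt Q)) ≤ bound) :
    pairAt v U.x U.t (Zd U ab) (Finsupp.single Q 1) ≤ Btot U * bound := by
  rw [pairAt_eq_sum, Finsupp.support_single Q (one_ne_zero)]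
  simp only [Finset.sum_singleton, Finsupp.single_eq_same, Int.cast_one, mul_one]
  calc ∑ R ∈ (Zd U ab).support, ((Zd U ab R : ℤ) : ℝ) * lamAt v U.x U.t R Q
      ≤ ∑ R ∈ (Zd U ab).support, ((Zd U ab R : ℤ) : ℝ) * bound := by
        refine Finset.sum_le_sum fun R hR => ?_
        have hRQ : R ≠ Q := by
          rintro rfl
          exact (Finsupp.mem_support_iff.mp hR) hQ
        rw [lamAt_of_ne v U.x U.t hRQ]
        exact mul_le_mul_of_nonneg_left (h R hR) (Zd_apply_nonneg U ab R)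
    _ = (∑ R ∈ (Zd U ab).support, ((Zd U ab R : ℤ) : ℝ)) * bound := by rw [Finset.sum_mul]
    _ ≤ Btot U * bound := mul_le_mul_of_nonneg_right (sum_Zd_le U ab) hb

theorem log_triC_nonneg : 0 ≤ Real.log (triC v 3) :=
  Real.log_nonneg (one_le_triC v (by norm_num))

/-- **BPF-lower**: at every place some nonvanishing minor has a small local pairing. -/
theorem bpf_lower (Q : Place K F) :
    ∃ ab : Fin (U.n + 1) × Fin (U.n + 1), wedge (U.pt Q) (U.tg Q) ab ≠ 0 ∧
      pairAt v U.x U.t (Zd U ab) (Finsupp.single Q 1) ≤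
        Btot U * (Real.log (triC v 3) + Emu U v) := by
  have hbound : 0 ≤ Real.log (triC v 3) + Emu U v :=
    add_nonneg (log_triC_nonneg v) (Emu_nonneg U v)
  by_cases hQT : Q ∈ Tset U
  · -- `Q` is itself one of the zeros: use a minor not vanishing at `Q`
    obtain ⟨a, b, hab⟩ := exists_wedge_ne_zero U Q
    refine ⟨(a, b), hab, ?_⟩
    have hZ := ((wedge_ne_zero_iff_Zd U Q (a, b)).mp hab).2
    refine pairAt_Zd_le U v (a, b) Q _ hbound hZ fun R hR => ?_
    have hRQ : R ≠ Q := by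
      rintro rfl
      exact (Finsupp.mem_support_iff.mp hR) hZ
    have := neg_log_chord_le_Emu U v (mem_Tset U hR) hQT hRQ
    linarith [log_triC_nonneg v]
  · rcases (Tset U).eq_empty_or_nonempty with hT | hT
    · -- no zeros at all
      obtain ⟨a, b, hab⟩ := exists_wedge_ne_zero U Q
      refine ⟨(a, b), hab, ?_⟩
      have hZ := ((wedge_ne_zero_iff_Zd U Q (a, b)).mp hab).2
      refine pairAt_Zd_le U v (a, b) Q _ hbound hZ fun R hR => ?_
      have := mem_Tset U hR
      rw [hT] at this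
      exact absurd this (Finset.notMem_empty R)
    · -- the zero closest to `Q`
      obtain ⟨R₀, hR₀, hmin⟩ :=
        Finset.exists_min_image (Tset U) (fun R => chord v (U.pt R) (U.pt Q)) hT
      obtain ⟨a, b, hab⟩ := exists_wedge_ne_zero U R₀
      obtain ⟨hw, hZ₀⟩ := (wedge_ne_zero_iff_Zd U R₀ (a, b)).mp hab
      have hZQ : Zd U (a, b) Q = 0 := Zd_eq_zero_of_notMem U hQT
      refine ⟨(a, b), (wedge_ne_zero_iff_Zd U Q (a, b)).mpr ⟨hw, hZQ⟩, ?_⟩
      refine pairAt_Zd_le U v (a, b) Q _ hbound hZQ fun R hR => ?_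
      have hRT := mem_Tset U hR
      have hRR₀ : R ≠ R₀ := by
        rintro rfl
        exact (Finsupp.mem_support_iff.mp hR) hZ₀
      have hRQ : R ≠ Q := by
        rintro rfl
        exact hQT hRT
      -- chordal triangle inequality
      have htri := chord_triangle v (U.pt R) (U.pt Q) (U.pt R₀) (pt_ne_zero U R) (pt_ne_zero U Q)
        (pt_ne_zero U R₀)
      have hmax : max (chord v (U.pt R) (U.pt Q)) (chord v (U.pt Q) (U.pt R₀)) =
          chord v (U.pt R) (U.pt Q) := by
        apply max_eq_left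
        rw [chord_comm v (U.pt Q) (U.pt R₀)]
        exact hmin R hRT
      rw [hmax] at htri
      have h1 := chord_pos U v hRR₀
      have h2 := chord_pos U v hRQ
      have h3 : 0 < triC v 3 := triC_pos v (by norm_num)
      have h4 : Real.log (chord v (U.pt R) (U.pt R₀)) ≤
          Real.log (triC v 3) + Real.log (chord v (U.pt R) (U.pt Q)) := by
        rw [← Real.log_mul h3.ne' h2.ne']
        exact Real.log_le_log h1 htri
      have h5 := neg_log_chord_le_Emu U v hRT hR₀ hRR₀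
      linarith

/-! ### The local adjunction inequality -/

/-- The reference values `Φ_v(wr a b; inf)`. -/
noncomputable def cref (ab : Fin (U.n + 1) × Fin (U.n + 1)) : ℝ :=
  if h : wr U ab.1 ab.2 ≠ 0 then
    phiAt v U.x U.t (wr U ab.1 ab.2) (divWr U ab.1 ab.2 h) U.inf
  else 0

/-- The sum of the absolute values of the reference values. -/
noncomputable def cabs : ℝ := ∑ ab : Fin (U.n + 1) × Fin (U.n + 1), |cref U v ab|

theorem cabs_nonneg : 0 ≤ cabs U v := Finset.sum_nonneg fun _ _ => abs_nonneg _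

theorem abs_cref_le (ab : Fin (U.n + 1) × Fin (U.n + 1)) : |cref U v ab| ≤ cabs U v :=
  Finset.single_le_sum (f := fun ab => |cref U v ab|) (fun _ _ => abs_nonneg _)
    (Finset.mem_univ ab)

/-- The local error term. -/
noncomputable def Eloc (Cv : ℝ) : ℝ :=
  cabs U v + Real.log Cv + Btot U * (Real.log (triC v 3) + Emu U v)

theorem Eloc_nonneg {Cv : ℝ} (hC : 1 ≤ Cv) : 0 ≤ Eloc U v Cv := by
  unfold Eloc
  have h1 := cabs_nonneg U v
  have h2 := Real.log_nonneg hC
  have h3 := mul_nonneg (Btot_nonneg U) (add_nonneg (log_triC_nonneg v) (Emu_nonneg U v))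
  linarith

/-- **The local adjunction inequality.** -/
theorem local_adj (d : ℤ) (Cv : ℝ) (hUD : UDLocal v U.x U.t d Cv)
    (hd : ∀ (a b : Fin (U.n + 1)) (h : wr U a b ≠ 0), posDeg (divWr U a b h) ≤ d)
    (P : Place K F) :
    Real.log (v (rho U P)) + (((2 * U.m : ℕ) : ℤ) : ℝ) * lamAt v U.x U.t U.inf P
        - 2 * Real.log (supNorm v (U.pt P))
        + pairAt v U.x U.t (Wdiv U) (Finsupp.single P 1) - Eloc U v Cv ≤
      -lamAt v U.x U.t P P := by
  obtain ⟨ab, hne, hpair⟩ := bpf_lower U v P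
  obtain ⟨hw, hZ⟩ := (wedge_ne_zero_iff_Zd U P ab).mp hne
  have hz : zfun U ab.1 ab.2 P = 0 := by
    rw [Zd_of_ne U hw, Zdiv_apply] at hZ
    exact hZ
  have heq : wedge (U.pt P) (U.tg P) ab = leadAt P (U.t P) (wr U ab.1 ab.2) * rho U P :=
    wedge_eq_lead_mul_rho U P hw hz
  have hL : leadAt P (U.t P) (wr U ab.1 ab.2) ≠ 0 := by
    intro h0
    rw [h0, zero_mul] at heq
    exact hne heq
  have hvL : 0 < v (leadAt P (U.t P) (wr U ab.1 ab.2)) := v.pos hL
  have hvr : 0 < v (rho U P) := v.pos (rho_ne_zero U P)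
  -- (1) the diagonal term
  have hsw : v (leadAt P (U.t P) (wr U ab.1 ab.2)) * v (rho U P) ≤
      supNorm v (wedge (U.pt P) (U.tg P)) := by
    rw [← map_mul, ← heq]
    exact le_supNorm v _ ab
  have hsw_pos : 0 < supNorm v (wedge (U.pt P) (U.tg P)) := lt_of_lt_of_le (mul_pos hvL hvr) hsw
  have hsp_pos : 0 < supNorm v (U.pt P) := (supNorm_pos_iff v _).mpr (pt_ne_zero U P)
  have h1 : -lamAt v U.x U.t P P =
      Real.log (supNorm v (wedge (U.pt P) (U.tg P))) - 2 * Real.log (supNorm v (U.pt P)) := by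
    rw [lamAt_self, neg_neg]
    show Real.log (supNorm v (wedge (U.pt P) (U.tg P)) / supNorm v (U.pt P) ^ 2) = _
    rw [Real.log_div hsw_pos.ne' (pow_ne_zero 2 hsp_pos.ne'), Real.log_pow]
    push_cast
    ring
  have h2 : Real.log (v (leadAt P (U.t P) (wr U ab.1 ab.2))) + Real.log (v (rho U P)) ≤
      Real.log (supNorm v (wedge (U.pt P) (U.tg P))) := by
    rw [← Real.log_mul hvL.ne' hvr.ne']
    exact Real.log_le_log (mul_pos hvL hvr) hsw
  -- (2) the uniform decomposition for the Wronskian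
  have h3 := hUD (wr U ab.1 ab.2) (divWr U ab.1 ab.2 hw) hw (isDivOf_divWr U ab.1 ab.2 hw)
    (hd ab.1 ab.2 hw) P U.inf
  have h3' : cref U v ab - Real.log Cv ≤
      Real.log (v (leadAt P (U.t P) (wr U ab.1 ab.2))) +
        pairAt v U.x U.t (divWr U ab.1 ab.2 hw) (Finsupp.single P 1) := by
    have hc : cref U v ab =
        phiAt v U.x U.t (wr U ab.1 ab.2) (divWr U ab.1 ab.2 hw) U.inf := by
      unfold cref; rw [dif_pos hw]
    have := (abs_le.mp h3).1
    rw [hc]
    unfold phiAt at this ⊢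
    linarith
  -- (3) the divisor of the Wronskian
  have h4 : pairAt v U.x U.t (divWr U ab.1 ab.2 hw) (Finsupp.single P 1) =
      pairAt v U.x U.t (Zd U ab) (Finsupp.single P 1)
        - (((2 * U.m : ℕ) : ℤ) : ℝ) * lamAt v U.x U.t U.inf P
        - pairAt v U.x U.t (Wdiv U) (Finsupp.single P 1) := by
    rw [divWr_eq, pairAt_sub_left, pairAt_sub_left, pairAt_single_single, Zd_of_ne U hw]
    push_cast
    ring
  have h5 := abs_cref_le U v ab
  have h6 : -cabs U v ≤ cref U v ab := by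
    have := neg_abs_le (cref U v ab)
    linarith
  unfold Eloc
  linarith

end Fermat.Agent.MW.FF.AdjLocal49
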