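/-
Program MW-H (S17), brick N1, complement (helper48): THE DEGREE OF THE NORM POLYNOMIAL.

Setting of `MW/FF/NormFibre48`: `K` algebraically closed of characteristic zero, `u` a generator of
the function field `F / K`, `f ≠ 0` integral over `K[u]`, `N(u)` its norm to `K(u)`.

* `finsum_ord_eq_zero` : the orders of a nonzero function are finitely supported and sum to zero;
* `fibre_disjoint` : distinct fibres of `u` are disjoint;
* `natDegree_norm` : `deg N = - ∑_{P pole of u} ord_P f`.
-/
import Mathlib
import Fermat.Agent.X0.FFPrincipal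
import Fermat.Agent.MW.FF.NormFibre48

set_option autoImplicit false
set_option linter.unusedSectionVars false

open AlgebraicCurve IntermediateField Polynomial IsDedekindDomain
open Fermat.Agent.X0.FF Fermat.Agent.MW.FF.NormFibre48

namespace Fermat.Agent.MW.FF.NormDegree48

variable {K F : Type*} [Field K] [Field F] [Algebra K F] [IsAlgClosed K] [CharZero K] {u : F}

/-- The `FF1Data` bundle of `X0/FFPrincipal` (local copy, to keep the import closure small). -/
theorem ff1Data48 (hu : IsGen K u) : FF1Data K F where
  isGen_of_transcendental := fun _ hy => hu.of_transcendental hy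
  eq_algebraMap_of_isAlgebraic := fun _ hy => eq_algebraMap_of_isAlgebraic hy
  deg_eq_one := fun v => deg_eq_one hu v
  finite_zeros := fun _ hy => finite_zeros hy
  sum_ord_zeros := fun _ hy => sum_ord_zeros hy
  finite_poles := fun _ hy => finite_poles hy
  sum_ord_poles := fun _ hy => sum_ord_poles hy

/-- The orders of a nonzero function sum to zero. -/
theorem finsum_ord_eq_zero (hu : IsGen K u) {f : F} (hf0 : f ≠ 0) :
    (Function.support fun P : Place K F => P.ord f).Finite ∧
      ∑ᶠ P : Place K F, P.ord f = 0 := by
  classical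
  have H := ff1Data48 hu
  have hfin : {v : Place K F | v.ord f ≠ 0}.Finite := ffq_finite_support_ord H hf0
  have hfin' : (Function.support fun P : Place K F => P.ord f).Finite := hfin
  refine ⟨hfin', ?_⟩
  let D : Divisor K F := Finsupp.ofSupportFinite (fun v => v.ord f) hfin'
  have hD : ∀ v, D v = v.ord f := fun v => rfl
  have h0 := ffq_degree_eq_zero_of_principal H hf0 D hD
  rw [ffq_degree_eq_sum H] at h0
  rw [finsum_eq_sum_of_support_subset (s := D.support)]
  · rw [← h0]
    exact Finset.sum_congr rfl fun v _ => (hD v).symm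
  · intro v hv
    rw [Finset.mem_coe, Finsupp.mem_support_iff, hD]
    exact hv

/-- Distinct fibres of `u` are disjoint. -/
theorem fibre_disjoint {c c' : K} (hcc : c ≠ c') (P : Place K F)
    (h : 0 < P.ord (u - algebraMap K F c)) (h' : 0 < P.ord (u - algebraMap K F c')) : False := by
  have hne : (u - algebraMap K F c') - (u - algebraMap K F c) ≠ 0 := by
    intro h0
    apply hcc
    apply (algebraMap K F).injective
    have : algebraMap K F c - algebraMap K F c' = 0 := by rw [← h0]; ring
    exact sub_eq_zero.mp this
  have h1 := ord_sub_ge P hne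
  have h2 : (u - algebraMap K F c') - (u - algebraMap K F c) = algebraMap K F (c - c') := by
    rw [map_sub]; ring
  rw [h2, ord_algebraMap] at h1
  have := lt_min h' h
  omega

/-- **N1, degree formula.**  The degree of the norm polynomial is the total pole order of `f`
along the poles of `u`. -/
theorem natDegree_norm (hu : IsGen K u) {f : F} (hf0 : f ≠ 0)
    (hf : IsIntegral (polyRing K u) f) (N : K[X])
    (hN : algebraMap K⟮u⟯ F (Algebra.norm K⟮u⟯ f) = aeval u N) :
    (N.natDegree : ℤ) = -∑ᶠ (P : Place K F) (_ : P.ord u < 0), P.ord f := by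
  classical
  obtain ⟨hsupp, hzero⟩ := finsum_ord_eq_zero hu hf0
  set g : Place K F → ℤ := fun P => P.ord f with hg
  -- regularity at the finite places
  have hreg : ∀ P : Place K F, 0 ≤ P.ord u → 0 ≤ g P := by
    intro P hP
    have hmem : f ∈ P.toValuationSubring := by
      have := intRing_le_of_mem P (mem_of_ord_nonneg P hP) (⟨f, hf⟩ : intRing K u)
      exact this
    exact ord_nonneg_of_mem P hmem
  -- split into finite places and poles of `u`
  have hsplit : ∑ᶠ P : Place K F, g P =
      ∑ᶠ P ∈ {P : Place K F | 0 ≤ P.ord u}, g P + ∑ᶠ P ∈ {P : Place K F | P.ord u < 0}, g P := by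
    rw [← finsum_mem_univ, ← finsum_mem_union' _ (hsupp.inter_of_right _)
      (hsupp.inter_of_right _)]
    · refine finsum_mem_congr ?_ fun _ _ => rfl
      ext P
      simp only [Set.mem_univ, Set.mem_union, Set.mem_ofPred_eq, true_iff]
      exact le_or_gt 0 (P.ord u)
    · rw [Set.disjoint_left]
      intro P h1 h2
      simp only [Set.mem_ofPred_eq] at h1 h2
      omega
  -- the finite part, fibre by fibre
  set R : Finset K := N.roots.toFinset with hR
  have hN0 : N ≠ 0 := by
    rintro rfl
    rw [map_zero] at hN
    have := hu.finite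
    have h1 : Algebra.norm K⟮u⟯ f = 0 :=
      (map_eq_zero_iff _ (algebraMap K⟮u⟯ F).injective).mp hN
    exact hf0 (Algebra.norm_eq_zero_iff.mp h1)
  have hfib : ∀ c : K, (N.rootMultiplicity c : ℤ) =
      ∑ᶠ P ∈ {P : Place K F | 0 < P.ord (u - algebraMap K F c)}, g P :=
    fun c => rootMultiplicity_norm hu hf0 hf N hN c
  have hmem_fin : ∀ (c : K) (P : Place K F), 0 < P.ord (u - algebraMap K F c) → 0 ≤ P.ord u := by
    intro c P hP
    have h1 : u - algebraMap K F c ∈ P.toValuationSubring := mem_of_ord_nonneg P hP.le
    have h2 : algebraMap K F c ∈ P.toValuationSubring := P.algebraMap_mem' c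
    have : u = (u - algebraMap K F c) + algebraMap K F c := by ring
    have h3 : u ∈ P.toValuationSubring := by
      rw [this]; exact P.toValuationSubring.add_mem _ _ h1 h2
    exact ord_nonneg_of_mem P h3
  have hfinite : ∑ᶠ P ∈ {P : Place K F | 0 ≤ P.ord u}, g P =
      ∑ᶠ P ∈ ⋃ c ∈ (R : Set K), {P : Place K F | 0 < P.ord (u - algebraMap K F c)}, g P := by
    apply finsum_mem_inter_support_eq'
    intro P hP
    have hgP : g P ≠ 0 := hP
    simp only [Set.mem_ofPred_eq, Set.mem_iUnion, exists_prop]
    constructor
    · intro hPu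
      have hmemu : u ∈ P.toValuationSubring := mem_of_ord_nonneg P hPu
      obtain ⟨c, hc⟩ := exists_ord_sub_pos hu P hmemu
      have hc' : 0 < P.ord (u - algebraMap K F c) := by
        rcases hc with hc | hc
        · exact absurd (hc ▸ isAlgebraic_algebraMap c) hu.transcendental
        · exact hc
      refine ⟨c, ?_, hc'⟩
      by_contra hcR
      have hroot : N.rootMultiplicity c = 0 := by
        rw [rootMultiplicity_eq_zero_iff]
        intro hroot
        exact absurd (by rw [hR, Finset.mem_coe, Multiset.mem_toFinset, mem_roots hN0]; exact hroot) hcR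
      have hsum := hfib c
      rw [hroot, Nat.cast_zero] at hsum
      have hfinc := finite_fibre hu c
      rw [finsum_mem_eq_finite_toFinset_sum _ hfinc] at hsum
      have hall := (Finset.sum_eq_zero_iff_of_nonneg (fun Q hQ => by
        rw [Set.Finite.mem_toFinset, Set.mem_ofPred_eq] at hQ
        exact hreg Q (hmem_fin c Q hQ))).mp hsum.symm P (by
          rw [Set.Finite.mem_toFinset, Set.mem_ofPred_eq]; exact hc')
      exact hgP hall
    · rintro ⟨c, -, hc⟩
      exact hmem_fin c P hc
  have hunion : ∑ᶠ P ∈ ⋃ c ∈ (R : Set K), {P : Place K F | 0 < P.ord (u - algebraMap K F c)}, g P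
      = ∑ c ∈ R, (N.rootMultiplicity c : ℤ) := by
    rw [finsum_mem_biUnion _ R.finite_toSet (fun c _ => finite_fibre hu c), finsum_mem_coe_finset]
    · exact Finset.sum_congr rfl fun c _ => (hfib c).symm
    · intro c _ c' _ hcc
      rw [Function.onFun, Set.disjoint_left]
      intro P h1 h2
      exact fibre_disjoint hcc P h1 h2
  have hdeg : ∑ c ∈ R, (N.rootMultiplicity c : ℤ) = N.natDegree := by
    rw [← Nat.cast_sum, hR]
    have : ∑ c ∈ N.roots.toFinset, N.rootMultiplicity c = ∑ c ∈ N.roots.toFinset, N.roots.count c :=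
      Finset.sum_congr rfl fun c _ => (count_roots N).symm
    rw [this, Multiset.toFinset_sum_count_eq, IsAlgClosed.card_roots_eq_natDegree]
  rw [hsplit, hfinite, hunion, hdeg] at hzero
  have : ∑ᶠ (P : Place K F) (_ : P.ord u < 0), P.ord f =
      ∑ᶠ P ∈ {P : Place K F | P.ord u < 0}, g P := rfl
  rw [this]
  omega

end Fermat.Agent.MW.FF.NormDegree48
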