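/-
Program MW-H (S17), brick UB4z (helper80): `BricksU7.USetup.ZeroDivSpec`.

A nonzero section `s ∈ L(k m · inf)` has a divisor of zeros `Z = div s + k m · inf`, effective of
degree `k m` (all places have degree one since `K` is algebraically closed).
-/
import Mathlib
import Fermat.Agent.MW.Spec.BricksU7
import Fermat.Agent.X0.FFGenus6

set_option autoImplicit false

open AlgebraicCurve

namespace Fermat.Agent.MW.FF.ZeroDiv80

open Fermat.Agent.MW.Spec.Defs7 Fermat.Agent.MW.Spec.BricksU7 Fermat.Agent.X0.FF

variable {K F : Type} [Field K] [Field F] [Algebra K F]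

/-- When all places have degree one, the degree of a divisor is the sum of its coefficients. -/
theorem sum_eq_degree [IsAlgClosed K] [CharZero K] {u : F} (hu : IsGen K u) (Z : Divisor K F) :
    (Z.sum fun _ e => e) = Divisor.degree Z := by
  unfold Divisor.degree
  rw [Finsupp.liftAddHom_apply]
  refine Finset.sum_congr rfl fun P _ => ?_
  show Z P = Z P * (P.deg : ℤ)
  rw [deg_eq_one hu P]
  simp

variable [HasCanonicalDivisor (K := K) (F := F)]

/-- **Brick UB4z**: zero divisors of sections. -/
theorem zeroDivSpec [IsAlgClosed K] [CharZero K] (U : USetup K F) : U.ZeroDivSpec := by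
  intro k s hs hs0
  obtain ⟨D, hD, hdeg⟩ := (hasPrincipalDivisors U.gen).exists_divisor s hs0
  refine ⟨D + Finsupp.single U.inf ((k * U.m : ℕ) : ℤ), ?_, ?_, ?_⟩
  · intro P
    rw [Finsupp.add_apply, hD]
  · intro P
    rw [Finsupp.zero_apply, Finsupp.add_apply, hD]
    rcases (mem_riemannRochSpace_iff.mp hs) P with h | h
    · exact absurd h hs0
    · linarith
  · rw [sum_eq_degree U.gen, map_add, hdeg, Divisor.degree_single, deg_eq_one U.gen]
    simp

end Fermat.Agent.MW.FF.ZeroDiv80
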